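/-
S48lib / X1 / Red / MuInst  (helper6, block P6, item (4) of the pipeline #lead-160).

**The Hauptmoduln `μ₄`, `μ₉` on the residue curve of `X₁(M)`.**  For `4 ∣ M` (resp. `9 ∣ M`) the
integral `q`-series `μ₄` (resp. `μ₉`) of main's `S18lib/Haupt` lies in `X₀(M) ⊆ X₁(M)`
(`HeckeJ.full_le_F1`); for a Gauss datum `G` on `(FBar₁(M), FRes1 A M)` which is the coefficientwise
reduction of `q`-expansions (`Igusa.SeriesCompat`), its reduction `μ̄ ∈ FRes1 A M` satisfies the
`μ₄`- (resp. `μ₉`-) relation with `j̄ = G.redF j`: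

* `muL4 hM h4 : FBar₁(M)`, `coe_muL4`; `redF_jBq` : `(G.redF j : k((q))) = j(q)`;
* **`exists_mu4_F1`**, **`exists_mu9_F1`** : the hypothesis `hrel` of
  `Red.exists_redDatum_F1_mu4/_mu9`.
-/
import Mathlib
import Fermat.Agent.S48lib.X1.HeckeJ.Rational
import Fermat.Agent.S48lib.X1.Equiv.QRedOf
import Fermat.Agent.S48lib.X1.Field.Res
import Fermat.Agent.S18lib.Haupt.Residue

set_option autoImplicit false
set_option linter.unusedSectionVars false
set_option linter.style.haveILetI false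

noncomputable section

namespace Fermat.Agent.S48lib.X1.Red

open AlgebraicCurve ModularCurve IntermediateField
open Fermat.Agent.S18lib Fermat.Agent.S18lib.Haupt
open Fermat.Agent.S48lib.X1.HeckeJ Fermat.Agent.S48lib.X1.Igusa Fermat.Agent.S48lib.X1.Equiv

/-- `ℚ̄` -/
local notation "Qb" => AlgebraicClosure ℚ

variable {M : ℕ} [NeZero M] {A : ValuationSubring Qb}

local notation "k" => IsLocalRing.ResidueField A

/-! ### integral level-`M` series in `FBar₁(M)` -/

/-- an integral `q`-series of `X₀(M)` (over `ℚ̄`) lies in `FBar₁(M)` -/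
theorem castK_mem_FBar1 (hM : 1 < M) {x : LaurentSeries ℤ}
    (hx : castK Qb x ∈ modularFunctionFieldFullC Qb M) :
    V.toL A (castA A x) ∈ laurentBaseChange Qb (F1 M) := by
  rw [toL_castA]
  exact fullBar_le_FBar1 hM (fullC_Qbar_le M hx)

theorem mu4_mem_FBar1 (hM : 1 < M) (h4 : 4 ∣ M) :
    V.toL A (castA A mu4) ∈ laurentBaseChange Qb (F1 M) :=
  castK_mem_FBar1 hM (mu4_mem_fullC Qb M (Gink.intToQbar : _ →+* _) two_ne_zero h4)

theorem mu9_mem_FBar1 (hM : 1 < M) (h9 : 9 ∣ M) :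
    V.toL A (castA A mu9) ∈ laurentBaseChange Qb (F1 M) :=
  castK_mem_FBar1 hM (mu9_mem_fullC Qb M (Gink.intToQbar : _ →+* _) three_ne_zero h9)

theorem JL_mem_FBar1 : V.toL A (castA A JL) ∈ laurentBaseChange Qb (F1 M) := by
  rw [toL_castA, castK_JL]
  exact jqModC_mem (F1 M) (jq_mem_F1 M)

theorem jBq_eq_toL :
    jBq (F1 M) (jq_mem_F1 M) = ⟨V.toL A (castA A JL), JL_mem_FBar1⟩ := by
  apply Subtype.ext
  show ((jBq (F1 M) (jq_mem_F1 M) : FBq (F1 M)) : LaurentSeries Qb) = V.toL A (castA A JL)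
  rw [coe_jBq, toL_castA, castK_JL]

/-! ### reduction -/

section Red

variable (G : GaussDatum A (FBq (F1 M)) ↥(FRes1 A M))
  (h : SeriesCompat G (inclQ (F1 M)) (inclK (FRes1 A M)))

include h

/-- the reduction of an integral series is its coefficientwise reduction -/
theorem coe_redF_castA {x : LaurentSeries ℤ}
    (hx : V.toL A (castA A x) ∈ laurentBaseChange Qb (F1 M)) :
    ((G.redF (⟨V.toL A (castA A x), hx⟩ : FBq (F1 M)) : ↥(FRes1 A M)) : LaurentSeries k) =
      castK k x := by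
  rw [int_red_of_compat G h (castA A x) hx, toK_castA]

/-- `j` reduces to `j̄ = j(q)` -/
theorem coe_redF_jBq :
    ((G.redF (jBq (F1 M) (jq_mem_F1 M)) : ↥(FRes1 A M)) : LaurentSeries k) = jqModC k := by
  rw [jBq_eq_toL (A := A), coe_redF_castA G h JL_mem_FBar1, castK_JL]

theorem redF_jBq : G.redF (jBq (F1 M) (jq_mem_F1 M)) = jRes1 A M :=
  Subtype.ext (coe_redF_jBq G h)

/-- **the `μ₄`-relation on the residue curve of `X₁(M)`, `4 ∣ M`** -/
theorem exists_mu4_F1 (hM : 1 < M) (h4 : 4 ∣ M) :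
    ∃ μ : ↥(FRes1 A M), ((μ : ↥(FRes1 A M)) : LaurentSeries k) = castK k mu4 ∧
      G.redF (jBq (F1 M) (jq_mem_F1 M)) * (μ ^ 4 * (μ + 16)) =
        (μ ^ 2 + 256 * μ + 4096) ^ 3 := by
  refine ⟨G.redF ⟨V.toL A (castA A mu4), mu4_mem_FBar1 hM h4⟩,
    coe_redF_castA G h (mu4_mem_FBar1 hM h4), ?_⟩
  apply (algebraMap ↥(FRes1 A M) (LaurentSeries k)).injective
  have hrel := congrArg (castK k) JL_mul_mu4
  simp only [map_mul, map_pow, map_add, map_ofNat, castK_JL] at hrel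
  simp only [map_mul, map_pow, map_add, map_ofNat, IntermediateField.algebraMap_apply,
    coe_redF_castA G h (mu4_mem_FBar1 hM h4), coe_redF_jBq G h]
  exact hrel

/-- **the `μ₉`-relation on the residue curve of `X₁(M)`, `9 ∣ M`** -/
theorem exists_mu9_F1 (hM : 1 < M) (h9 : 9 ∣ M) :
    ∃ μ : ↥(FRes1 A M), ((μ : ↥(FRes1 A M)) : LaurentSeries k) = castK k mu9 ∧
      G.redF (jBq (F1 M) (jq_mem_F1 M)) * (μ ^ 9 * (μ ^ 2 + 9 * μ + 27)) =
        (μ + 9) ^ 3 * (μ ^ 3 + 243 * μ ^ 2 + 2187 * μ + 6561) ^ 3 := by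
  refine ⟨G.redF ⟨V.toL A (castA A mu9), mu9_mem_FBar1 hM h9⟩,
    coe_redF_castA G h (mu9_mem_FBar1 hM h9), ?_⟩
  apply (algebraMap ↥(FRes1 A M) (LaurentSeries k)).injective
  have hrel := congrArg (castK k) JL_mul_mu9
  simp only [map_mul, map_pow, map_add, map_ofNat, castK_JL] at hrel
  simp only [map_mul, map_pow, map_add, map_ofNat, IntermediateField.algebraMap_apply,
    coe_redF_castA G h (mu9_mem_FBar1 hM h9), coe_redF_jBq G h]
  exact hrel

end Red

end Fermat.Agent.S48lib.X1.Red
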