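/-
S48lib / X1 / Red / CH0An  (helper4, block P6, input (CH0), complex side).

For a subgroup `Γ ≤ SL(2,ℤ)` of finite index and level `M` with a separating function, `-1 ∈ Γ`,
acting freely modulo `±1` on `ℍ` (helper9's `Chart.TorsionFree`), the ramification of
`j : Γ \ ℍ* → ℙ¹` in the Prelude `Place` language on the analytic function field
`Fan Γ = Frac (WH0 Γ)`:

* `ord_jFan_sub_eq_jOrder` : at a zero `v` of `j - a` the order is `jOrder z`, `j z = a`;
  hence `= 1` for `a ≠ 0, 1728`, `= 3` over `j = 0`, `= 2` over `j = 1728`;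
* `card_polesOf_jFan` : the number of poles of `j` is the number of `⟨T⟩`-orbits on
  `SL(2,ℤ) ⧸ Γ` (the cusps).

Everything is read off helper9's dictionaries `X1/Chart/{Fin,Infty}` and `X1/Kummer/Curve`.
-/
import Mathlib
import Fermat.Agent.S48lib.X1.Kummer.Curve
import Fermat.Agent.S18lib.Tame.Count

set_option autoImplicit false
set_option linter.unusedSectionVars false
set_option linter.style.haveILetI false

noncomputable section

namespace Fermat.Agent.S48lib.X1.Red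

open Fermat.Agent.ProgramR Fermat.Agent.ProgramR.RR Fermat.Agent.ProgramR.Alg
open Fermat.Agent.S18lib AlgebraicCurve CongruenceSubgroup IsDedekindDomain UpperHalfPlane
open Fermat.Agent.S48lib.X1.Chart Fermat.Agent.S48lib.X1.Kummer
open Polynomial
open scoped MatrixGroups

variable (Γ : Subgroup SL(2, ℤ)) [Fintype (SL(2, ℤ) ⧸ Γ)]

/-- `j` in the analytic function field of `Γ`. -/
def jFan : Fan Γ := toFan Γ (jWH0 Γ)

/-- `j - a` in `WH0 Γ`. -/
def jSub (a : ℂ) : WH0 Γ := jWH0 Γ - algebraMap ℂ (WH0 Γ) a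

lemma jSub_apply (a : ℂ) (z : ℍ) : (jSub Γ a).1 z = LevelOne.jInv z - a := rfl

lemma jSub_ne_zero (a : ℂ) : jSub Γ a ≠ 0 := by
  intro h
  obtain ⟨z, hz⟩ := LevelOne.jInv_surjective (a + 1)
  have := congrArg (fun f : WH0 Γ => f.1 z) h
  simp only [jSub_apply] at this
  rw [hz] at this
  have h0 : ((0 : WH0 Γ)).1 z = 0 := rfl
  rw [h0] at this
  simp at this

lemma toFan_jSub (a : ℂ) : toFan Γ (jSub Γ a) = jFan Γ - algebraMap ℂ (Fan Γ) a := by
  rw [jSub, toFan, map_sub, ← IsScalarTower.algebraMap_apply ℂ (WH0 Γ) (Fan Γ)]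
  rfl

lemma toHol_jSub (a : ℂ) : WH0.toHol Γ (jSub Γ a) = jHol - algebraMap ℂ Hol a := by
  apply Hol.ext
  intro z
  rfl

/-- the coordinate function of the RRgen setting is `j`. -/
lemma xF_eq_jFan : RRgen.xF ℂ (Fan Γ) = jFan Γ := by
  rw [RRgen.xF, ← RatFunc.algebraMap_X, ← IsScalarTower.algebraMap_apply ℂ[X] (RatFunc ℂ) (Fan Γ),
    IsScalarTower.algebraMap_apply ℂ[X] (WH0 Γ) (Fan Γ), algebraMap_X_eq_jWH0]
  rfl

variable {Γ}

section Finite

variable {h₀ : WH0 Γ} (hs : Wp.Separates Γ h₀) (hneg : (-1 : SL(2, ℤ)) ∈ Γ)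
  (htf : TorsionFree Γ)

include hs hneg htf in
/-- at a prime of the finite chart containing `j - a`, the order of `j - a` is `jOrder z`. -/
theorem ordV_jSub_eq_jOrder (P : HeightOneSpectrum (WH0 Γ)) (a : ℂ)
    (hP : 0 < ordV P (toFan Γ (jSub Γ a))) :
    ∃ z : ℍ, LevelOne.jInv z = a ∧ ordV P (toFan Γ (jSub Γ a)) = (LevelOne.jOrder z : ℤ) := by
  obtain ⟨z, hz1, hz2⟩ := Chart.exists_point_ordAt_eq (L := Fan Γ) hs hneg htf P
  have hmem : jSub Γ a ∈ P.asIdeal := by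
    have h1 : ((1 : ℕ) : ℤ) ≤ ordV P (algebraMap (WH0 Γ) (Fan Γ) (jSub Γ a)) := by
      have : (0 : ℤ) < ordV P (algebraMap (WH0 Γ) (Fan Γ) (jSub Γ a)) := hP
      push_cast
      omega
    have := (le_ordV_algebraMap_iff (L := Fan Γ) P (jSub_ne_zero Γ a) 1).mp h1
    rwa [pow_one] at this
  have hza : LevelOne.jInv z = a := by
    have := (hz1 (jSub Γ a)).mp hmem
    rw [jSub_apply] at this
    exact sub_eq_zero.mp this
  refine ⟨z, hza, ?_⟩
  have h2 := hz2 (jSub Γ a) (jSub_ne_zero Γ a)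
  rw [toHol_jSub, ← hza, Hol.ordAt_jHol_sub] at h2
  have h3 : LevelOne.jOrder z = (ordV P (algebraMap (WH0 Γ) (Fan Γ) (jSub Γ (LevelOne.jInv z)))).toNat := by
    exact_mod_cast h2
  have h4 : 0 ≤ ordV P (toFan Γ (jSub Γ a)) := hP.le
  rw [hza] at h3
  rw [h3]
  exact (Int.toNat_of_nonneg h4).symm

end Finite

section Infinite

variable {M : ℕ} [NeZero M] (hlev : CongruenceSubgroup.Gamma M ≤ Γ)

/-- `j` has a pole at every place of the chart at infinity. -/
theorem ord_plInf_jFan_neg (Q : HeightOneSpectrum (BInf Γ)) : (plInf Γ Q).ord (jFan Γ) < 0 := by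
  rw [Tame.ord_neg_iff_not_mem, ← xF_eq_jFan]
  exact RRgen.xF_not_mem_placeInf ℂ (Fan Γ) (BInf Γ) Q

/-- `j` is regular at every place of the finite chart. -/
theorem ord_plFin_jFan_nonneg (P : HeightOneSpectrum (WH0 Γ)) : 0 ≤ (plFin Γ P).ord (jFan Γ) := by
  have hne : jFan Γ ≠ 0 := by
    rw [← xF_eq_jFan]; exact RRgen.xF_ne_zero ℂ (Fan Γ)
  rw [Tame.ord_nonneg_iff_mem _ hne, ← xF_eq_jFan]
  exact RRgen.xF_mem_placeFin ℂ (Fan Γ) (WH0 Γ) P

end Infinite

section Main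

variable {h₀ : WH0 Γ} (hs : Wp.Separates Γ h₀) (hneg : (-1 : SL(2, ℤ)) ∈ Γ)
  (htf : TorsionFree Γ)

include hs hneg htf in
/-- **ramification of `j` at the finite places**: at a zero of `j - a` the order is `jOrder z`
for a point `z` with `j z = a`. -/
theorem ord_jFan_sub_eq_jOrder (v : Place ℂ (Fan Γ)) (a : ℂ)
    (hv : 0 < v.ord (jFan Γ - algebraMap ℂ (Fan Γ) a)) :
    ∃ z : ℍ, LevelOne.jInv z = a ∧
      v.ord (jFan Γ - algebraMap ℂ (Fan Γ) a) = (LevelOne.jOrder z : ℤ) := by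
  rcases exists_plFin_or_plInf Γ v with ⟨P, rfl⟩ | ⟨Q, rfl⟩
  · rw [← toFan_jSub, ord_plFin] at hv ⊢
    exact ordV_jSub_eq_jOrder hs hneg htf P a hv
  · exfalso
    have h1 := ord_plInf_jFan_neg Q
    rw [Tame.ord_sub_const_of_neg _ a h1] at hv
    omega

include hs hneg htf in
/-- unramified over `j = a`, `a ≠ 0, 1728`. -/
theorem ord_jFan_sub_eq_one (v : Place ℂ (Fan Γ)) (a : ℂ) (h0 : a ≠ 0) (h1728 : a ≠ 1728)
    (hv : 0 < v.ord (jFan Γ - algebraMap ℂ (Fan Γ) a)) :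
    v.ord (jFan Γ - algebraMap ℂ (Fan Γ) a) = 1 := by
  obtain ⟨z, hz, h⟩ := ord_jFan_sub_eq_jOrder hs hneg htf v a hv
  have h4 : ModularForm.E₄ z ≠ 0 := fun h4 =>
    h0 (by rw [← hz]; exact (LevelOne.jInv_eq_zero_iff z).mpr h4)
  have h6 : ModularForm.E₆ z ≠ 0 := fun h6 =>
    h1728 (by rw [← hz]; exact (LevelOne.jInv_eq_1728_iff z).mpr h6)
  have hj : LevelOne.jOrder z = 1 := by
    unfold LevelOne.jOrder
    rw [if_neg h4, if_neg h6]
  rw [h, hj]
  rfl

include hs hneg htf in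
/-- `e = 3` over `j = 0`. -/
theorem ord_jFan_eq_three (v : Place ℂ (Fan Γ)) (hv : 0 < v.ord (jFan Γ)) :
    v.ord (jFan Γ) = 3 := by
  have hv' : 0 < v.ord (jFan Γ - algebraMap ℂ (Fan Γ) 0) := by rwa [map_zero, sub_zero]
  obtain ⟨z, hz, h⟩ := ord_jFan_sub_eq_jOrder hs hneg htf v 0 hv'
  rw [map_zero, sub_zero] at h
  have h4 : ModularForm.E₄ z = 0 := (LevelOne.jInv_eq_zero_iff z).mp hz
  have hj : LevelOne.jOrder z = 3 := by
    unfold LevelOne.jOrder
    rw [if_pos h4]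
  rw [h, hj]
  rfl

include hs hneg htf in
/-- `e = 2` over `j = 1728`. -/
theorem ord_jFan_sub_eq_two (v : Place ℂ (Fan Γ))
    (hv : 0 < v.ord (jFan Γ - algebraMap ℂ (Fan Γ) 1728)) :
    v.ord (jFan Γ - algebraMap ℂ (Fan Γ) 1728) = 2 := by
  obtain ⟨z, hz, h⟩ := ord_jFan_sub_eq_jOrder hs hneg htf v 1728 hv
  have h6 : ModularForm.E₆ z = 0 := (LevelOne.jInv_eq_1728_iff z).mp hz
  have h4 : ModularForm.E₄ z ≠ 0 := LevelOne.E₄_ne_zero_of_E₆_eq_zero h6
  have hj : LevelOne.jOrder z = 2 := by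
    unfold LevelOne.jOrder
    rw [if_neg h4, if_pos h6]
  rw [h, hj]
  rfl

end Main

section Poles

variable [Γ.FiniteIndex] {M : ℕ} [NeZero M] (hlev : CongruenceSubgroup.Gamma M ≤ Γ)
  {h₀ : WH0 Γ} (hs : Wp.Separates Γ h₀)

include hlev hs in
/-- the number of primes of the chart at infinity is the number of `⟨T⟩`-orbits on the cosets. -/
theorem card_heightOneSpectrum_BInf :
    Nat.card (HeightOneSpectrum (BInf Γ)) =
      Nat.card (MulAction.orbitRel.Quotient (Subgroup.zpowers ModularGroup.T)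
        (SL(2, ℤ) ⧸ Γ)) :=
  (gammaFamily hlev hs).card_heightOneSpectrum_Binf
    (by rw [finrank_eq_card_coset hs, Nat.card_eq_fintype_card])
    (cuspFamily_order_smul hlev algebraMap_X_eq_jWH0 (cuspExp_sep hlev hs))
    (cuspFamily_orbSize_dvd hlev algebraMap_X_eq_jWH0 (cuspExp_sep hlev hs))
    (cuspFamily_supp hlev algebraMap_X_eq_jWH0 (cuspExp_sep hlev hs))

/-- the poles of `j` are the places of the chart at infinity. -/
theorem polesOf_jFan_eq_range :
    Tame.polesOf (K := ℂ) (jFan Γ) = Set.range (plInf Γ) := by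
  have h := RRgen.range_placeInf ℂ (Fan Γ) (BInf Γ)
  ext v
  rw [Tame.mem_polesOf, Tame.ord_neg_iff_not_mem, ← xF_eq_jFan]
  constructor
  · intro hv
    have : v ∈ {v : Place ℂ (Fan Γ) | RRgen.xF ℂ (Fan Γ) ∉ v.toValuationSubring} := hv
    rw [← h] at this
    exact this
  · intro hv
    have : v ∈ Set.range (RRgen.placeInf ℂ (Fan Γ) (BInf Γ)) := hv
    rw [h] at this
    exact this

include hlev hs in
/-- **the number of poles of `j`** on `Γ \ ℍ*` is the number of `⟨T⟩`-orbits on `SL(2,ℤ) ⧸ Γ`. -/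
theorem card_polesOf_jFan :
    Nat.card (Tame.polesOf (K := ℂ) (jFan Γ)) =
      Nat.card (MulAction.orbitRel.Quotient (Subgroup.zpowers ModularGroup.T)
        (SL(2, ℤ) ⧸ Γ)) := by
  rw [polesOf_jFan_eq_range, ← card_heightOneSpectrum_BInf hlev hs]
  exact Nat.card_range_of_injective (RRgen.placeInf_injective ℂ (Fan Γ) (BInf Γ))

end Poles

end Fermat.Agent.S48lib.X1.Red
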