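/-
S48lib / X1 / Red / CH0  (helper4, block P6, input (CH0)).

**The characteristic-0 genus count** for the `ℚ̄`-model `ℚ̄ · F₀` of `Γ \ ℍ*`
(`Q : QExpData F₀ (Fan Γ)`, helper9), `Γ` of level `M`, `-1 ∈ Γ`, acting freely modulo `±1`:

    12 (g - 1) = [SL(2,ℤ) : Γ] - 6 · #(⟨T⟩-orbits on SL(2,ℤ) ⧸ Γ).

Route: every place `P` of `ℚ̄ · F₀` has a place `P'` of `Fan Γ` above it with
`ord_{P'} ∘ Φ = ord_P` (helper9's `QExpData.exists_place_above`); so the ramification of `j` over
`ℚ̄` is the analytic one (`CH0An`), and a degree count shows that `P ↦ P'` is ONTO the poles of `j`;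
then the instance-free Riemann–Hurwitz formula `RRgen.Canonical.rh_eq_genusOf` over `ℚ̄`.
-/
import Mathlib
import Fermat.Agent.S48lib.X1.Red.CH0An
import Fermat.Agent.S48lib.X1.Desc.Unram
import Fermat.Agent.S18lib.RRgen.Canonical
import Fermat.Agent.S18lib.Weak.PolyAdapter
import Fermat.Agent.S36lib.Count.OrdGen

set_option autoImplicit false
set_option linter.unusedSectionVars false
set_option linter.style.haveILetI false

noncomputable section

namespace Fermat.Agent.S48lib.X1.Red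

open Fermat.Agent.ProgramR Fermat.Agent.ProgramR.RR Fermat.Agent.ProgramR.Alg
open Fermat.Agent.S18lib AlgebraicCurve ModularCurve CongruenceSubgroup IsDedekindDomain
  UpperHalfPlane IntermediateField Module
open Fermat.Agent.S48lib.X1.Chart Fermat.Agent.S48lib.X1.Kummer Fermat.Agent.S48lib.X1.Desc
open scoped MatrixGroups

/-- `ℚ̄` -/
local notation "Qb" => AlgebraicClosure ℚ

/-! ### generic counting lemmas -/

section Count

variable {K F : Type*} [Field K] [Field F] [Algebra K F] [HasPrincipalDivisors K F]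

/-- `deg (f)_∞ = ∑ -ord_v f` over the poles of `f` (all places of degree one). -/
theorem degree_poleDiv_eq_sum_ord (hdeg : ∀ v : Place K F, v.deg = 1) (f : F) :
    Divisor.degree (Tame.poleDiv (K := K) f) =
      ∑ v ∈ (Tame.poleDiv (K := K) f).support, -v.ord f := by
  classical
  have h1 : Divisor.degree (Tame.poleDiv (K := K) f) =
      ∑ v ∈ (Tame.poleDiv (K := K) f).support, (Tame.poleDiv (K := K) f) v * (v.deg : ℤ) := by
    rw [Divisor.degree, Finsupp.liftAddHom_apply, Finsupp.sum]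
    rfl
  rw [h1]
  refine Finset.sum_congr rfl fun v hv => ?_
  rw [Tame.mem_support_poleDiv] at hv
  rw [Tame.poleDiv_apply, max_eq_left (by omega), hdeg v]
  simp

theorem card_polesOf_eq_card_support (f : F) :
    Nat.card (Tame.polesOf (K := K) f) = (Tame.poleDiv (K := K) f).support.card := by
  classical
  rw [Tame.polesOf_eq_support, Nat.card_coe_set_eq, Set.ncard_coe_finset]

/-- if every zero of `f` has order `n` then `n · #Z(f) = deg (f)₀`. -/
theorem mul_card_zerosOf_eq_degree (hdeg : ∀ v : Place K F, v.deg = 1) {f : F} {n : ℤ}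
    (h : ∀ v : Place K F, 0 < v.ord f → v.ord f = n) :
    n * (Nat.card (Tame.zerosOf (K := K) f) : ℤ) = Divisor.degree (Tame.zeroDiv (K := K) f) := by
  classical
  rw [S36lib.Count.degree_zeroDiv_eq_sum_ord hdeg, S36lib.Count.card_zerosOf_eq_card_support,
    Finset.card_eq_sum_ones, Nat.cast_sum, Finset.mul_sum]
  refine Finset.sum_congr rfl fun v hv => ?_
  rw [h v (Tame.mem_support_zeroDiv.mp hv)]
  simp

end Count

/-! ### transfer of the pole count along an order-preserving map of places -/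

section Transfer

variable {K K' F F' : Type*} [Field K] [Field K'] [Field F] [Field F']
  [Algebra K F] [Algebra K' F'] [HasPrincipalDivisors K F] [HasPrincipalDivisors K' F']

/-- if every place `P` of `F` has a place `P'` of `F'` with `ord_{P'} ∘ Φ = ord_P` and the pole
divisors of `x` and `Φ x` have the same degree, then `x` and `Φ x` have the same number of
poles. -/
theorem card_polesOf_eq_of_exists_place_above (Φ : F →+* F')
    (hdegK : ∀ v : Place K F, v.deg = 1) (hdegK' : ∀ v : Place K' F', v.deg = 1)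
    (hab : ∀ P : Place K F, ∃ P' : Place K' F', ∀ z : F, P'.ord (Φ z) = P.ord z)
    (x : F)
    (hdeg : Divisor.degree (Tame.poleDiv (K := K) x) =
      Divisor.degree (Tame.poleDiv (K := K') (Φ x))) :
    Nat.card (Tame.polesOf (K := K) x) = Nat.card (Tame.polesOf (K := K') (Φ x)) := by
  classical
  choose φ hφ using hab
  have hinj : Function.Injective φ := by
    intro P₁ P₂ h
    refine Fermat.Agent.S29lib.D.place_eq_of_ord_proportional (a := 1) (b := 1) one_pos one_pos
      fun z => ?_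
    rw [Nat.cast_one, one_mul, one_mul, ← hφ P₁ z, ← hφ P₂ z, h]
  set S := (Tame.poleDiv (K := K) x).support with hS
  set S' := (Tame.poleDiv (K := K') (Φ x)).support with hS'
  have hsub : S.image φ ⊆ S' := by
    intro P' hP'
    obtain ⟨P, hP, rfl⟩ := Finset.mem_image.mp hP'
    rw [hS', Tame.mem_support_poleDiv, hφ P x]
    exact Tame.mem_support_poleDiv.mp hP
  have hsum1 : ∑ P' ∈ S.image φ, -P'.ord (Φ x) = Divisor.degree (Tame.poleDiv (K := K) x) := by
    rw [Finset.sum_image (fun a _ b _ h => hinj h), degree_poleDiv_eq_sum_ord hdegK]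
    exact Finset.sum_congr rfl fun P _ => by rw [hφ P x]
  have hsum2 : ∑ P' ∈ S', -P'.ord (Φ x) = Divisor.degree (Tame.poleDiv (K := K') (Φ x)) :=
    (degree_poleDiv_eq_sum_ord hdegK' (Φ x)).symm
  have hdiff : ∑ P' ∈ S' \ S.image φ, -P'.ord (Φ x) = 0 := by
    have := Finset.sum_sdiff (f := fun P' : Place K' F' => -P'.ord (Φ x)) hsub
    rw [hsum1, hsum2, hdeg] at this
    linarith
  have hempty : S' \ S.image φ = ∅ := by
    by_contra hne
    obtain ⟨P', hP'⟩ := Finset.nonempty_iff_ne_empty.mpr hne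
    have hpos : ∀ Q ∈ S' \ S.image φ, 0 ≤ -Q.ord (Φ x) := by
      intro Q hQ
      have := Tame.mem_support_poleDiv.mp (Finset.mem_sdiff.mp hQ).1
      omega
    have h0 := (Finset.sum_eq_zero_iff_of_nonneg hpos).mp hdiff P' hP'
    have := Tame.mem_support_poleDiv.mp (Finset.mem_sdiff.mp hP').1
    omega
  have himg : S.image φ = S' :=
    Finset.Subset.antisymm hsub (Finset.sdiff_eq_empty_iff_subset.mp hempty)
  rw [card_polesOf_eq_card_support, card_polesOf_eq_card_support, ← hS, ← hS', ← himg,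
    Finset.card_image_of_injective _ hinj]

end Transfer

/-! ### the count -/

section Main

variable {Γ : Subgroup SL(2, ℤ)} [Fintype (SL(2, ℤ) ⧸ Γ)] [Γ.FiniteIndex] {M : ℕ} [NeZero M]
  (hlev : CongruenceSubgroup.Gamma M ≤ Γ) {h₀ : WH0 Γ} (hs : Wp.Separates Γ h₀)
  (hneg : (-1 : SL(2, ℤ)) ∈ Γ) (htf : TorsionFree Γ)
  {F₀ : IntermediateField ℚ (LaurentSeries ℚ)} [Algebra Qb ℂ] (Q : QExpData F₀ (Fan Γ))
  {g : ℕ} (hF : IsCurveOfGenus Qb ↥(laurentBaseChange Qb F₀) g)
  {x : ↥(laurentBaseChange Qb F₀)} (hxj : Q.Φ x = jFan Γ)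
  (hx : Transcendental Qb x) [FiniteDimensional Qb⟮x⟯ ↥(laurentBaseChange Qb F₀)]
  [Algebra.IsSeparable Qb⟮x⟯ ↥(laurentBaseChange Qb F₀)]
  (hd : finrank Qb⟮x⟯ ↥(laurentBaseChange Qb F₀) = Fintype.card (SL(2, ℤ) ⧸ Γ))

/-- the degree of the pole divisor of `j` on the analytic curve is the index of `Γ`. -/
theorem degree_poleDiv_jFan [HasPrincipalDivisors ℂ (Fan Γ)] (hs : Wp.Separates Γ h₀) :
    Divisor.degree (Tame.poleDiv (K := ℂ) (jFan Γ)) = (Fintype.card (SL(2, ℤ) ⧸ Γ) : ℤ) := by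
  have h := RHCount.degree_poleDiv_eq_finrank ℂ (Fan Γ) (BInf Γ)
  have hx : algebraMap (RatFunc ℂ) (Fan Γ) RatFunc.X = jFan Γ := xF_eq_jFan Γ
  rw [hx, finrank_FF, ← Wp.card_eq_finrank_of_separates hs] at h
  exact h

include hx hd hxj hs in
/-- the pole divisors of `j` have the same degree on both sides. -/
theorem degree_poleDiv_eq [HasPrincipalDivisors Qb ↥(laurentBaseChange Qb F₀)]
    [HasPrincipalDivisors ℂ (Fan Γ)] :
    Divisor.degree (Tame.poleDiv (K := Qb) x) =
      Divisor.degree (Tame.poleDiv (K := ℂ) (Q.Φ x)) := by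
  rw [hxj, degree_poleDiv_jFan hs, degree_poleDiv_eq_finrank_adjoin Qb hx, hd]

include hx in
lemma sub_const_ne_zero (a : Qb) : x - algebraMap Qb ↥(laurentBaseChange Qb F₀) a ≠ 0 := by
  intro h
  apply hx
  refine ⟨Polynomial.X - Polynomial.C a, Polynomial.X_sub_C_ne_zero a, ?_⟩
  rw [map_sub, Polynomial.aeval_X, Polynomial.aeval_C]
  exact h

include hs hF hxj hx hd in
/-- **(B1)** for the model: every place of `ℚ̄ · F₀` has an unramified place of `Fan Γ` above it. -/
theorem exists_place_above_of_model (P : Place Qb ↥(laurentBaseChange Qb F₀)) :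
    ∃ P' : Place ℂ (Fan Γ), ∀ z : ↥(laurentBaseChange Qb F₀), P'.ord (Q.Φ z) = P.ord z := by
  letI := hF.hasPrincipalDivisors
  letI := (isCurveAn Γ).hasPrincipalDivisors
  exact Q.exists_place_above hF (isCurveAn Γ) x (sub_const_ne_zero hx)
    (degree_poleDiv_eq hs Q hxj hx hd) P

lemma Φ_sub_const (a : Qb) :
    Q.Φ (x - algebraMap Qb ↥(laurentBaseChange Qb F₀) a) =
      Q.Φ x - algebraMap ℂ (Fan Γ) (algebraMap Qb ℂ a) := by
  rw [map_sub, Q.Φ_algebraMap]

include hs hneg htf hF hxj hx hd in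
/-- **unramified over `j = a`, `a ≠ 0, 1728`** (over `ℚ̄`). -/
theorem ord_sub_eq_one (P : Place Qb ↥(laurentBaseChange Qb F₀)) (a : Qb) (h0 : a ≠ 0)
    (h1728 : a ≠ 1728) (hP : 0 < P.ord (x - algebraMap Qb ↥(laurentBaseChange Qb F₀) a)) :
    P.ord (x - algebraMap Qb ↥(laurentBaseChange Qb F₀) a) = 1 := by
  obtain ⟨P', hP'⟩ := exists_place_above_of_model hs Q hF hxj hx hd P
  rw [← hP', Φ_sub_const, hxj] at hP ⊢
  refine ord_jFan_sub_eq_one hs hneg htf P' _ ?_ ?_ hP
  · exact (map_ne_zero (algebraMap Qb ℂ)).mpr h0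
  · intro h
    apply h1728
    apply (algebraMap Qb ℂ).injective
    rw [h, map_ofNat]

include hs hneg htf hF hxj hx hd in
/-- **`e = 3` over `j = 0`** (over `ℚ̄`). -/
theorem ord_eq_three (P : Place Qb ↥(laurentBaseChange Qb F₀)) (hP : 0 < P.ord x) :
    P.ord x = 3 := by
  obtain ⟨P', hP'⟩ := exists_place_above_of_model hs Q hF hxj hx hd P
  rw [← hP', hxj] at hP ⊢
  exact ord_jFan_eq_three hs hneg htf P' hP

include hs hneg htf hF hxj hx hd in
/-- **`e = 2` over `j = 1728`** (over `ℚ̄`). -/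
theorem ord_sub_eq_two (P : Place Qb ↥(laurentBaseChange Qb F₀))
    (hP : 0 < P.ord (x - algebraMap Qb ↥(laurentBaseChange Qb F₀) 1728)) :
    P.ord (x - algebraMap Qb ↥(laurentBaseChange Qb F₀) 1728) = 2 := by
  obtain ⟨P', hP'⟩ := exists_place_above_of_model hs Q hF hxj hx hd P
  rw [← hP', Φ_sub_const, hxj, map_ofNat] at hP ⊢
  exact ord_jFan_sub_eq_two hs hneg htf P' hP

include hlev hs hF hxj hx hd in
/-- **the number of poles of `j` over `ℚ̄`** is the number of `⟨T⟩`-orbits on `SL(2,ℤ) ⧸ Γ`. -/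
theorem card_polesOf_eq_card_orbits :
    Nat.card (Tame.polesOf (K := Qb) x) =
      Nat.card (MulAction.orbitRel.Quotient (Subgroup.zpowers ModularGroup.T)
        (SL(2, ℤ) ⧸ Γ)) := by
  letI := hF.hasPrincipalDivisors
  letI := (isCurveAn Γ).hasPrincipalDivisors
  rw [← card_polesOf_jFan hlev hs, ← hxj]
  exact card_polesOf_eq_of_exists_place_above Q.Φ hF.deg_eq_one (isCurveAn Γ).deg_eq_one
    (exists_place_above_of_model hs Q hF hxj hx hd) x (degree_poleDiv_eq hs Q hxj hx hd)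

include hlev hs hneg htf hF hxj hx hd in
/-- **(CH0)**: `12 (g - 1) = [SL(2,ℤ) : Γ] - 6 · #cusps` for the `ℚ̄`-model of a torsion-free
`Γ ∋ -1`. -/
theorem twelve_mul_genus_sub_one :
    12 * ((g : ℤ) - 1) = (Fintype.card (SL(2, ℤ) ⧸ Γ) : ℤ) -
      6 * (Nat.card (MulAction.orbitRel.Quotient (Subgroup.zpowers ModularGroup.T)
        (SL(2, ℤ) ⧸ Γ)) : ℤ) := by
  classical
  letI := hF.hasPrincipalDivisors
  have hgen : RRgen.Canonical.genusOf Qb hx = g :=
    RRgen.Canonical.genusOf_eq_of_isCurveOfGenus Qb hx hF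
  have hrh := RRgen.Canonical.rh_eq_genusOf Qb hx ({0, 1728} : Finset Qb) (by
    intro a ha P hP
    rw [Finset.mem_insert, Finset.mem_singleton, not_or] at ha
    exact ord_sub_eq_one hs hneg htf Q hF hxj hx hd P a ha.1 ha.2 hP)
  rw [hgen, hd, card_polesOf_eq_card_orbits hlev hs Q hF hxj hx hd] at hrh
  have hne : (0 : Qb) ∉ ({1728} : Finset Qb) := by
    rw [Finset.mem_singleton]
    norm_num
  rw [Finset.sum_insert hne, Finset.sum_singleton, map_zero, sub_zero] at hrh
  -- the two fibres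
  have hdegx : Divisor.degree (Tame.poleDiv (K := Qb) x) =
      (Fintype.card (SL(2, ℤ) ⧸ Γ) : ℤ) := by
    rw [degree_poleDiv_eq_finrank_adjoin Qb hx, hd]
  have h3 : (3 : ℤ) * (Nat.card (Tame.zerosOf (K := Qb) x) : ℤ) =
      (Fintype.card (SL(2, ℤ) ⧸ Γ) : ℤ) := by
    rw [mul_card_zerosOf_eq_degree hF.deg_eq_one
      (fun v hv => ord_eq_three hs hneg htf Q hF hxj hx hd v hv), Tame.degree_zeroDiv, hdegx]
  have h2 : (2 : ℤ) * (Nat.card (Tame.zerosOf (K := Qb)
      (x - algebraMap Qb ↥(laurentBaseChange Qb F₀) 1728)) : ℤ) =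
      (Fintype.card (SL(2, ℤ) ⧸ Γ) : ℤ) := by
    rw [mul_card_zerosOf_eq_degree hF.deg_eq_one
      (fun v hv => ord_sub_eq_two hs hneg htf Q hF hxj hx hd v hv), Tame.degree_zeroDiv,
      Tame.poleDiv_sub_const x 1728 (sub_const_ne_zero hx 1728), hdegx]
  linarith

end Main

end Fermat.Agent.S48lib.X1.Red
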