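/-
S48lib / X1 / Red / CuspCount  (helper4, block P6).

**Cusps as double cosets in a finite quotient.**  For a surjective `φ : G →* Ḡ` with
`ker φ ≤ Γ`, and `T : G`:

    #(⟨T⟩-orbits on G ⧸ Γ) = #(⟨φ T⟩ \ Ḡ / φ(Γ)).

Instance: `G = SL(2,ℤ)`, `Ḡ = SL(2, ZMod M)`, `φ = slmod M` (helper8), `Γ = ±Γ₁(M)`:
`cuspCount1 M = Nat.card (DoubleCoset.Quotient (zpowers (Tm M)) (H1mod M))` — so that the `c` of
the residue-side pole count (`Red.card_polesOf_le_doubleCoset'` with `G = SL(2, ZMod M)`) is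
literally the `c` of (CH0) (`Red.ch0_mu4 / ch0_mu9`).
-/
import Mathlib
import Fermat.Agent.S48lib.X1.Igusa.GrpFacts
import Fermat.Agent.S48lib.X1.Wp.Sep

set_option autoImplicit false
set_option linter.unusedSectionVars false

noncomputable section

namespace Fermat.Agent.S48lib.X1.Red

open scoped MatrixGroups

section Generic

variable {G Gb : Type*} [Group G] [Group Gb] (φ : G →* Gb) (Γ : Subgroup G) (T : G)

/-- the map `⟨T⟩ \ (G ⧸ Γ) → ⟨φ T⟩ \ Ḡ / φ(Γ)`, `[gΓ] ↦ [φ g]`. -/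
def orbitToDoubleCoset :
    MulAction.orbitRel.Quotient (Subgroup.zpowers T) (G ⧸ Γ) →
      DoubleCoset.Quotient (Subgroup.zpowers (φ T) : Set Gb) (Γ.map φ : Set Gb) :=
  Quotient.lift
    (fun x : G ⧸ Γ => Quotient.liftOn' x
      (fun g => DoubleCoset.mk (Subgroup.zpowers (φ T)) (Γ.map φ) (φ g))
      (fun a b hab => by
        rw [QuotientGroup.leftRel_apply] at hab
        rw [DoubleCoset.eq]
        refine ⟨1, one_mem _, φ (a⁻¹ * b), Subgroup.mem_map_of_mem φ hab, ?_⟩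
        rw [one_mul, ← map_mul, mul_inv_cancel_left]))
    (fun x y hxy => by
      obtain ⟨⟨t, ht⟩, rfl⟩ := hxy
      induction y using QuotientGroup.induction_on with
      | H g =>
        obtain ⟨k, rfl⟩ := Subgroup.mem_zpowers_iff.mp ht
        show Quotient.liftOn' (((⟨T ^ k, ht⟩ : Subgroup.zpowers T)) • (QuotientGroup.mk g : G ⧸ Γ))
          _ _ = Quotient.liftOn' (QuotientGroup.mk g : G ⧸ Γ) _ _
        have h1 : ((⟨T ^ k, ht⟩ : Subgroup.zpowers T)) • (QuotientGroup.mk g : G ⧸ Γ) =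
            QuotientGroup.mk (T ^ k * g) := rfl
        rw [h1]
        show DoubleCoset.mk (Subgroup.zpowers (φ T)) (Γ.map φ) (φ (T ^ k * g)) =
          DoubleCoset.mk (Subgroup.zpowers (φ T)) (Γ.map φ) (φ g)
        rw [eq_comm, DoubleCoset.eq]
        refine ⟨φ T ^ k, Subgroup.zpow_mem_zpowers _ _, 1, one_mem _, ?_⟩
        rw [mul_one, map_mul, map_zpow])

lemma orbitToDoubleCoset_mk (g : G) :
    orbitToDoubleCoset φ Γ T (Quotient.mk'' (QuotientGroup.mk g : G ⧸ Γ)) =
      DoubleCoset.mk (Subgroup.zpowers (φ T)) (Γ.map φ) (φ g) := rfl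

variable {φ Γ}

theorem orbitToDoubleCoset_surjective (hφ : Function.Surjective φ) :
    Function.Surjective (orbitToDoubleCoset φ Γ T) := by
  intro q
  induction q using Quotient.inductionOn' with
  | h b =>
    obtain ⟨g, rfl⟩ := hφ b
    exact ⟨Quotient.mk'' (QuotientGroup.mk g : G ⧸ Γ), rfl⟩

theorem orbitToDoubleCoset_injective (hker : φ.ker ≤ Γ) :
    Function.Injective (orbitToDoubleCoset φ Γ T) := by
  intro x y hxy
  induction x using Quotient.inductionOn' with
  | h x =>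
    induction y using Quotient.inductionOn' with
    | h y =>
      induction x using QuotientGroup.induction_on with
      | H a =>
        induction y using QuotientGroup.induction_on with
        | H b =>
          rw [orbitToDoubleCoset_mk, orbitToDoubleCoset_mk, DoubleCoset.eq] at hxy
          obtain ⟨t, ht, h, hh, hb⟩ := hxy
          obtain ⟨k, rfl⟩ := Subgroup.mem_zpowers_iff.mp ht
          obtain ⟨γ, hγ, rfl⟩ := Subgroup.mem_map.mp hh
          -- `φ b = φ (T^k a γ)`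
          have h1 : φ ((T ^ k * a * γ)⁻¹ * b) = 1 := by
            rw [map_mul, map_inv, hb, map_mul, map_mul, map_zpow, inv_mul_cancel]
          have h2 : (T ^ k * a * γ)⁻¹ * b ∈ Γ := hker (MonoidHom.mem_ker.mpr h1)
          apply Quotient.sound'
          show (QuotientGroup.mk a : G ⧸ Γ) ∈
            MulAction.orbit (Subgroup.zpowers T) (QuotientGroup.mk b : G ⧸ Γ)
          refine ⟨⟨(T ^ k)⁻¹, Subgroup.inv_mem _ (Subgroup.zpow_mem_zpowers T k)⟩, ?_⟩
          show (QuotientGroup.mk ((T ^ k)⁻¹ * b) : G ⧸ Γ) = QuotientGroup.mk a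
          rw [eq_comm, QuotientGroup.eq]
          have h3 : a⁻¹ * ((T ^ k)⁻¹ * b) = γ * ((T ^ k * a * γ)⁻¹ * b) := by group
          rw [h3]
          exact Γ.mul_mem hγ h2

/-- **cusps = double cosets in a quotient**: for `φ : G → Ḡ` onto with `ker φ ≤ Γ`. -/
theorem card_orbits_eq_card_doubleCoset (hφ : Function.Surjective φ) (hker : φ.ker ≤ Γ) :
    Nat.card (MulAction.orbitRel.Quotient (Subgroup.zpowers T) (G ⧸ Γ)) =
      Nat.card (DoubleCoset.Quotient (Subgroup.zpowers (φ T) : Set Gb) (Γ.map φ : Set Gb)) :=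
  Nat.card_congr (Equiv.ofBijective _
    ⟨orbitToDoubleCoset_injective T hker, orbitToDoubleCoset_surjective T hφ⟩)

/-- a subgroup of `Ḡ` whose preimage is `Γ` is the image of `Γ`. -/
theorem map_eq_of_forall_mem_iff (hφ : Function.Surjective φ) (Hb : Subgroup Gb)
    (hH : ∀ γ : G, φ γ ∈ Hb ↔ γ ∈ Γ) : Γ.map φ = Hb := by
  ext h
  constructor
  · rintro ⟨γ, hγ, rfl⟩
    exact (hH γ).mpr hγ
  · intro hh
    obtain ⟨γ, rfl⟩ := hφ h
    exact Subgroup.mem_map_of_mem φ ((hH γ).mp hh)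

/-- the same with the image of `Γ` given as a subgroup `H̄` with preimage `Γ`. -/
theorem card_orbits_eq_card_doubleCoset' (hφ : Function.Surjective φ) (Hb : Subgroup Gb)
    (hH : ∀ γ : G, φ γ ∈ Hb ↔ γ ∈ Γ) :
    Nat.card (MulAction.orbitRel.Quotient (Subgroup.zpowers T) (G ⧸ Γ)) =
      Nat.card (DoubleCoset.Quotient (Subgroup.zpowers (φ T) : Set Gb) (Hb : Set Gb)) := by
  have hker : φ.ker ≤ Γ := fun γ hγ => (hH γ).mp (by
    rw [MonoidHom.mem_ker.mp hγ]; exact one_mem _)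
  rw [card_orbits_eq_card_doubleCoset T hφ hker, map_eq_of_forall_mem_iff hφ Hb hH]

end Generic

/-! ### the instance `±Γ₁(M)` in `SL(2, ZMod M)` -/

section Inst

open Fermat.Agent.S48lib.X1.Igusa Fermat.Agent.S48lib.X1.Wp

variable (M : ℕ)

/-- the image of `±Γ₁(M)` in `SL(2, ZMod M)`: `(± 1 *; 0 ± 1)`. -/
def H1mod : Subgroup SL(2, ZMod M) := (pmGamma1 M).map (slmod M)

theorem slmod_mem_H1mod_iff (γ : SL(2, ℤ)) : slmod M γ ∈ H1mod M ↔ γ ∈ pmGamma1 M := by
  have hker : (slmod M).ker ≤ pmGamma1 M := by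
    rw [ker_slmod]
    exact Gamma_le_pmGamma1 M
  have := Subgroup.comap_map_eq_self hker
  constructor
  · intro h
    have h' : γ ∈ ((pmGamma1 M).map (slmod M)).comap (slmod M) := h
    rwa [this] at h'
  · intro h
    exact Subgroup.mem_map_of_mem _ h

/-- explicit description of `H1mod`. -/
theorem mem_H1mod_iff [NeZero M] (g : SL(2, ZMod M)) :
    g ∈ H1mod M ↔ g 1 0 = 0 ∧ (g 1 1 = 1 ∨ g 1 1 = -1) := by
  obtain ⟨γ, rfl⟩ := slmod_surjective M g
  rw [slmod_mem_H1mod_iff, slmod_apply, slmod_apply]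
  rfl

/-- **the number of cusps of `±Γ₁(M)`** is the number of double cosets
`⟨T⟩ \ SL(2, ZMod M) / H₁`. -/
theorem card_orbits_pmGamma1_eq [NeZero M] :
    Nat.card (MulAction.orbitRel.Quotient (Subgroup.zpowers ModularGroup.T)
      (SL(2, ℤ) ⧸ pmGamma1 M)) =
      Nat.card (DoubleCoset.Quotient (Subgroup.zpowers (Tm M) : Set SL(2, ZMod M))
        (H1mod M : Set SL(2, ZMod M))) := by
  rw [← slmod_T]
  exact card_orbits_eq_card_doubleCoset' ModularGroup.T (slmod_surjective M) (H1mod M)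
    (slmod_mem_H1mod_iff M)

/-- the same for any subgroup `H̄` of `SL(2, ZMod M)` with preimage `±Γ₁(M)`. -/
theorem card_orbits_pmGamma1_eq' [NeZero M] (Hb : Subgroup SL(2, ZMod M))
    (hH : ∀ γ : SL(2, ℤ), slmod M γ ∈ Hb ↔ γ ∈ pmGamma1 M) :
    Nat.card (MulAction.orbitRel.Quotient (Subgroup.zpowers ModularGroup.T)
      (SL(2, ℤ) ⧸ pmGamma1 M)) =
      Nat.card (DoubleCoset.Quotient (Subgroup.zpowers (Tm M) : Set SL(2, ZMod M))
        (Hb : Set SL(2, ZMod M))) := by
  rw [← slmod_T]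
  exact card_orbits_eq_card_doubleCoset' ModularGroup.T (slmod_surjective M) Hb hH

end Inst

end Fermat.Agent.S48lib.X1.Red
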