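/-
S48lib / X1 / Red / CH0Inst  (helper4, block P6, input (CH0), instances).

(CH0) for an analytic `q`-model which generates and has the right degree (the inputs of helper9's
`Desc.kqDataOf`), and for `X₁(M)`, `M ≥ 4`: `Γ = ±Γ₁(M)`, `F₀ = F₁(M)` (helper3's model):

    12 (g - 1) = [SL(2,ℤ) : ±Γ₁(M)] - 6 · #(⟨T⟩-orbits on SL(2,ℤ) ⧸ ±Γ₁(M)),

and the two shapes `2g - 2 = n - c` (`[SL(2,ℤ) : ±Γ₁(M)] = 6n`), `2g - 2 = 2n - c` (`= 12n`) of the
hypothesis `hCH0` of `Red/Chain.isCurveOfGenus_of_squeeze_mu4 / _mu9`.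
-/
import Mathlib
import Fermat.Agent.S48lib.X1.Red.CH0
import Fermat.Agent.S48lib.X1.Desc.InstF1
import Fermat.Agent.S48lib.X1.Red.CuspCount

set_option autoImplicit false
set_option linter.unusedSectionVars false
set_option linter.style.haveILetI false

noncomputable section

namespace Fermat.Agent.S48lib.X1.Red

open Fermat.Agent.ProgramR Fermat.Agent.ProgramR.BarField
open Fermat.Agent.S18lib AlgebraicCurve ModularCurve CongruenceSubgroup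
  UpperHalfPlane IntermediateField Module
open Fermat.Agent.S48lib.X1.Chart Fermat.Agent.S48lib.X1.Kummer Fermat.Agent.S48lib.X1.Desc
  Fermat.Agent.S48lib.X1.HeckeJ Fermat.Agent.S48lib.X1.Wp
open scoped MatrixGroups

/-- `ℚ̄` -/
local notation "Qb" => AlgebraicClosure ℚ

section Generic

variable {Γ : Subgroup SL(2, ℤ)} [Fintype (SL(2, ℤ) ⧸ Γ)] [Γ.FiniteIndex]
  {hT : ModularGroup.T ^ ((1 : ℕ) : ℤ) ∈ Γ} {F₀ : IntermediateField ℚ (LaurentSeries ℚ)}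
  [Algebra Qb ℂ] {M : ℕ} [NeZero M]

/-- **(CH0) for an analytic `q`-model** of a torsion-free `Γ ∋ -1` of level `M`. -/
theorem twelve_mul_genus_sub_one_of_model (hlev : CongruenceSubgroup.Gamma M ≤ Γ) {h₀ : WH0 Γ}
    (hs : Wp.Separates Γ h₀) (hneg : (-1 : SL(2, ℤ)) ∈ Γ) (htf : TorsionFree Γ)
    (hM : IsAnModel Γ hT F₀) (hgen : Generates hM (algebraMap Qb ℂ)) (hQ : IsQModel F₀)
    (hdeg : finrank (IntermediateField.adjoin Qb {jBq F₀ hQ.jq_mem}) (FBq F₀) =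
      Fintype.card (SL(2, ℤ) ⧸ Γ))
    {g : ℕ} (hF : IsCurveOfGenus Qb (FBq F₀) g) :
    12 * ((g : ℤ) - 1) = (Fintype.card (SL(2, ℤ) ⧸ Γ) : ℤ) -
      6 * (Nat.card (MulAction.orbitRel.Quotient (Subgroup.zpowers ModularGroup.T)
        (SL(2, ℤ) ⧸ Γ)) : ℤ) := by
  haveI := hQ.finite
  haveI : Algebra.IsAlgebraic (IntermediateField.adjoin Qb {jBq F₀ hQ.jq_mem}) (FBq F₀) :=
    Algebra.IsAlgebraic.of_finite _ _
  haveI : Algebra.IsSeparable (IntermediateField.adjoin Qb {jBq F₀ hQ.jq_mem}) (FBq F₀) :=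
    Algebra.IsAlgebraic.isSeparable_of_perfectField
  exact twelve_mul_genus_sub_one hlev hs hneg htf (qExpDataOf hM hgen hQ.jq_mem) hF
    (qExpDataOf_Φ_jBq hM hgen hQ.jq_mem) (transcendental_jBq F₀ hQ.jq_mem) hdeg

/-- the number of poles of `j` on the `ℚ̄`-model is the number of cusps. -/
theorem card_polesOf_jBq_of_model (hlev : CongruenceSubgroup.Gamma M ≤ Γ) {h₀ : WH0 Γ}
    (hs : Wp.Separates Γ h₀)
    (hM : IsAnModel Γ hT F₀) (hgen : Generates hM (algebraMap Qb ℂ)) (hQ : IsQModel F₀)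
    (hdeg : finrank (IntermediateField.adjoin Qb {jBq F₀ hQ.jq_mem}) (FBq F₀) =
      Fintype.card (SL(2, ℤ) ⧸ Γ))
    {g : ℕ} (hF : IsCurveOfGenus Qb (FBq F₀) g) :
    Nat.card (Tame.polesOf (K := Qb) (jBq F₀ hQ.jq_mem)) =
      Nat.card (MulAction.orbitRel.Quotient (Subgroup.zpowers ModularGroup.T)
        (SL(2, ℤ) ⧸ Γ)) := by
  haveI := hQ.finite
  haveI : Algebra.IsAlgebraic (IntermediateField.adjoin Qb {jBq F₀ hQ.jq_mem}) (FBq F₀) :=
    Algebra.IsAlgebraic.of_finite _ _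
  haveI : Algebra.IsSeparable (IntermediateField.adjoin Qb {jBq F₀ hQ.jq_mem}) (FBq F₀) :=
    Algebra.IsAlgebraic.isSeparable_of_perfectField
  exact card_polesOf_eq_card_orbits hlev hs (qExpDataOf hM hgen hQ.jq_mem) hF
    (qExpDataOf_Φ_jBq hM hgen hQ.jq_mem) (transcendental_jBq F₀ hQ.jq_mem) hdeg

end Generic

section F1

attribute [local instance] algQbC

variable {M : ℕ} [NeZero M]

/-- the number of cusps of `±Γ₁(M)`: the `⟨T⟩`-orbits on `SL(2,ℤ) ⧸ ±Γ₁(M)`. -/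
def cuspCount1 (M : ℕ) : ℕ :=
  Nat.card (MulAction.orbitRel.Quotient (Subgroup.zpowers ModularGroup.T)
    (SL(2, ℤ) ⧸ pmGamma1 M))

/-- the cusps of `±Γ₁(M)` as double cosets `⟨T⟩ \ SL(2, ZMod M) / H₁`. -/
theorem cuspCount1_eq_card_doubleCoset :
    cuspCount1 M = Nat.card (DoubleCoset.Quotient
      (Subgroup.zpowers (Igusa.Tm M) : Set SL(2, ZMod M)) (H1mod M : Set SL(2, ZMod M))) :=
  card_orbits_pmGamma1_eq M

/-- the same for any subgroup `H̄` of `SL(2, ZMod M)` with preimage `±Γ₁(M)`. -/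
theorem cuspCount1_eq_card_doubleCoset' (Hb : Subgroup SL(2, ZMod M))
    (hH : ∀ γ : SL(2, ℤ), Igusa.slmod M γ ∈ Hb ↔ γ ∈ pmGamma1 M) :
    cuspCount1 M = Nat.card (DoubleCoset.Quotient
      (Subgroup.zpowers (Igusa.Tm M) : Set SL(2, ZMod M)) (Hb : Set SL(2, ZMod M))) :=
  card_orbits_pmGamma1_eq' M Hb hH

/-- **(CH0) for `X₁(M)`**, `M ≥ 4`: `12 (g - 1) = [SL(2,ℤ) : ±Γ₁(M)] - 6 · #cusps`. -/
theorem twelve_mul_genus_sub_one_F1 (hM : 4 ≤ M) {g : ℕ}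
    (hF : IsCurveOfGenus Qb (FBq (F1 M)) g) :
    12 * ((g : ℤ) - 1) = (Fintype.card (SL(2, ℤ) ⧸ pmGamma1 M) : ℤ) - 6 * (cuspCount1 M : ℤ) :=
  twelve_mul_genus_sub_one_of_model (Gamma_le_pmGamma1 M)
    (separates_frickeWH0 (by omega : 1 < M)) (neg_one_mem_pmGamma1 M) (torsionFree_pmGamma1 hM)
    isAnModel_F1 (X1.generates_F1 (by omega : 1 < M)) isQModel_F1
    (finrank_FBar1 (by omega : 1 < M)) hF

/-- the number of poles of `j` on `FBar₁(M)` is the number of cusps. -/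
theorem card_polesOf_jBq_F1 (hM : 4 ≤ M) {g : ℕ} (hF : IsCurveOfGenus Qb (FBq (F1 M)) g) :
    Nat.card (Tame.polesOf (K := Qb) (jBq (F1 M) (isQModel_F1 (M := M)).jq_mem)) = cuspCount1 M :=
  card_polesOf_jBq_of_model (Gamma_le_pmGamma1 M)
    (separates_frickeWH0 (by omega : 1 < M))
    isAnModel_F1 (X1.generates_F1 (by omega : 1 < M)) isQModel_F1
    (finrank_FBar1 (by omega : 1 < M)) hF

/-- **(CH0), `μ₄`-shape**: if `[SL(2,ℤ) : ±Γ₁(M)] = 6 n` then `2g - 2 = n - c`. -/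
theorem ch0_mu4 (hM : 4 ≤ M) {g : ℕ} (hF : IsCurveOfGenus Qb (FBq (F1 M)) g) {n : ℕ}
    (hn : Fintype.card (SL(2, ℤ) ⧸ pmGamma1 M) = 6 * n) :
    2 * (g : ℤ) - 2 = (n : ℤ) - (cuspCount1 M : ℤ) := by
  have h := twelve_mul_genus_sub_one_F1 hM hF
  rw [hn] at h
  push_cast at h
  linarith

/-- **(CH0), `μ₉`-shape**: if `[SL(2,ℤ) : ±Γ₁(M)] = 12 n` then `2g - 2 = 2n - c`. -/
theorem ch0_mu9 (hM : 4 ≤ M) {g : ℕ} (hF : IsCurveOfGenus Qb (FBq (F1 M)) g) {n : ℕ}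
    (hn : Fintype.card (SL(2, ℤ) ⧸ pmGamma1 M) = 12 * n) :
    2 * (g : ℤ) - 2 = 2 * (n : ℤ) - (cuspCount1 M : ℤ) := by
  have h := twelve_mul_genus_sub_one_F1 hM hF
  rw [hn] at h
  push_cast at h
  linarith

end F1

end Fermat.Agent.S48lib.X1.Red
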