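/-
S48lib / X1 / Red / Chain  (helper4, block P6-A).

**The abstract reduction chain** (abstract form of `S37lib/B1/GenusAux.squeeze_four/nine` and of
`S37lib/B3/Inst.exists_redDatum`; every input is a hypothesis, so that the instance layer for
`X₁(M)` only has to supply them).

* `isCurveOfGenus_of_squeeze_mu4 / _mu9` : a weak datum `G'` with a frame over `y`, degree
  preservation, `F'` of genus `g`, the `μ₄`- (resp. `μ₉`-) relation for `x̄ = ȳ` and some `μ̄` on the
  residue side, `[Fk' : k(x̄)] = 6 n` (resp. `12 n`), `#poles(x̄) ≤ c` and the characteristic `0`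
  count `2 g - 2 = n - c` (resp. `2 n - c`)  ⇒  `Fk'` is a curve of the SAME genus `g`.
* `exists_redDatum_of_equal_genus` : (B2) + (B3) = descent from the auxiliary level: a reduction
  datum at the lower level extending the given Gauss datum `G`.
* `exists_redDatum_of_chain_mu4 / _mu9` : the two combined.
-/
import Mathlib
import Fermat.Agent.S18lib.Weak.GenusLe
import Fermat.Agent.S18lib.RRgen.SqueezeFree
import Fermat.Agent.S18lib.RRgen.Canonical
import Fermat.Agent.S37lib.Red.Main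
import Fermat.Agent.S37lib.B3.DescentTower

set_option autoImplicit false
set_option linter.unusedSectionVars false
set_option linter.style.haveILetI false

noncomputable section

namespace Fermat.Agent.S48lib.X1.Red

open AlgebraicCurve IntermediateField Module
open Fermat.Agent.S18lib Fermat.Agent.ProgramR

variable {L : Type*} [Field L] {A : ValuationSubring L}
variable {F : Type*} [Field F] [Algebra L F]
variable {Fk : Type*} [Field Fk] [Algebra (IsLocalRing.ResidueField A) Fk]
variable {F' : Type*} [Field F'] [Algebra L F']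
variable {Fk' : Type*} [Field Fk'] [Algebra (IsLocalRing.ResidueField A) Fk']

local notation "k" => IsLocalRing.ResidueField A

section Squeeze

variable [CharZero L] [IsAlgClosed (IsLocalRing.ResidueField A)]
  [HasPrincipalDivisors L F'] [HasPrincipalDivisors (IsLocalRing.ResidueField A) Fk']
  (G' : GaussDatum A F' Fk') {y : F'} {m : ℕ} {θ : Fin m → F'}
  (hfr : WFrame.IsFrameFamily G' y θ) (hy : Transcendental L y) [FiniteDimensional L⟮y⟯ F']
  {g : ℕ} (hF' : IsCurveOfGenus L F' g)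
  (hdeg : Divisor.degree (polesOf (K := L) y) =
    Divisor.degree (polesOf (K := IsLocalRing.ResidueField A) (G'.redF y)))
  (hx : Transcendental (IsLocalRing.ResidueField A) (G'.redF y))
  [FiniteDimensional (IsLocalRing.ResidueField A)⟮G'.redF y⟯ Fk']
  [Algebra.IsSeparable (IsLocalRing.ResidueField A)⟮G'.redF y⟯ Fk']

include hfr hy hF' hdeg hx in
/-- **equal genus by the squeeze over the `μ₄`-line.** -/
theorem isCurveOfGenus_of_squeeze_mu4 {μ : Fk'} (h2 : (2 : k) ≠ 0)
    (hrel : G'.redF y * (μ ^ 4 * (μ + 16)) = (μ ^ 2 + 256 * μ + 4096) ^ 3)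
    (n c : ℕ) (hn : finrank k⟮G'.redF y⟯ Fk' = 6 * n)
    (hc : Nat.card (Tame.polesOf (K := k) (G'.redF y)) ≤ c)
    (hCH0 : 2 * (g : ℤ) - 2 = (n : ℤ) - c) :
    IsCurveOfGenus k Fk' g := by
  have hFk : IsCurveOfGenus k Fk' (RRgen.Canonical.genusOf k hx) :=
    RRgen.Canonical.isCurveOfGenus_genusOf k hx
  set gk := RRgen.Canonical.genusOf k hx with hgk
  have hle : gk ≤ g := GaussDatum.genus_le_of_frame G' hfr hy hF' hFk hdeg
  have hgle : 2 * (gk : ℤ) - 2 ≤ (n : ℤ) - c := by
    have : (gk : ℤ) ≤ g := by exact_mod_cast hle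
    linarith
  obtain ⟨-, -, -, -, h5, -, -⟩ :=
    RRgen.SqueezeFree.squeeze_mu4 k hx h2 hrel c hc hFk n hn hgle
  have hgeq : gk = g := by
    have : (gk : ℤ) = g := by linarith
    exact_mod_cast this
  exact hgeq ▸ hFk

include hfr hy hF' hdeg hx in
/-- **equal genus by the squeeze over the `μ₉`-line.** -/
theorem isCurveOfGenus_of_squeeze_mu9 {μ : Fk'} (h3 : (3 : k) ≠ 0)
    (hrel : G'.redF y * (μ ^ 9 * (μ ^ 2 + 9 * μ + 27)) =
      (μ + 9) ^ 3 * (μ ^ 3 + 243 * μ ^ 2 + 2187 * μ + 6561) ^ 3)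
    (n c : ℕ) (hn : finrank k⟮G'.redF y⟯ Fk' = 12 * n)
    (hc : Nat.card (Tame.polesOf (K := k) (G'.redF y)) ≤ c)
    (hCH0 : 2 * (g : ℤ) - 2 = 2 * (n : ℤ) - c) :
    IsCurveOfGenus k Fk' g := by
  have hFk : IsCurveOfGenus k Fk' (RRgen.Canonical.genusOf k hx) :=
    RRgen.Canonical.isCurveOfGenus_genusOf k hx
  set gk := RRgen.Canonical.genusOf k hx with hgk
  have hle : gk ≤ g := GaussDatum.genus_le_of_frame G' hfr hy hF' hFk hdeg
  have hgle : 2 * (gk : ℤ) - 2 ≤ 2 * (n : ℤ) - c := by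
    have : (gk : ℤ) ≤ g := by exact_mod_cast hle
    linarith
  obtain ⟨-, -, -, -, h5, -, -⟩ :=
    RRgen.SqueezeFree.squeeze_mu9 k hx h3 hrel c hc hFk n hn hgle
  have hgeq : gk = g := by
    have : (gk : ℤ) = g := by linarith
    exact_mod_cast this
  exact hgeq ▸ hFk

end Squeeze

section Descent

variable [Algebra F F'] [IsScalarTower L F F'] [Algebra Fk Fk']
  [IsScalarTower (IsLocalRing.ResidueField A) Fk Fk']
  [FiniteDimensional F F'] [FiniteDimensional Fk Fk']

/-- **(B2) + (B3)**: from equal genus at the upper level to a reduction datum at the lower level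
(abstract form of `S37lib.B3.exists_redDatum`). -/
theorem exists_redDatum_of_equal_genus [CharZero L] [Infinite k]
    [HasPrincipalDivisors L F] [HasPrincipalDivisors k Fk]
    [HasPrincipalDivisors L F'] [HasPrincipalDivisors k Fk']
    [FundamentalIdentity L F F'] [FundamentalIdentity k Fk Fk']
    (G : GaussDatum A F Fk) (G' : GaussDatum A F' Fk')
    {y' : F'} {m : ℕ} {θ : Fin m → F'} (hfr : WFrame.IsFrameFamily G' y' θ)
    (hy' : Transcendental L y') [FiniteDimensional L⟮y'⟯ F']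
    {g gk g' : ℕ} (hF : IsCurveOfGenus L F g) (hFk : IsCurveOfGenus k Fk gk)
    (hF' : IsCurveOfGenus L F' g') (hFk' : IsCurveOfGenus k Fk' g')
    (hdeg' : Divisor.degree (polesOf (K := L) y') =
      Divisor.degree (polesOf (K := k) (G'.redF y')))
    (hO : ∀ x : F, algebraMap F F' x ∈ G'.O ↔ x ∈ G.O)
    (hred : ∀ x : F, x ∈ G.O → G'.redF (algebraMap F F' x) = algebraMap Fk Fk' (G.redF x))
    (hrel : finrank F F' = finrank Fk Fk')
    (y : F) (hyO : y ∈ G.O) (hy : Transcendental L y) (hyk : Transcendental k (G.redF y))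
    (hdeg : Divisor.degree (polesOf (K := L) (algebraMap F F' y)) =
      Divisor.degree (polesOf (K := k) (G'.redF (algebraMap F F' y)))) :
    ∃ D : RedDatum A F Fk, D.toGaussDatum = G := by
  obtain ⟨D', hD'⟩ := Fermat.Agent.S37lib.B2.exists_redDatum G' hfr hy' hF' hFk' hdeg'
  have hDO : D'.O = G'.O := by rw [← hD']; rfl
  have hDred : ∀ x, D'.redF x = G'.redF x := by
    intro x; rw [← hD']; rfl
  obtain ⟨D, hD, -⟩ := Fermat.Agent.S37lib.B3.exists_redDatum_of_descent G D'
    (by
      have := hfr.hasOrthonormalBases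
      rw [← hD'] at this
      exact this)
    (fun x => by rw [hDO]; exact hO x)
    (fun x hx => by rw [hDred]; exact hred x hx)
    hrel hF hFk hF' hFk' y hyO hy hyk
    (by rw [hDred]; exact hdeg)
  exact ⟨D, hD⟩

/-- **the whole chain over the `μ₄`-line**: squeeze at the upper level + (B2) + descent. -/
theorem exists_redDatum_of_chain_mu4 [CharZero L] [IsAlgClosed (IsLocalRing.ResidueField A)]
    [HasPrincipalDivisors L F] [HasPrincipalDivisors (IsLocalRing.ResidueField A) Fk]
    [HasPrincipalDivisors L F'] [HasPrincipalDivisors (IsLocalRing.ResidueField A) Fk']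
    [FundamentalIdentity L F F'] [FundamentalIdentity (IsLocalRing.ResidueField A) Fk Fk']
    (G : GaussDatum A F Fk) (G' : GaussDatum A F' Fk')
    {y' : F'} {m : ℕ} {θ : Fin m → F'} (hfr : WFrame.IsFrameFamily G' y' θ)
    (hy' : Transcendental L y') [FiniteDimensional L⟮y'⟯ F']
    {g gk g' : ℕ} (hF : IsCurveOfGenus L F g) (hFk : IsCurveOfGenus k Fk gk)
    (hF' : IsCurveOfGenus L F' g')
    (hdeg' : Divisor.degree (polesOf (K := L) y') =
      Divisor.degree (polesOf (K := k) (G'.redF y')))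
    (hx : Transcendental k (G'.redF y'))
    [FiniteDimensional (IsLocalRing.ResidueField A)⟮G'.redF y'⟯ Fk']
    [Algebra.IsSeparable (IsLocalRing.ResidueField A)⟮G'.redF y'⟯ Fk']
    {μ : Fk'} (h2 : (2 : k) ≠ 0)
    (hrelμ : G'.redF y' * (μ ^ 4 * (μ + 16)) = (μ ^ 2 + 256 * μ + 4096) ^ 3)
    (n c : ℕ) (hn : finrank (IsLocalRing.ResidueField A)⟮G'.redF y'⟯ Fk' = 6 * n)
    (hc : Nat.card (Tame.polesOf (K := k) (G'.redF y')) ≤ c)
    (hCH0 : 2 * (g' : ℤ) - 2 = (n : ℤ) - c)
    (hO : ∀ x : F, algebraMap F F' x ∈ G'.O ↔ x ∈ G.O)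
    (hred : ∀ x : F, x ∈ G.O → G'.redF (algebraMap F F' x) = algebraMap Fk Fk' (G.redF x))
    (hrel : finrank F F' = finrank Fk Fk')
    (y : F) (hyO : y ∈ G.O) (hy : Transcendental L y) (hyk : Transcendental k (G.redF y))
    (hdeg : Divisor.degree (polesOf (K := L) (algebraMap F F' y)) =
      Divisor.degree (polesOf (K := k) (G'.redF (algebraMap F F' y)))) :
    ∃ D : RedDatum A F Fk, D.toGaussDatum = G :=
  haveI : Infinite k := IsAlgClosed.instInfinite
  exists_redDatum_of_equal_genus G G' hfr hy' hF hFk hF'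
    (isCurveOfGenus_of_squeeze_mu4 G' hfr hy' hF' hdeg' hx h2 hrelμ n c hn hc hCH0)
    hdeg' hO hred hrel y hyO hy hyk hdeg

/-- **the whole chain over the `μ₉`-line**: squeeze at the upper level + (B2) + descent. -/
theorem exists_redDatum_of_chain_mu9 [CharZero L] [IsAlgClosed (IsLocalRing.ResidueField A)]
    [HasPrincipalDivisors L F] [HasPrincipalDivisors (IsLocalRing.ResidueField A) Fk]
    [HasPrincipalDivisors L F'] [HasPrincipalDivisors (IsLocalRing.ResidueField A) Fk']
    [FundamentalIdentity L F F'] [FundamentalIdentity (IsLocalRing.ResidueField A) Fk Fk']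
    (G : GaussDatum A F Fk) (G' : GaussDatum A F' Fk')
    {y' : F'} {m : ℕ} {θ : Fin m → F'} (hfr : WFrame.IsFrameFamily G' y' θ)
    (hy' : Transcendental L y') [FiniteDimensional L⟮y'⟯ F']
    {g gk g' : ℕ} (hF : IsCurveOfGenus L F g) (hFk : IsCurveOfGenus k Fk gk)
    (hF' : IsCurveOfGenus L F' g')
    (hdeg' : Divisor.degree (polesOf (K := L) y') =
      Divisor.degree (polesOf (K := k) (G'.redF y')))
    (hx : Transcendental k (G'.redF y'))
    [FiniteDimensional (IsLocalRing.ResidueField A)⟮G'.redF y'⟯ Fk']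
    [Algebra.IsSeparable (IsLocalRing.ResidueField A)⟮G'.redF y'⟯ Fk']
    {μ : Fk'} (h3 : (3 : k) ≠ 0)
    (hrelμ : G'.redF y' * (μ ^ 9 * (μ ^ 2 + 9 * μ + 27)) =
      (μ + 9) ^ 3 * (μ ^ 3 + 243 * μ ^ 2 + 2187 * μ + 6561) ^ 3)
    (n c : ℕ) (hn : finrank (IsLocalRing.ResidueField A)⟮G'.redF y'⟯ Fk' = 12 * n)
    (hc : Nat.card (Tame.polesOf (K := k) (G'.redF y')) ≤ c)
    (hCH0 : 2 * (g' : ℤ) - 2 = 2 * (n : ℤ) - c)
    (hO : ∀ x : F, algebraMap F F' x ∈ G'.O ↔ x ∈ G.O)
    (hred : ∀ x : F, x ∈ G.O → G'.redF (algebraMap F F' x) = algebraMap Fk Fk' (G.redF x))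
    (hrel : finrank F F' = finrank Fk Fk')
    (y : F) (hyO : y ∈ G.O) (hy : Transcendental L y) (hyk : Transcendental k (G.redF y))
    (hdeg : Divisor.degree (polesOf (K := L) (algebraMap F F' y)) =
      Divisor.degree (polesOf (K := k) (G'.redF (algebraMap F F' y)))) :
    ∃ D : RedDatum A F Fk, D.toGaussDatum = G :=
  haveI : Infinite k := IsAlgClosed.instInfinite
  exists_redDatum_of_equal_genus G G' hfr hy' hF hFk hF'
    (isCurveOfGenus_of_squeeze_mu9 G' hfr hy' hF' hdeg' hx h3 hrelμ n c hn hc hCH0)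
    hdeg' hO hred hrel y hyO hy hyk hdeg

end Descent

end Fermat.Agent.S48lib.X1.Red
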