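/-
S48lib / X1 / Red / Squeeze  (helper4, block P6, item (5) of the pipeline #lead-160).

**Squeeze + (B2) at the level itself** (no descent): a weak datum `G'` with a frame over `y`,
degree preservation, `F'` of genus `g` with the characteristic-0 count
`12 (g - 1) = d - 6 c`  (`d = [Fk' : k(ȳ)]`, `c ≥ #poles(ȳ)`), and `μ̄ ∈ Fk'` with the `μ₄`- (resp.
`μ₉`-) relation for `ȳ`  ⇒  `Fk'` has the SAME genus `g` and there is a `RedDatum` extending `G'`.
The number `n = [Fk' : k(μ̄)]` is not an input any more (`d = 6 n` resp. `12 n` by Lüroth).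
-/
import Mathlib
import Fermat.Agent.S48lib.X1.Red.Chain
import Fermat.Agent.S18lib.RRgen.Luroth

set_option autoImplicit false
set_option linter.unusedSectionVars false
set_option linter.style.haveILetI false

noncomputable section

namespace Fermat.Agent.S48lib.X1.Red

open AlgebraicCurve IntermediateField Module
open Fermat.Agent.S18lib Fermat.Agent.ProgramR

variable {L : Type*} [Field L] {A : ValuationSubring L}
variable {F' : Type*} [Field F'] [Algebra L F']
variable {Fk' : Type*} [Field Fk'] [Algebra (IsLocalRing.ResidueField A) Fk']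

local notation "k" => IsLocalRing.ResidueField A

variable [CharZero L] [IsAlgClosed (IsLocalRing.ResidueField A)]
  [HasPrincipalDivisors L F'] [HasPrincipalDivisors (IsLocalRing.ResidueField A) Fk']
  (G' : GaussDatum A F' Fk') {y : F'} {m : ℕ} {θ : Fin m → F'}
  (hfr : WFrame.IsFrameFamily G' y θ) (hy : Transcendental L y) [FiniteDimensional L⟮y⟯ F']
  {g : ℕ} (hF' : IsCurveOfGenus L F' g)
  (hdeg : Divisor.degree (polesOf (K := L) y) =
    Divisor.degree (polesOf (K := IsLocalRing.ResidueField A) (G'.redF y)))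
  (hx : Transcendental (IsLocalRing.ResidueField A) (G'.redF y))
  [FiniteDimensional (IsLocalRing.ResidueField A)⟮G'.redF y⟯ Fk']
  [Algebra.IsSeparable (IsLocalRing.ResidueField A)⟮G'.redF y⟯ Fk']

include hfr hy hF' hdeg hx in
/-- **equal genus + reduction datum by the squeeze over the `μ₄`-line**, at the level itself. -/
theorem exists_redDatum_of_squeeze_mu4 {μ : Fk'} (h2 : (2 : k) ≠ 0)
    (hrel : G'.redF y * (μ ^ 4 * (μ + 16)) = (μ ^ 2 + 256 * μ + 4096) ^ 3)
    (d c : ℕ) (hd : finrank k⟮G'.redF y⟯ Fk' = d)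
    (hc : Nat.card (Tame.polesOf (K := k) (G'.redF y)) ≤ c)
    (hCH0 : 12 * ((g : ℤ) - 1) = (d : ℤ) - 6 * c) :
    IsCurveOfGenus k Fk' g ∧ ∃ D : RedDatum A F' Fk', D.toGaussDatum = G' := by
  haveI : Infinite k := IsAlgClosed.instInfinite
  have hμ : Transcendental k μ := RRgen.Luroth.transcendental_mu4 k h2 hrel hx
  have hn := RRgen.Luroth.finrank_of_mu4 k hμ h2 hrel
  set n := finrank k⟮μ⟯ Fk' with hndef
  have hdn : (d : ℤ) = 6 * n := by
    rw [← hd, hn]; push_cast; ring
  have hFk : IsCurveOfGenus k Fk' g :=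
    isCurveOfGenus_of_squeeze_mu4 G' hfr hy hF' hdeg hx h2 hrel n c hn hc (by linarith)
  exact ⟨hFk, Fermat.Agent.S37lib.B2.exists_redDatum G' hfr hy hF' hFk hdeg⟩

include hfr hy hF' hdeg hx in
/-- **equal genus + reduction datum by the squeeze over the `μ₉`-line**, at the level itself. -/
theorem exists_redDatum_of_squeeze_mu9 {μ : Fk'} (h3 : (3 : k) ≠ 0)
    (hrel : G'.redF y * (μ ^ 9 * (μ ^ 2 + 9 * μ + 27)) =
      (μ + 9) ^ 3 * (μ ^ 3 + 243 * μ ^ 2 + 2187 * μ + 6561) ^ 3)
    (d c : ℕ) (hd : finrank k⟮G'.redF y⟯ Fk' = d)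
    (hc : Nat.card (Tame.polesOf (K := k) (G'.redF y)) ≤ c)
    (hCH0 : 12 * ((g : ℤ) - 1) = (d : ℤ) - 6 * c) :
    IsCurveOfGenus k Fk' g ∧ ∃ D : RedDatum A F' Fk', D.toGaussDatum = G' := by
  haveI : Infinite k := IsAlgClosed.instInfinite
  have hμ : Transcendental k μ := RRgen.Luroth.transcendental_mu9 k h3 hrel hx
  have hn := RRgen.Luroth.finrank_of_mu9 k hμ h3 hrel
  set n := finrank k⟮μ⟯ Fk' with hndef
  have hdn : (d : ℤ) = 12 * n := by
    rw [← hd, hn]; push_cast; ring
  have hFk : IsCurveOfGenus k Fk' g :=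
    isCurveOfGenus_of_squeeze_mu9 G' hfr hy hF' hdeg hx h3 hrel n c hn hc (by linarith)
  exact ⟨hFk, Fermat.Agent.S37lib.B2.exists_redDatum G' hfr hy hF' hFk hdeg⟩

end Fermat.Agent.S48lib.X1.Red
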