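/-
S48lib / X1 / Red / InstF1  (helper4, block P6, item (5) of the pipeline #lead-160, `X₁(M)`).

**Equal genus + reduction datum for `FBar₁(M) = ℚ̄ · F₁(M)`**, `M ≥ 4`, at a place `A` of `ℚ̄`:
from a weak datum `G' : GaussDatum A (FBq (F1 M)) Fk'` with a frame over `j` (item (1), P5),
`[Fk' : k(j̄)] = [SL(2,ℤ) : ±Γ₁(M)]`, `Fk' / k(j̄)` separable, the pole count
`#poles(j̄) ≤ cuspCount1 M` (item (2)) and `μ̄ ∈ Fk'` with the `μ₄`- or `μ₉`-relation (item (4)):

    ∃ g, IsCurveOfGenus ℚ̄ (FBq (F1 M)) g ∧ IsCurveOfGenus k Fk' g ∧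
      ∃ D : RedDatum A (FBq (F1 M)) Fk', D.toGaussDatum = G'.

Item (3) = (CH0) is plugged in (`Red.twelve_mul_genus_sub_one_F1`).
-/
import Mathlib
import Fermat.Agent.S48lib.X1.Red.Squeeze
import Fermat.Agent.S48lib.X1.Red.CH0Inst

set_option autoImplicit false
set_option linter.unusedSectionVars false
set_option linter.style.haveILetI false

noncomputable section

namespace Fermat.Agent.S48lib.X1.Red

open AlgebraicCurve ModularCurve IntermediateField Module
open Fermat.Agent.S18lib Fermat.Agent.ProgramR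
open Fermat.Agent.S48lib.X1.HeckeJ Fermat.Agent.S48lib.X1.Wp
open scoped MatrixGroups

/-- `ℚ̄` -/
local notation "Qb" => AlgebraicClosure ℚ

variable {M : ℕ} [NeZero M] {A : ValuationSubring Qb}
  {Fk' : Type*} [Field Fk'] [Algebra (IsLocalRing.ResidueField A) Fk']
  [IsAlgClosed (IsLocalRing.ResidueField A)]

local notation "k" => IsLocalRing.ResidueField A

/-- `j` in `FBar₁(M)` -/
abbrev j1 (M : ℕ) [NeZero M] : FBq (F1 M) := jBq (F1 M) (isQModel_F1 (M := M)).jq_mem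

/-- the genus of `FBar₁(M)` (computed from the covering `j`). -/
def genus1 (M : ℕ) [NeZero M] : ℕ :=
  haveI := (isQModel_F1 (M := M)).finite
  haveI : Algebra.IsAlgebraic (IntermediateField.adjoin Qb {j1 M}) (FBq (F1 M)) :=
    Algebra.IsAlgebraic.of_finite _ _
  haveI : Algebra.IsSeparable (IntermediateField.adjoin Qb {j1 M}) (FBq (F1 M)) :=
    Algebra.IsAlgebraic.isSeparable_of_perfectField
  RRgen.Canonical.genusOf Qb (transcendental_jBq (F1 M) (isQModel_F1 (M := M)).jq_mem)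

/-- `FBar₁(M)` is a curve of genus `genus1 M`. -/
theorem isCurveOfGenus_F1 (M : ℕ) [NeZero M] : IsCurveOfGenus Qb (FBq (F1 M)) (genus1 M) := by
  haveI := (isQModel_F1 (M := M)).finite
  haveI : Algebra.IsAlgebraic (IntermediateField.adjoin Qb {j1 M}) (FBq (F1 M)) :=
    Algebra.IsAlgebraic.of_finite _ _
  haveI : Algebra.IsSeparable (IntermediateField.adjoin Qb {j1 M}) (FBq (F1 M)) :=
    Algebra.IsAlgebraic.isSeparable_of_perfectField
  exact RRgen.Canonical.isCurveOfGenus_genusOf Qb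
    (transcendental_jBq (F1 M) (isQModel_F1 (M := M)).jq_mem)

/-- (CH0) for `genus1`. -/
theorem twelve_mul_genus1_sub_one (hM : 4 ≤ M) :
    12 * ((genus1 M : ℤ) - 1) =
      (Fintype.card (SL(2, ℤ) ⧸ pmGamma1 M) : ℤ) - 6 * (cuspCount1 M : ℤ) :=
  twelve_mul_genus_sub_one_F1 hM (isCurveOfGenus_F1 M)

section Deg

variable [HasPrincipalDivisors Qb (FBq (F1 M))]
  [HasPrincipalDivisors (IsLocalRing.ResidueField A) Fk']

/-- degree preservation for `j` from the equality of the two field degrees. -/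
theorem degree_polesOf_j1_eq (hM : 1 < M) (G' : GaussDatum A (FBq (F1 M)) Fk')
    (hx : Transcendental k (G'.redF (j1 M)))
    [FiniteDimensional (IsLocalRing.ResidueField A)⟮G'.redF (j1 M)⟯ Fk']
    [Algebra.IsSeparable (IsLocalRing.ResidueField A)⟮G'.redF (j1 M)⟯ Fk']
    (hd : finrank k⟮G'.redF (j1 M)⟯ Fk' = Fintype.card (SL(2, ℤ) ⧸ pmGamma1 M)) :
    Divisor.degree (polesOf (K := Qb) (j1 M)) =
      Divisor.degree (polesOf (K := k) (G'.redF (j1 M))) := by
  haveI := (isQModel_F1 (M := M)).finite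
  haveI : Algebra.IsAlgebraic (IntermediateField.adjoin Qb {j1 M}) (FBq (F1 M)) :=
    Algebra.IsAlgebraic.of_finite _ _
  haveI : Algebra.IsSeparable (IntermediateField.adjoin Qb {j1 M}) (FBq (F1 M)) :=
    Algebra.IsAlgebraic.isSeparable_of_perfectField
  rw [degree_polesOf_eq_finrank_adjoin Qb
      (transcendental_jBq (F1 M) (isQModel_F1 (M := M)).jq_mem),
    degree_polesOf_eq_finrank_adjoin k hx, hd]
  congr 1
  exact finrank_FBar1 hM

end Deg

variable (G' : GaussDatum A (FBq (F1 M)) Fk') {m : ℕ} {θ : Fin m → FBq (F1 M)}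
  (hfr : WFrame.IsFrameFamily G' (j1 M) θ)
  (hx : Transcendental (IsLocalRing.ResidueField A) (G'.redF (j1 M)))
  [FiniteDimensional (IsLocalRing.ResidueField A)⟮G'.redF (j1 M)⟯ Fk']
  [Algebra.IsSeparable (IsLocalRing.ResidueField A)⟮G'.redF (j1 M)⟯ Fk']
  (hd : finrank (IsLocalRing.ResidueField A)⟮G'.redF (j1 M)⟯ Fk' =
    Fintype.card (SL(2, ℤ) ⧸ pmGamma1 M))
  (hc : Nat.card (Tame.polesOf (K := IsLocalRing.ResidueField A) (G'.redF (j1 M))) ≤
    cuspCount1 M)

include hfr hx hd hc in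
/-- **item (5), `μ₄`-line** (`4 ∣ M`, residue characteristic odd). -/
theorem exists_redDatum_F1_mu4 (hM : 4 ≤ M) {μ : Fk'} (h2 : (2 : k) ≠ 0)
    (hrel : G'.redF (j1 M) * (μ ^ 4 * (μ + 16)) = (μ ^ 2 + 256 * μ + 4096) ^ 3) :
    IsCurveOfGenus k Fk' (genus1 M) ∧
      ∃ D : RedDatum A (FBq (F1 M)) Fk', D.toGaussDatum = G' := by
  haveI := (isQModel_F1 (M := M)).finite
  haveI := (isCurveOfGenus_F1 M).hasPrincipalDivisors
  haveI := (RRgen.Canonical.isCurveOfGenus_genusOf k hx).hasPrincipalDivisors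
  exact exists_redDatum_of_squeeze_mu4 G' hfr
    (transcendental_jBq (F1 M) (isQModel_F1 (M := M)).jq_mem) (isCurveOfGenus_F1 M)
    (degree_polesOf_j1_eq (by omega) G' hx hd) hx h2 hrel _ _ hd hc
    (twelve_mul_genus1_sub_one hM)

include hfr hx hd hc in
/-- **item (5), `μ₉`-line** (`9 ∣ M`, residue characteristic `≠ 3`). -/
theorem exists_redDatum_F1_mu9 (hM : 4 ≤ M) {μ : Fk'} (h3 : (3 : k) ≠ 0)
    (hrel : G'.redF (j1 M) * (μ ^ 9 * (μ ^ 2 + 9 * μ + 27)) =
      (μ + 9) ^ 3 * (μ ^ 3 + 243 * μ ^ 2 + 2187 * μ + 6561) ^ 3) :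
    IsCurveOfGenus k Fk' (genus1 M) ∧
      ∃ D : RedDatum A (FBq (F1 M)) Fk', D.toGaussDatum = G' := by
  haveI := (isQModel_F1 (M := M)).finite
  haveI := (isCurveOfGenus_F1 M).hasPrincipalDivisors
  haveI := (RRgen.Canonical.isCurveOfGenus_genusOf k hx).hasPrincipalDivisors
  exact exists_redDatum_of_squeeze_mu9 G' hfr
    (transcendental_jBq (F1 M) (isQModel_F1 (M := M)).jq_mem) (isCurveOfGenus_F1 M)
    (degree_polesOf_j1_eq (by omega) G' hx hd) hx h3 hrel _ _ hd hc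
    (twelve_mul_genus1_sub_one hM)

end Fermat.Agent.S48lib.X1.Red
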