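/-
S48lib / X1 / Red / QRedF1  (helper4, block P6, FINAL ASSEMBLY, generic form).

**The reduction context `ES.QRed A (F1 M) Fk` for `FBar₁(M) = ℚ̄ · F₁(M)`**, `M ≥ 4`, from a weak datum
`G' : GaussDatum A (FBq (F1 M)) Fk`, `Fk ⊆ k((q))`, which

* is the coefficientwise reduction of `q`-expansions (`Igusa.SeriesCompat`, item (1), P5),
* has a frame `(j; θ)` of `A`-integral `q`-expansions (item (1), P5),
* has `Fk / k(j̄)` separable (item (1)),
* has `#poles(j̄) ≤ cuspCount1 M` (item (2), (hM)),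
* contains `μ̄` with the `μ₄`- or `μ₉`-relation (item (4)),
* and `Fk` is stable under the coefficientwise automorphisms of `k`.

`[Fk : k(j̄)] = [SL(2,ℤ) : ±Γ₁(M)]`, the transcendence of `j̄` and finite-dimensionality are read off from
the frame (`Red/FrameDeg.lean`).  Items (3) (CH0), (5) (squeeze + B2:
`Red.exists_redDatum_F1_mu4/_mu9`) and (6) (helper2's `Equiv.qRedOf`) are plugged in.
-/
import Mathlib
import Fermat.Agent.S48lib.X1.Red.InstF1
import Fermat.Agent.S48lib.X1.Red.FrameDeg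
import Fermat.Agent.S48lib.X1.Equiv.QRedOf

set_option autoImplicit false
set_option linter.unusedSectionVars false
set_option linter.style.haveILetI false

noncomputable section

namespace Fermat.Agent.S48lib.X1.Red

open AlgebraicCurve ModularCurve IntermediateField Module
open Fermat.Agent.S18lib Fermat.Agent.ProgramR
open Fermat.Agent.S48lib.X1.HeckeJ Fermat.Agent.S48lib.X1.Wp
open Fermat.Agent.S48lib.X1.ES Fermat.Agent.S48lib.X1.Igusa
open scoped MatrixGroups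

/-- `ℚ̄` -/
local notation "Qb" => AlgebraicClosure ℚ

variable {M : ℕ} [NeZero M] {A : ValuationSubring Qb}
  {Fk : IntermediateField (IsLocalRing.ResidueField A) (LaurentSeries (IsLocalRing.ResidueField A))}

local notation "k" => IsLocalRing.ResidueField A

/-- `j ∈ FBar₁(M)`, in the form used by `ES.QRed` -/
theorem jqModC_mem_F1 (M : ℕ) [NeZero M] : jqModC Qb ∈ laurentBaseChange Qb (F1 M) :=
  (j1 M).2

theorem j1_eq (M : ℕ) [NeZero M] :
    j1 M = (⟨jqModC Qb, jqModC_mem_F1 M⟩ : ↥(laurentBaseChange Qb (F1 M))) := rfl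

theorem coe_j1 (M : ℕ) [NeZero M] : ((j1 M : FBq (F1 M)) : LaurentSeries Qb) = jqModC Qb := rfl

/-- an element of `FBar₁(M)` with expansion `j(q)` is `j1 M` -/
theorem eq_j1_of_coe {y : FBq (F1 M)} (hy : (y : LaurentSeries Qb) = jqModC Qb) : y = j1 M :=
  Subtype.ext hy

section Generic

variable (G' : GaussDatum A (FBq (F1 M)) ↥Fk)
  (hcompat : SeriesCompat G' (Equiv.inclQ (F1 M)) (Equiv.inclK Fk))
  {n : ℕ} {θ : Fin n → FBq (F1 M)}
  (hθ : ∀ i, θ i ∈ Equiv.intSubring A (F1 M))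
  (hfr : WFrame.IsFrameFamily G' (j1 M) θ)
  (hx : Transcendental (IsLocalRing.ResidueField A) (G'.redF (j1 M)))
  [FiniteDimensional (IsLocalRing.ResidueField A)⟮G'.redF (j1 M)⟯ ↥Fk]
  [Algebra.IsSeparable (IsLocalRing.ResidueField A)⟮G'.redF (j1 M)⟯ ↥Fk]
  (hd : finrank (IsLocalRing.ResidueField A)⟮G'.redF (j1 M)⟯ ↥Fk =
    Fintype.card (SL(2, ℤ) ⧸ pmGamma1 M))
  (hc : Nat.card (Tame.polesOf (K := IsLocalRing.ResidueField A) (G'.redF (j1 M))) ≤
    cuspCount1 M)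
  (hstab : ∀ (τ : IsLocalRing.ResidueField A ≃+* IsLocalRing.ResidueField A)
    (x : LaurentSeries (IsLocalRing.ResidueField A)), x ∈ Fk →
      coeffMap (τ : IsLocalRing.ResidueField A →+* IsLocalRing.ResidueField A) x ∈ Fk)

include hcompat hθ hfr hx hd hstab in
/-- the assembly of `ES.QRed` from a reduction datum refining `G'` and the equality of genera. -/
theorem exists_qRed_F1_of_redDatum (hM : 1 < M)
    (hFk : IsCurveOfGenus (IsLocalRing.ResidueField A) ↥Fk (genus1 M))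
    (D : RedDatum A (FBq (F1 M)) ↥Fk) (hD : D.toGaussDatum = G') :
    ∃ C : QRed A (F1 M) Fk, C.D.toGaussDatum = G' ∧ C.genus = genus1 M := by
  subst hD
  haveI := (isCurveOfGenus_F1 M).hasPrincipalDivisors
  haveI := hFk.hasPrincipalDivisors
  exact ⟨Equiv.qRedOf D hcompat (jqModC_mem_F1 M) hθ hfr (genus1 M) (isCurveOfGenus_F1 M) hFk
    hstab (degree_polesOf_j1_eq hM D.toGaussDatum hx hd), rfl, rfl⟩

variable [IsAlgClosed (IsLocalRing.ResidueField A)]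

include hcompat hθ hfr hx hd hc hstab in
/-- **P6, `μ₄`-line** (`4 ∣ M`, residue characteristic odd), all hypotheses explicit. -/
theorem exists_qRed_F1_mu4 (hM : 4 ≤ M) {μ : ↥Fk} (h2 : (2 : k) ≠ 0)
    (hrel : G'.redF (j1 M) * (μ ^ 4 * (μ + 16)) = (μ ^ 2 + 256 * μ + 4096) ^ 3) :
    ∃ C : QRed A (F1 M) Fk, C.D.toGaussDatum = G' ∧ C.genus = genus1 M := by
  obtain ⟨hFk, D, hD⟩ := exists_redDatum_F1_mu4 G' hfr hx hd hc hM h2 hrel
  exact exists_qRed_F1_of_redDatum G' hcompat hθ hfr hx hd hstab (by omega) hFk D hD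

include hcompat hθ hfr hx hd hc hstab in
/-- **P6, `μ₉`-line** (`9 ∣ M`, residue characteristic `≠ 3`), all hypotheses explicit. -/
theorem exists_qRed_F1_mu9 (hM : 4 ≤ M) {μ : ↥Fk} (h3 : (3 : k) ≠ 0)
    (hrel : G'.redF (j1 M) * (μ ^ 9 * (μ ^ 2 + 9 * μ + 27)) =
      (μ + 9) ^ 3 * (μ ^ 3 + 243 * μ ^ 2 + 2187 * μ + 6561) ^ 3) :
    ∃ C : QRed A (F1 M) Fk, C.D.toGaussDatum = G' ∧ C.genus = genus1 M := by
  obtain ⟨hFk, D, hD⟩ := exists_redDatum_F1_mu9 G' hfr hx hd hc hM h3 hrel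
  exact exists_qRed_F1_of_redDatum G' hcompat hθ hfr hx hd hstab (by omega) hFk D hD

end Generic

/-! ### the same with the degree read off from the frame (`Red.finrank_adjoin_redF_eq`), for a
frame over any `y ∈ FBar₁(M)` with expansion `j(q)` -/

section FromFrame

variable (G' : GaussDatum A (FBq (F1 M)) ↥Fk)
  (hcompat : SeriesCompat G' (Equiv.inclQ (F1 M)) (Equiv.inclK Fk))
  {y : FBq (F1 M)} (hy : (y : LaurentSeries Qb) = jqModC Qb)
  {n : ℕ} {θ : Fin n → FBq (F1 M)}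
  (hθ : ∀ i, θ i ∈ Equiv.intSubring A (F1 M))
  (hfr : WFrame.IsFrameFamily G' y θ)
  [Algebra.IsSeparable (IsLocalRing.ResidueField A)⟮G'.redF y⟯ ↥Fk]
  (hc : Nat.card (Tame.polesOf (K := IsLocalRing.ResidueField A) (G'.redF y)) ≤ cuspCount1 M)
  (hstab : ∀ (τ : IsLocalRing.ResidueField A ≃+* IsLocalRing.ResidueField A)
    (x : LaurentSeries (IsLocalRing.ResidueField A)), x ∈ Fk →
      coeffMap (τ : IsLocalRing.ResidueField A →+* IsLocalRing.ResidueField A) x ∈ Fk)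
  [IsAlgClosed (IsLocalRing.ResidueField A)]

include hy hfr in
/-- the degree of the residue field over `k(j̄)`, from the frame -/
theorem finrank_adjoin_redF_j1 (hM : 1 < M) :
    finrank (IsLocalRing.ResidueField A)⟮G'.redF y⟯ ↥Fk =
      Fintype.card (SL(2, ℤ) ⧸ pmGamma1 M) := by
  obtain rfl := eq_j1_of_coe hy
  rw [finrank_adjoin_redF_eq hfr]
  exact finrank_FBar1 hM

include hcompat hy hθ hfr hc hstab in
/-- **P6, `μ₄`-line** (`4 ∣ M`, residue characteristic odd). -/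
theorem exists_qRed_F1_mu4' (hM : 4 ≤ M) {μ : ↥Fk} (h2 : (2 : k) ≠ 0)
    (hrel : G'.redF y * (μ ^ 4 * (μ + 16)) = (μ ^ 2 + 256 * μ + 4096) ^ 3) :
    ∃ C : QRed A (F1 M) Fk, C.D.toGaussDatum = G' ∧ C.genus = genus1 M := by
  obtain rfl := eq_j1_of_coe hy
  haveI := finiteDimensional_adjoin_redF_of_frame hfr
  exact exists_qRed_F1_mu4 G' hcompat hθ hfr (transcendental_redF_of_frame hfr)
    (finrank_adjoin_redF_j1 G' rfl hfr (by omega)) hc hstab hM h2 hrel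

include hcompat hy hθ hfr hc hstab in
/-- **P6, `μ₉`-line** (`9 ∣ M`, residue characteristic `≠ 3`). -/
theorem exists_qRed_F1_mu9' (hM : 4 ≤ M) {μ : ↥Fk} (h3 : (3 : k) ≠ 0)
    (hrel : G'.redF y * (μ ^ 9 * (μ ^ 2 + 9 * μ + 27)) =
      (μ + 9) ^ 3 * (μ ^ 3 + 243 * μ ^ 2 + 2187 * μ + 6561) ^ 3) :
    ∃ C : QRed A (F1 M) Fk, C.D.toGaussDatum = G' ∧ C.genus = genus1 M := by
  obtain rfl := eq_j1_of_coe hy
  haveI := finiteDimensional_adjoin_redF_of_frame hfr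
  exact exists_qRed_F1_mu9 G' hcompat hθ hfr (transcendental_redF_of_frame hfr)
    (finrank_adjoin_redF_j1 G' rfl hfr (by omega)) hc hstab hM h3 hrel

end FromFrame

/-! ### the inert case (output of the Igusa step, helper8): `G' = I.datum`, frame `θ_i t^j` -/

section Inert

variable {F₁ : Type*} [Field F₁] [Algebra Qb F₁]
  {Fk₁ : Type*} [Field Fk₁] [Algebra (IsLocalRing.ResidueField A) Fk₁]
  [Algebra F₁ (FBq (F1 M))] [IsScalarTower Qb F₁ (FBq (F1 M))]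
  [Algebra Fk₁ ↥Fk] [IsScalarTower (IsLocalRing.ResidueField A) Fk₁ ↥Fk]
  {G₁ : GaussDatum A F₁ Fk₁} (I : InertInput G₁ (FBq (F1 M)) ↥Fk)
  {y₁ : F₁} {n : ℕ} {θ₁ : Fin n → F₁} (h₁ : WFrame.IsFrameFamily G₁ y₁ θ₁)
  (hy₁ : ((algebraMap F₁ (FBq (F1 M)) y₁ : FBq (F1 M)) : LaurentSeries Qb) = jqModC Qb)
  (hθ₁ : ∀ i, algebraMap F₁ (FBq (F1 M)) (θ₁ i) ∈ Equiv.intSubring A (F1 M))
  (ht : I.t ∈ Equiv.intSubring A (F1 M))
  (hcompat : SeriesCompat I.datum (Equiv.inclQ (F1 M)) (Equiv.inclK Fk))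
  [Algebra.IsSeparable
    (IsLocalRing.ResidueField A)⟮I.datum.redF (algebraMap F₁ (FBq (F1 M)) y₁)⟯ ↥Fk]
  (hc : Nat.card (Tame.polesOf (K := IsLocalRing.ResidueField A)
    (I.datum.redF (algebraMap F₁ (FBq (F1 M)) y₁))) ≤ cuspCount1 M)
  (hstab : ∀ (τ : IsLocalRing.ResidueField A ≃+* IsLocalRing.ResidueField A)
    (x : LaurentSeries (IsLocalRing.ResidueField A)), x ∈ Fk →
      coeffMap (τ : IsLocalRing.ResidueField A →+* IsLocalRing.ResidueField A) x ∈ Fk)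
  [IsAlgClosed (IsLocalRing.ResidueField A)]

include h₁ hy₁ hθ₁ ht hcompat hc hstab in
/-- **P6 from the Igusa step, `μ₄`-line.**  The frame of `C.D.toGaussDatum = I.datum` is
`I.isFrameFamily h₁`. -/
theorem exists_qRed_F1_of_inert_mu4 (hM : 4 ≤ M) {μ : ↥Fk} (h2 : (2 : k) ≠ 0)
    (hrel : I.datum.redF (algebraMap F₁ (FBq (F1 M)) y₁) * (μ ^ 4 * (μ + 16)) =
      (μ ^ 2 + 256 * μ + 4096) ^ 3) :
    ∃ C : QRed A (F1 M) Fk, C.D.toGaussDatum = I.datum ∧ C.genus = genus1 M :=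
  exists_qRed_F1_mu4' I.datum hcompat hy₁ (Equiv.frameFam_mem_intSubring I θ₁ hθ₁ ht)
    (I.isFrameFamily h₁) hc hstab hM h2 hrel

include h₁ hy₁ hθ₁ ht hcompat hc hstab in
/-- **P6 from the Igusa step, `μ₉`-line.** -/
theorem exists_qRed_F1_of_inert_mu9 (hM : 4 ≤ M) {μ : ↥Fk} (h3 : (3 : k) ≠ 0)
    (hrel : I.datum.redF (algebraMap F₁ (FBq (F1 M)) y₁) * (μ ^ 9 * (μ ^ 2 + 9 * μ + 27)) =
      (μ + 9) ^ 3 * (μ ^ 3 + 243 * μ ^ 2 + 2187 * μ + 6561) ^ 3) :
    ∃ C : QRed A (F1 M) Fk, C.D.toGaussDatum = I.datum ∧ C.genus = genus1 M :=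
  exists_qRed_F1_mu9' I.datum hcompat hy₁ (Equiv.frameFam_mem_intSubring I θ₁ hθ₁ ht)
    (I.isFrameFamily h₁) hc hstab hM h3 hrel

end Inert

end Fermat.Agent.S48lib.X1.Red
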