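/-
S48lib / X1 / Red / QRedF1Inst  (helper4, block P6, FINAL ASSEMBLY at `Fk = FRes1 A M`).

**`ES.QRed A (F1 M) (FRes1 A M)`** for a level `M` with `4 ∣ M` or `9 ∣ M`, `A` a place of `ℚ̄` over
`p ∤ M`, from a weak datum `G'` on `(FBar₁(M), FRes1 A M)` which is the coefficientwise reduction of
`q`-expansions, has a frame over `j` of `A`-integral expansions, `FRes1 A M / k(j̄)` separable, and
`#poles(j̄) ≤ cuspCount1 M`.

Plugged in: `μ̄` (helper6 `Red.exists_mu4_F1/_mu9_F1`), stability of `FRes1` under the coefficientwise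
automorphisms (helper8 `coeffMap_mem_FRes1`), `k` algebraically closed, `2 ≠ 0` / `3 ≠ 0` in `k`.
-/
import Mathlib
import Fermat.Agent.S48lib.X1.Red.QRedF1
import Fermat.Agent.S48lib.X1.Red.MuInst
import Fermat.Agent.S48lib.X1.Field.Res

set_option autoImplicit false
set_option linter.unusedSectionVars false
set_option linter.style.haveILetI false

noncomputable section

namespace Fermat.Agent.S48lib.X1.Red

open AlgebraicCurve ModularCurve IntermediateField Module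
open Fermat.Agent.S18lib Fermat.Agent.ProgramR
open Fermat.Agent.S48lib.X1.HeckeJ Fermat.Agent.S48lib.X1.Wp
open Fermat.Agent.S48lib.X1.ES Fermat.Agent.S48lib.X1.Igusa
open scoped MatrixGroups

/-- `ℚ̄` -/
local notation "Qb" => AlgebraicClosure ℚ

variable {M : ℕ} [NeZero M] {A : ValuationSubring Qb} {p : ℕ} [Fact p.Prime]

local notation "k" => IsLocalRing.ResidueField A

theorem four_le_of_dvd (h49 : 4 ∣ M ∨ 9 ∣ M) : 4 ≤ M := by
  have hM : 0 < M := NeZero.pos M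
  rcases h49 with h | h
  · exact Nat.le_of_dvd hM h
  · have := Nat.le_of_dvd hM h
    omega

theorem two_ne_zero_of_four_dvd (hA : A.LiesOverPrime p) (hpM : ¬ p ∣ M) (h4 : 4 ∣ M) :
    (2 : k) ≠ 0 := by
  have h2 : ¬ p ∣ 2 := fun h => hpM (h.trans ((by norm_num : 2 ∣ 4).trans h4))
  have := Gink.natCast_ne_zero_kRes hA h2
  simpa using this

theorem three_ne_zero_of_nine_dvd (hA : A.LiesOverPrime p) (hpM : ¬ p ∣ M) (h9 : 9 ∣ M) :
    (3 : k) ≠ 0 := by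
  have h3 : ¬ p ∣ 3 := fun h => hpM (h.trans ((by norm_num : 3 ∣ 9).trans h9))
  have := Gink.natCast_ne_zero_kRes hA h3
  simpa using this

section Assembly

variable (hA : A.LiesOverPrime p) (hpM : ¬ p ∣ M) (h49 : 4 ∣ M ∨ 9 ∣ M)
  (G' : GaussDatum A (FBq (F1 M)) ↥(FRes1 A M))
  (hcompat : SeriesCompat G' (Equiv.inclQ (F1 M)) (Equiv.inclK (FRes1 A M)))
  {y : FBq (F1 M)} (hy : (y : LaurentSeries Qb) = jqModC Qb)
  {n : ℕ} {θ : Fin n → FBq (F1 M)}
  (hθ : ∀ i, θ i ∈ Equiv.intSubring A (F1 M))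
  (hfr : WFrame.IsFrameFamily G' y θ)
  [Algebra.IsSeparable (IsLocalRing.ResidueField A)⟮G'.redF y⟯ ↥(FRes1 A M)]
  (hc : Nat.card (Tame.polesOf (K := IsLocalRing.ResidueField A) (G'.redF y)) ≤ cuspCount1 M)

include hA hpM h49 hcompat hy hθ hfr hc in
/-- **P6 at `FRes1 A M`.** -/
theorem exists_qRed_FRes1 :
    ∃ C : QRed A (F1 M) (FRes1 A M), C.D.toGaussDatum = G' ∧ C.genus = genus1 M := by
  haveI : IsAlgClosed k := Gink.isAlgClosed_residueField A
  have hM : 4 ≤ M := four_le_of_dvd h49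
  have hstab : ∀ (τ : k ≃+* k) (x : LaurentSeries k), x ∈ FRes1 A M →
      coeffMap (τ : k →+* k) x ∈ FRes1 A M := fun τ x hx =>
    coeffMap_mem_FRes1 hA hpM (τ : k →+* k) hx
  obtain rfl := eq_j1_of_coe hy
  rcases h49 with h4 | h9
  · obtain ⟨μ, -, hrel⟩ := exists_mu4_F1 G' hcompat (by omega) h4
    exact exists_qRed_F1_mu4' G' hcompat rfl hθ hfr hc hstab hM
      (two_ne_zero_of_four_dvd hA hpM h4) hrel
  · obtain ⟨μ, -, hrel⟩ := exists_mu9_F1 G' hcompat (by omega) h9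
    exact exists_qRed_F1_mu9' G' hcompat rfl hθ hfr hc hstab hM
      (three_ne_zero_of_nine_dvd hA hpM h9) hrel

end Assembly

/-! ### the inert form (output of the Igusa step) -/

section Inert

variable {F₁ : Type*} [Field F₁] [Algebra Qb F₁]
  {Fk₁ : Type*} [Field Fk₁] [Algebra (IsLocalRing.ResidueField A) Fk₁]
  [Algebra F₁ (FBq (F1 M))] [IsScalarTower Qb F₁ (FBq (F1 M))]
  [Algebra Fk₁ ↥(FRes1 A M)] [IsScalarTower (IsLocalRing.ResidueField A) Fk₁ ↥(FRes1 A M)]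
  (hA : A.LiesOverPrime p) (hpM : ¬ p ∣ M) (h49 : 4 ∣ M ∨ 9 ∣ M)
  {G₁ : GaussDatum A F₁ Fk₁} (I : InertInput G₁ (FBq (F1 M)) ↥(FRes1 A M))
  {y₁ : F₁} {n : ℕ} {θ₁ : Fin n → F₁} (h₁ : WFrame.IsFrameFamily G₁ y₁ θ₁)
  (hy₁ : ((algebraMap F₁ (FBq (F1 M)) y₁ : FBq (F1 M)) : LaurentSeries Qb) = jqModC Qb)
  (hθ₁ : ∀ i, algebraMap F₁ (FBq (F1 M)) (θ₁ i) ∈ Equiv.intSubring A (F1 M))
  (ht : I.t ∈ Equiv.intSubring A (F1 M))
  (hcompat : SeriesCompat I.datum (Equiv.inclQ (F1 M)) (Equiv.inclK (FRes1 A M)))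
  [Algebra.IsSeparable
    (IsLocalRing.ResidueField A)⟮I.datum.redF (algebraMap F₁ (FBq (F1 M)) y₁)⟯ ↥(FRes1 A M)]
  (hc : Nat.card (Tame.polesOf (K := IsLocalRing.ResidueField A)
    (I.datum.redF (algebraMap F₁ (FBq (F1 M)) y₁))) ≤ cuspCount1 M)

include hA hpM h49 h₁ hy₁ hθ₁ ht hcompat hc in
/-- **P6 at `FRes1 A M` from the Igusa step**: the frame of `C.D.toGaussDatum = I.datum` is
`I.isFrameFamily h₁`, i.e. `(j; θ_i t^j)`. -/
theorem exists_qRed_FRes1_of_inert :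
    ∃ C : QRed A (F1 M) (FRes1 A M), C.D.toGaussDatum = I.datum ∧ C.genus = genus1 M :=
  exists_qRed_FRes1 hA hpM h49 I.datum hcompat hy₁
    (Equiv.frameFam_mem_intSubring I θ₁ hθ₁ ht) (I.isFrameFamily h₁) hc

end Inert

end Fermat.Agent.S48lib.X1.Red
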