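/-
S48lib / X1 / Red / PoleCount  (helper4, block P6-B).

**Abstract pole count via double cosets.**  `K` algebraically closed, `F / K(x)` finite separable
(the variable block of `S18lib/RRgen`), `ι : F → Ω` a field embedding, `G` a finite group acting on
`Ω` with fixed field `ι K(x)`, `e : Ω → K((Q))` an embedding which is the identity on constants and
at which `x` has a pole.  If `H ≤ G` fixes `ι F` pointwise and `T ∈ G` preserves the sign of the
`Q`-order (`T` = the substitution `Q ↦ ζ Q`), then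
`#poles of x on F ≤ #(⟨T⟩ \ G / H)`   (`card_polesOf_le_doubleCoset`).

Proof: `S18lib.CuspK.card_polesOf_le_of_valuations` for the valuations `w g = ord_Q ∘ e ∘ g ∘ ι`
(`g ∈ G`); the norm condition holds because all roots in `Ω` of the minimal polynomial of `θ` over
`K(x)` are conjugates `g • ι θ` (`∏ (X - g • ι θ)` has `G`-invariant coefficients), and Mathlib's
`Algebra.norm_eq_prod_roots`.
-/
import Mathlib
import Fermat.Agent.S18lib.CuspK.Norm
import Fermat.Agent.S18lib.RRgen.Canonical

set_option autoImplicit false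
set_option linter.unusedSectionVars false
set_option linter.style.haveILetI false

noncomputable section

namespace Fermat.Agent.S48lib.X1.Red

open Module Polynomial IsDedekindDomain AlgebraicCurve WithZero
open Fermat.Agent.ProgramR Fermat.Agent.ProgramR.RR Fermat.Agent.ProgramR.Alg
open Fermat.Agent.S18lib

section Conj

variable {Ω : Type*} [Field Ω] {G : Type*} [Group G] [Fintype G] [MulSemiringAction G Ω]

/-- a root of `∏ (X - g • y)` (over the orbit) is a conjugate of `y` -/
theorem exists_smul_eq_of_isRoot_prodXSubSMul (y ρ : Ω) (h : (prodXSubSMul G Ω y).eval ρ = 0) :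
    ∃ g : G, ρ = g • y := by
  classical
  have := Fintype.ofFinite (G ⧸ MulAction.stabilizer G y)
  unfold prodXSubSMul at h
  rw [eval_prod, Finset.prod_eq_zero_iff] at h
  obtain ⟨q, -, hq⟩ := h
  rw [eval_sub, eval_X, eval_C, sub_eq_zero] at hq
  refine ⟨q.out, ?_⟩
  rw [hq]
  conv_lhs => rw [← q.out_eq']
  rfl

end Conj

section Main

variable (K : Type*) [Field K] [IsAlgClosed K]
  (F : Type*) [Field F] [Algebra (RatFunc K) F] [FiniteDimensional (RatFunc K) F]
  [Algebra.IsSeparable (RatFunc K) F] [Algebra K F] [IsScalarTower K (RatFunc K) F]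
  (Binf : Type*) [CommRing Binf] [IsDedekindDomain Binf] [Algebra (Ainf K) Binf]
  [Module.Finite (Ainf K) Binf] [IsTorsionFree (Ainf K) Binf] [Algebra Binf F]
  [IsFractionRing Binf F] [Algebra (Ainf K) F] [IsScalarTower (Ainf K) (RatFunc K) F]
  [IsScalarTower (Ainf K) Binf F]
  [Algebra K Binf] [IsScalarTower K Binf F]

variable {K F}

variable {Ω : Type*} [Field Ω] {G : Type*} [Group G] [Finite G] [MulSemiringAction G Ω]
  (ι : F →+* Ω) (e : Ω →+* LaurentSeries K)

/-- the valuation `ord_Q ∘ e ∘ g ∘ ι` -/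
def conjVal (g : G) : Valuation F ℤᵐ⁰ :=
  (Valued.v : Valuation (LaurentSeries K) ℤᵐ⁰).comap
    (e.comp ((MulSemiringAction.toRingHom G Ω g).comp ι))

theorem conjVal_apply (g : G) (θ : F) :
    conjVal ι e g θ = (Valued.v : Valuation (LaurentSeries K) ℤᵐ⁰) (e (g • ι θ)) := rfl

variable
  (hfix₁ : ∀ (g : G) (r : RatFunc K),
    g • ι (algebraMap (RatFunc K) F r) = ι (algebraMap (RatFunc K) F r))
  (hfix₂ : ∀ y : Ω, (∀ g : G, g • y = y) → ∃ r : RatFunc K, ι (algebraMap (RatFunc K) F r) = y)

include hfix₁ hfix₂ in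
/-- the norm condition: if all conjugates of `θ` are units at `e`, so is the norm -/
theorem conjVal_norm_eq_one (θ : F) (hθ : ∀ g : G, conjVal ι e g θ = 1) :
    conjVal ι e (1 : G) (algebraMap (RatFunc K) F (Algebra.norm (RatFunc K) θ)) = 1 := by
  classical
  have := Fintype.ofFinite G
  set φ : RatFunc K →+* Ω := ι.comp (algebraMap (RatFunc K) F) with hφ
  letI : Algebra (RatFunc K) Ω := φ.toAlgebra
  have halg : algebraMap (RatFunc K) Ω = φ := rfl
  set y : Ω := ι θ with hy
  set P : Polynomial Ω := prodXSubSMul G Ω y with hP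
  -- `P` descends to `K(x)`
  have hlift : P ∈ Polynomial.lifts φ := by
    rw [Polynomial.lifts_iff_coeff_lifts]
    intro n
    obtain ⟨r, hr⟩ := hfix₂ (P.coeff n) fun g => prodXSubSMul.coeff G Ω y g n
    exact ⟨r, hr⟩
  obtain ⟨Q, hQ'⟩ := hlift
  have hQ : Q.map φ = P := hQ'
  have hQθ : Polynomial.aeval θ Q = 0 := by
    apply ι.injective
    rw [map_zero, Polynomial.aeval_def, Polynomial.hom_eval₂, ← Polynomial.eval_map]
    change (Q.map φ).eval y = 0
    rw [hQ]
    exact prodXSubSMul.eval G Ω y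
  have hdvd : (minpoly (RatFunc K) θ).map (algebraMap (RatFunc K) Ω) ∣ P := by
    rw [← hQ, halg]
    exact Polynomial.map_dvd φ (minpoly.dvd (RatFunc K) θ hQθ)
  have hPne : P ≠ 0 := (prodXSubSMul.monic G Ω y).ne_zero
  have hPsplit : P.Splits := by
    have := Fintype.ofFinite (G ⧸ MulAction.stabilizer G y)
    rw [hP]
    unfold prodXSubSMul
    exact Polynomial.Splits.prod fun q _ => Polynomial.Splits.X_sub_C _
  have hsplit : ((minpoly (RatFunc K) θ).map (algebraMap (RatFunc K) Ω)).Splits :=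
    hPsplit.of_dvd hPne hdvd
  have hnorm := Algebra.norm_eq_prod_roots (K := RatFunc K) (L := F) Ω (x := θ) hsplit
  -- every root has valuation one
  have hroots : ∀ ρ ∈ (minpoly (RatFunc K) θ).aroots Ω,
      (Valued.v : Valuation (LaurentSeries K) ℤᵐ⁰) (e ρ) = 1 := by
    intro ρ hρ
    have h1 : (P.eval ρ) = 0 := by
      rw [Polynomial.mem_aroots] at hρ
      have h2 : ((minpoly (RatFunc K) θ).map (algebraMap (RatFunc K) Ω)).eval ρ = 0 := by
        rw [Polynomial.eval_map_algebraMap]
        exact hρ.2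
      exact Polynomial.eval_eq_zero_of_dvd_of_eval_eq_zero hdvd h2
    obtain ⟨g, hg⟩ := exists_smul_eq_of_isRoot_prodXSubSMul y ρ h1
    rw [hg]
    exact hθ g
  rw [conjVal_apply, one_smul]
  change (Valued.v : Valuation (LaurentSeries K) ℤᵐ⁰)
    (e (algebraMap (RatFunc K) Ω (Algebra.norm (RatFunc K) θ))) = 1
  rw [hnorm, map_pow, map_pow, map_multiset_prod, map_multiset_prod]
  rw [Multiset.prod_eq_one, one_pow]
  intro a ha
  rw [Multiset.map_map, Multiset.mem_map] at ha
  obtain ⟨ρ, hρ, rfl⟩ := ha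
  exact hroots ρ hρ

variable (he : ∀ c : K, e (ι (algebraMap K F c)) = HahnSeries.C c)
  (hxe : (e (ι (RRgen.xF K F))).order < 0)
  (H : Subgroup G) (hH : ∀ h ∈ H, ∀ θ : F, h • ι θ = ι θ)
  (T : G) (hT : ∀ y : Ω, 0 < (e (T • y)).order ↔ 0 < (e y).order)

/-- the elements of `G` preserving the sign of the `Q`-order -/
def orderSubgroup : Subgroup G where
  carrier := {a | ∀ y : Ω, 0 < (e (a • y)).order ↔ 0 < (e y).order}
  one_mem' := fun y => by rw [one_smul]
  mul_mem' := fun {a b} ha hb y => by rw [mul_smul, ha, hb]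
  inv_mem' := fun {a} ha y => by
    have := ha (a⁻¹ • y)
    rw [smul_inv_smul] at this
    exact this.symm

include hT in
theorem order_pos_smul_of_mem_zpowers {a : G} (ha : a ∈ Subgroup.zpowers T) (y : Ω) :
    0 < (e (a • y)).order ↔ 0 < (e y).order := by
  have h1 : Subgroup.zpowers T ≤ orderSubgroup (G := G) e := by
    rw [Subgroup.zpowers_le]
    exact hT
  exact h1 ha y

include Binf hfix₁ hfix₂ he hxe hH hT in
/-- **Pole count by double cosets.** -/
theorem card_polesOf_le_doubleCoset :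
    Nat.card (Tame.polesOf (K := K) (RRgen.xF K F)) ≤
      Nat.card (DoubleCoset.Quotient (Subgroup.zpowers T : Set G) (H : Set G)) := by
  refine CuspK.card_polesOf_le_of_valuations Binf (conjVal ι e) (fun g c => ?_) (fun g => ?_)
    (fun θ hθ => ⟨1, conjVal_norm_eq_one ι e hfix₁ hfix₂ θ hθ⟩)
    (DoubleCoset.setoid (Subgroup.zpowers T : Set G) (H : Set G)) (fun g g' hgg' θ => ?_)
  · rw [conjVal_apply, IsScalarTower.algebraMap_apply K (RatFunc K) F, hfix₁,
      ← IsScalarTower.algebraMap_apply K (RatFunc K) F, he]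
    exact CuspK.valuation_C_le_one c
  · rw [conjVal_apply]
    have : g • ι (RRgen.xF K F) = ι (RRgen.xF K F) := hfix₁ g RatFunc.X
    rw [this]
    exact CuspK.one_lt_valuation_of_order_neg hxe
  · rw [DoubleCoset.rel_iff] at hgg'
    obtain ⟨a, ha, b, hb, rfl⟩ := hgg'
    rw [conjVal_apply, conjVal_apply, CuspK.valuation_lt_one_iff, CuspK.valuation_lt_one_iff,
      mul_smul, mul_smul, hH b hb θ, order_pos_smul_of_mem_zpowers e T hT ha]
    have h0 : e (a • g • ι θ) = 0 ↔ e (g • ι θ) = 0 := by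
      rw [map_eq_zero, map_eq_zero, smul_eq_zero_iff_eq]
    rw [h0]

end Main

section Free

open IntermediateField Fermat.Agent.S18lib.RRgen.Canonical

variable (k : Type*) [Field k] [IsAlgClosed k] {Fk : Type*} [Field Fk] [Algebra k Fk] {x : Fk}
  (hx : Transcendental k x) [FiniteDimensional k⟮x⟯ Fk] [Algebra.IsSeparable k⟮x⟯ Fk]
  {Ω : Type*} [Field Ω] {G : Type*} [Group G] [Finite G] [MulSemiringAction G Ω]
  (ι : Fk →+* Ω) (e : Ω →+* LaurentSeries k)

include hx in
/-- **Pole count by double cosets, instance-free form**: `k` algebraically closed, `x ∈ Fk`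
transcendental with `Fk / k(x)` finite separable, `ι : Fk → Ω`, `G` finite acting on `Ω` with
`Ω^G = ι k(x)`, `e : Ω → k((Q))` with `e ∘ ι` the identity on constants and `ord_Q (e (ι x)) < 0`,
`H ≤ G` fixing `ι Fk`, `T ∈ G` preserving the sign of `ord_Q ∘ e`. Then
`#poles of x ≤ #(⟨T⟩ \ G / H)`. -/
theorem card_polesOf_le_doubleCoset'
    (he : ∀ c : k, e (ι (algebraMap k Fk c)) = HahnSeries.C c)
    (hxe : (e (ι x)).order < 0)
    (hfix_c : ∀ (g : G) (c : k), g • ι (algebraMap k Fk c) = ι (algebraMap k Fk c))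
    (hfix_x : ∀ g : G, g • ι x = ι x)
    (hfix₂ : ∀ y : Ω, (∀ g : G, g • y = y) → ∃ r : k⟮x⟯, ι (r : Fk) = y)
    (H : Subgroup G) (hH : ∀ h ∈ H, ∀ θ : Fk, h • ι θ = ι θ)
    (T : G) (hT : ∀ y : Ω, 0 < (e (T • y)).order ↔ 0 < (e y).order) :
    Nat.card (Tame.polesOf (K := k) x) ≤
      Nat.card (DoubleCoset.Quotient (Subgroup.zpowers T : Set G) (H : Set G)) := by
  letI := polyAlgebra k x
  letI := ratFuncAlgebra k hx
  haveI := isScalarTower_poly_ratFunc k hx
  haveI := isScalarTower_const_ratFunc k hx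
  haveI := finiteDimensional_ratFunc k hx
  haveI := isSeparable_ratFunc k hx
  haveI := isScalarTower_ainf_ratFunc k Fk
  haveI := isScalarTower_const_ainf k Fk
  letI := algebraBInf k Fk
  haveI := isScalarTower_const_BInf k Fk
  haveI := isTorsionFree_BInf k Fk
  haveI := isFractionRing_BInf k Fk
  haveI := isDedekindDomain_BInf k Fk
  haveI := finite_BInf k Fk
  have hxF : RRgen.xF k Fk = x := algebraMap_ratFuncAlgebra_X k hx
  -- `G` fixes the image of `k(x)`
  have hfix₁ : ∀ (g : G) (r : RatFunc k),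
      g • ι (algebraMap (RatFunc k) Fk r) = ι (algebraMap (RatFunc k) Fk r) := by
    intro g r
    have hhom : ((MulSemiringAction.toRingHom G Ω g).comp
        (ι.comp (algebraMap (RatFunc k) Fk))) = ι.comp (algebraMap (RatFunc k) Fk) := by
      apply IsLocalization.ringHom_ext (nonZeroDivisors k[X])
      apply Polynomial.ringHom_ext
      · intro c
        simp only [RingHom.coe_comp, Function.comp_apply, MulSemiringAction.toRingHom_apply]
        rw [algebraMap_ratFuncAlgebra_algebraMap, Polynomial.aeval_C]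
        exact hfix_c g c
      · simp only [RingHom.coe_comp, Function.comp_apply, MulSemiringAction.toRingHom_apply]
        rw [algebraMap_ratFuncAlgebra_algebraMap, Polynomial.aeval_X]
        exact hfix_x g
    exact RingHom.congr_fun hhom r
  have hfix₂' : ∀ y : Ω, (∀ g : G, g • y = y) →
      ∃ r : RatFunc k, ι (algebraMap (RatFunc k) Fk r) = y := by
    intro y hy
    obtain ⟨r', hr'⟩ := hfix₂ y hy
    refine ⟨(RatFunc.algEquivOfTranscendental x hx : RatFunc k ≃+* k⟮x⟯).symm r', ?_⟩
    rw [← hr', ← algebraMap_comp_algEquiv k hx]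
    simp
  have hxe' : (e (ι (RRgen.xF k Fk))).order < 0 := by rw [hxF]; exact hxe
  have := card_polesOf_le_doubleCoset (BInf k Fk) ι e hfix₁ hfix₂' he hxe' H hH T hT
  rw [hxF] at this
  exact this

end Free

end Fermat.Agent.S48lib.X1.Red
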