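/-
S48lib / X1 / Red / ResAction  (helper1, block P6-(hM), abstract part).

**The residue field of the abstract Igusa setup and the induced Galois action.**

In the situation of `Igusa.Setup` (`B₀` local, `R ⊇ B₀` with `R^G = B₀`, `red : R →+* 𝕜` with kernel
over `𝔪`, and the decomposition group of `ker red` everything), the image `red R ⊆ 𝕜` is a field
(`resField`), `G` acts on it by `g • red r = red (g • r)` (`resAction`), and an element of `red R`
which is fixed by `G` and separable over the residue field `κ₀` of `B₀` comes from `κ₀`
(`exists_resHom_eq_of_fixed`).  Separability is automatic when `R` is generated over `B₀` by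
elements whose distinct conjugates have distinct reductions (`exists_separable_of_adjoin`).

This is what the residue-side pole count `Red.card_polesOf_le_doubleCoset'` consumes
(`Ω = resField`, `e` = the inclusion into `𝕜 = k((Q))`).
-/
import Mathlib
import Fermat.Agent.S48lib.X1.Igusa.Abstract

set_option autoImplicit false
set_option linter.unusedSectionVars false
set_option linter.style.haveILetI false

noncomputable section

namespace Fermat.Agent.S48lib.X1.Red

open scoped Pointwise
open Polynomial IsLocalRing
open Fermat.Agent.S48lib.X1.Igusa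

variable {B₀ R 𝕜 : Type*} [CommRing B₀] [IsLocalRing B₀] [CommRing R] [Algebra B₀ R]
  {G : Type*} [Group G] [Finite G] [MulSemiringAction G R] [SMulCommClass G B₀ R]
  [Algebra.IsInvariant B₀ R G] [Field 𝕜]
  {red : R →+* 𝕜} {T : G} {H₀ : Subgroup G}

/-! ### the residue field -/

/-- the residue field `red R`, a subfield of `𝕜` -/
def resField (S : Setup B₀ red T H₀) : Subfield 𝕜 :=
  { red.range with
    inv_mem' := by
      rintro _ ⟨r, rfl⟩
      by_cases h : red r = 0
      · rw [h, inv_zero]; exact ⟨0, map_zero red⟩
      · have hmax := S.isMaximal_ker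
        have hr : r ∉ RingHom.ker red := by rwa [RingHom.mem_ker]
        obtain ⟨s, i, hi, hsi⟩ := hmax.exists_inv hr
        refine ⟨s, ?_⟩
        have h1 : red s * red r = 1 := by
          have := congrArg red hsi
          rw [map_add, map_mul, (RingHom.mem_ker).mp hi, add_zero, map_one] at this
          exact this
        exact eq_inv_of_mul_eq_one_left h1 }

variable (S : Setup B₀ red T H₀)

theorem mem_resField {z : 𝕜} : z ∈ resField S ↔ ∃ r : R, red r = z := Iff.rfl

/-- `red` as a surjection onto the residue field -/
def redRes : R →+* resField S :=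
  red.codRestrict (resField S) fun r => ⟨r, rfl⟩

@[simp] theorem coe_redRes (r : R) : ((redRes S r : resField S) : 𝕜) = red r := rfl

theorem redRes_surjective : Function.Surjective (redRes S) := by
  rintro ⟨z, r, rfl⟩
  exact ⟨r, rfl⟩

theorem redRes_eq_zero_iff (r : R) : redRes S r = 0 ↔ red r = 0 := by
  rw [← Subtype.coe_inj]; rfl

theorem redRes_eq_iff (r r' : R) : redRes S r = redRes S r' ↔ red r = red r' := by
  rw [← Subtype.coe_inj]; rfl

/-! ### the action -/

/-- the endomorphism of the residue field induced by `g` -/
def resSmulHom (g : G) : resField S →+* resField S :=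
  (redRes S).liftOfSurjective (redRes_surjective S)
    ⟨(redRes S).comp (MulSemiringAction.toRingHom G R g), fun r hr => by
      rw [RingHom.mem_ker] at hr ⊢
      rw [RingHom.comp_apply, MulSemiringAction.toRingHom_apply, redRes_eq_zero_iff,
        S.red_smul_eq_zero_iff]
      exact (redRes_eq_zero_iff S r).mp hr⟩

theorem resSmulHom_redRes (g : G) (r : R) : resSmulHom S g (redRes S r) = redRes S (g • r) :=
  RingHom.liftOfRightInverse_comp_apply _ _ _ _ r

/-- the action of `G` on the residue field: `g • red r = red (g • r)` -/
@[instance_reducible]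
def resAction : MulSemiringAction G (resField S) where
  smul g z := resSmulHom S g z
  one_smul z := by
    obtain ⟨r, rfl⟩ := redRes_surjective S z
    show resSmulHom S 1 (redRes S r) = redRes S r
    rw [resSmulHom_redRes, one_smul]
  mul_smul g h z := by
    obtain ⟨r, rfl⟩ := redRes_surjective S z
    show resSmulHom S (g * h) (redRes S r) = resSmulHom S g (resSmulHom S h (redRes S r))
    rw [resSmulHom_redRes, resSmulHom_redRes, resSmulHom_redRes, mul_smul]
  smul_zero g := map_zero (resSmulHom S g)
  smul_add g := map_add (resSmulHom S g)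
  smul_one g := map_one (resSmulHom S g)
  smul_mul g := map_mul (resSmulHom S g)

theorem resAction_smul_redRes (g : G) (r : R) :
    letI := resAction S
    g • redRes S r = redRes S (g • r) := resSmulHom_redRes S g r

theorem coe_resAction_smul (g : G) (r : R) :
    letI := resAction S
    ((g • redRes S r : resField S) : 𝕜) = red (g • r) := by
  rw [resAction_smul_redRes]; rfl

/-- an invariant element has an invariant reduction -/
theorem resAction_smul_eq_of_smul_eq {g : G} {r : R} (h : g • r = r) :
    letI := resAction S
    g • redRes S r = redRes S r := by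
  rw [resAction_smul_redRes, h]

/-- if `red ∘ T = tw ∘ red` then `T` acts on the residue field as `tw` -/
theorem coe_resAction_smul_of_twist (g : G) (tw : 𝕜 →+* 𝕜) (htw : ∀ r : R, red (g • r) = tw (red r))
    (z : resField S) :
    letI := resAction S
    ((g • z : resField S) : 𝕜) = tw (z : 𝕜) := by
  obtain ⟨r, rfl⟩ := redRes_surjective S z
  rw [coe_resAction_smul, htw]; rfl

/-! ### the residue field of `B₀` inside -/

theorem resHom_mem_resField (a : ResidueField B₀) : S.resHom a ∈ resField S := by
  obtain ⟨b, rfl⟩ := residue_surjective a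
  exact ⟨algebraMap B₀ R b, rfl⟩

/-- the map `κ₀ → red R` -/
def resHomRes : ResidueField B₀ →+* resField S :=
  S.resHom.codRestrict (resField S) (resHom_mem_resField S)

@[simp] theorem coe_resHomRes (a : ResidueField B₀) :
    ((resHomRes S a : resField S) : 𝕜) = S.resHom a := rfl

theorem resHomRes_residue (b : B₀) : resHomRes S (residue B₀ b) = redRes S (algebraMap B₀ R b) :=
  rfl

theorem resAction_smul_resHomRes (g : G) (a : ResidueField B₀) :
    letI := resAction S
    g • resHomRes S a = resHomRes S a := by
  obtain ⟨b, rfl⟩ := residue_surjective a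
  rw [resHomRes_residue]
  exact resAction_smul_eq_of_smul_eq S (smul_algebraMap g b)

/-! ### the fixed field -/

/-- the reduction of the characteristic polynomial `∏_g (X - g • r)` -/
theorem exists_charpoly_red [Fintype G] (r : R) :
    ∃ f : (ResidueField B₀)[X], f.Monic ∧
      f.map S.resHom = ∏ g : G, (X - C (red (g • r))) := by
  classical
  obtain ⟨f₀, hf₀, -, hmonic⟩ := lifts_and_natDegree_eq_and_monic
    (Algebra.IsInvariant.charpoly_mem_lifts B₀ R G r) (MulSemiringAction.monic_charpoly G r)
  refine ⟨f₀.map (residue B₀), hmonic.map _, ?_⟩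
  rw [S.map_map_resHom, hf₀, MulSemiringAction.charpoly, Polynomial.map_prod]
  refine Finset.prod_congr rfl fun g _ => ?_
  rw [Polynomial.map_sub, map_X, map_C]

/-- **The fixed field of `G` on the residue field is the residue field of `B₀`** (for separable
elements). -/
theorem exists_resHom_eq_of_fixed (r : R) (hfix : ∀ g : G, red (g • r) = red r)
    (hsep : ∃ q : (ResidueField B₀)[X], q.Separable ∧ q.eval₂ S.resHom (red r) = 0) :
    ∃ a : ResidueField B₀, S.resHom a = red r := by
  classical
  have := Fintype.ofFinite G
  letI : Algebra (ResidueField B₀) 𝕜 := S.resHom.toAlgebra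
  have halg : algebraMap (ResidueField B₀) 𝕜 = S.resHom := rfl
  obtain ⟨q, hqsep, hq0⟩ := hsep
  obtain ⟨f, hfmonic, hfmap⟩ := exists_charpoly_red S r
  set z : 𝕜 := red r with hz
  have hfmap' : f.map (algebraMap (ResidueField B₀) 𝕜) = (X - C z) ^ Fintype.card G := by
    rw [halg, hfmap]
    simp only [hfix, Finset.prod_const, Finset.card_univ]
  have hq0' : aeval z q = 0 := by rw [aeval_def, halg]; exact hq0
  have hf0 : aeval z f = 0 := by
    rw [aeval_def, ← eval_map, hfmap']
    simp [Fintype.card_ne_zero]
  have hint : IsIntegral (ResidueField B₀) z := ⟨f, hfmonic, hf0⟩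
  set m := minpoly (ResidueField B₀) z with hm
  have hmq : m ∣ q := minpoly.dvd _ _ hq0'
  have hmf : m ∣ f := minpoly.dvd _ _ hf0
  have hmsep : (m.map (algebraMap (ResidueField B₀) 𝕜)).Separable :=
    (hqsep.of_dvd hmq).map
  have hmdvd : m.map (algebraMap (ResidueField B₀) 𝕜) ∣ (X - C z) ^ Fintype.card G := by
    rw [← hfmap']
    exact Polynomial.map_dvd _ hmf
  have hm0 : m.map (algebraMap (ResidueField B₀) 𝕜) ≠ 0 :=
    (Polynomial.map_ne_zero_iff (algebraMap (ResidueField B₀) 𝕜).injective).mpr
      (minpoly.ne_zero hint)
  have hpow0 : ((X - C z) ^ Fintype.card G : 𝕜[X]) ≠ 0 := pow_ne_zero _ (X_sub_C_ne_zero z)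
  have hsplit : (m.map (algebraMap (ResidueField B₀) 𝕜)).Splits :=
    ((Polynomial.Splits.X_sub_C z).pow _).of_dvd hpow0 hmdvd
  have hroots : (m.map (algebraMap (ResidueField B₀) 𝕜)).roots ≤
      Multiset.replicate (Fintype.card G) z := by
    have := Polynomial.roots.le_of_dvd hpow0 hmdvd
    rwa [Polynomial.roots_pow, Polynomial.roots_X_sub_C, Multiset.nsmul_singleton] at this
  have hnodup := Polynomial.nodup_roots hmsep
  have hcard : (m.map (algebraMap (ResidueField B₀) 𝕜)).roots.card ≤ 1 := by
    have hsub : (m.map (algebraMap (ResidueField B₀) 𝕜)).roots ⊆ {z} := by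
      intro a ha
      have := Multiset.mem_of_le hroots ha
      rw [Multiset.mem_singleton]
      exact Multiset.eq_of_mem_replicate this
    have hle : (m.map (algebraMap (ResidueField B₀) 𝕜)).roots ≤ {z} :=
      (Multiset.le_iff_subset hnodup).mpr hsub
    simpa using Multiset.card_le_card hle
  have hdeg : m.natDegree = 1 := by
    have h1 : m.natDegree ≤ 1 := by
      rw [← Polynomial.natDegree_map (algebraMap (ResidueField B₀) 𝕜),
        hsplit.natDegree_eq_card_roots]
      exact hcard
    have h2 : 0 < m.natDegree := minpoly.natDegree_pos hint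
    omega
  obtain ⟨a, ha⟩ := (minpoly.natDegree_eq_one_iff).mp hdeg
  exact ⟨a, ha⟩

/-- the same, for elements of the residue field -/
theorem exists_resHomRes_eq_of_fixed
    (hsep : ∀ r : R, ∃ q : (ResidueField B₀)[X], q.Separable ∧ q.eval₂ S.resHom (red r) = 0)
    (z : resField S) (hz : letI := resAction S; ∀ g : G, g • z = z) :
    ∃ a : ResidueField B₀, resHomRes S a = z := by
  obtain ⟨r, rfl⟩ := redRes_surjective S z
  have hfix : ∀ g : G, red (g • r) = red r := fun g => by
    have := congrArg Subtype.val (hz g)
    rwa [coe_resAction_smul] at this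
  obtain ⟨a, ha⟩ := exists_resHom_eq_of_fixed S r hfix (hsep r)
  exact ⟨a, Subtype.ext ha⟩

/-! ### separability from generators -/

/-- if `R` is generated over `B₀` by elements whose distinct conjugates have distinct reductions,
every element of the residue field is separable over the residue field of `B₀` -/
theorem exists_separable_of_adjoin (V : Set R) (hV : Algebra.adjoin B₀ V = ⊤)
    (hinj : ∀ v ∈ V, ∀ y ∈ conjSet G v, ∀ z ∈ conjSet G v, red y = red z → y = z) (r : R) :
    ∃ q : (ResidueField B₀)[X], q.Separable ∧ q.eval₂ S.resHom (red r) = 0 := by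
  classical
  letI : Algebra (ResidueField B₀) 𝕜 := S.resHom.toAlgebra
  have halg : algebraMap (ResidueField B₀) 𝕜 = S.resHom := rfl
  suffices h : red r ∈ separableClosure (ResidueField B₀) 𝕜 by
    rw [mem_separableClosure_iff] at h
    refine ⟨minpoly (ResidueField B₀) (red r), h, ?_⟩
    rw [← halg, ← aeval_def]
    exact minpoly.aeval _ _
  have hr : r ∈ Algebra.adjoin B₀ V := by rw [hV]; trivial
  induction hr using Algebra.adjoin_induction with
  | mem v hv =>
    obtain ⟨P₀, hP₀, -, hmonic⟩ := exists_conjPoly_lift (B₀ := B₀) (G := G) v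
    obtain ⟨-, hsep⟩ := S.irreducible_and_separable v P₀ hP₀ hmonic (hinj v hv)
    rw [mem_separableClosure_iff]
    have hroot : aeval (red v) (P₀.map (residue B₀)) = 0 := by
      rw [aeval_def, ← eval_map, halg, S.map_map_resHom, hP₀, eval_map,
        Polynomial.eval₂_at_apply, eval_conjPoly (self_mem_conjSet v), map_zero]
    exact hsep.of_dvd (minpoly.dvd _ _ hroot)
  | algebraMap b =>
    have : red (algebraMap B₀ R b) = algebraMap (ResidueField B₀) 𝕜 (residue B₀ b) := rfl
    rw [this]
    exact (separableClosure (ResidueField B₀) 𝕜).algebraMap_mem _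
  | add x y _ _ hx hy => rw [map_add]; exact add_mem hx hy
  | mul x y _ _ hx hy => rw [map_mul]; exact mul_mem hx hy

end Fermat.Agent.S48lib.X1.Red
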