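/-
S48lib / X1 / Red / ResPole  (helper1, block P6-(hM), abstract part 2).

**The residue-side pole count from the abstract Igusa setup.**  `Red.card_polesOf_le_doubleCoset'`
(helper4) applied to `Ω = resField S` (the residue field `red R ⊆ k((Q))` of the Igusa setup with
its induced `G`-action, `Red/ResAction.lean`): if the residue function field `Fk` embeds into
`k((Q))` with image inside `red R`, the residue field of `B₀` is `k(x)`, a subgroup `H` acts
trivially on the image of `Fk`, and `T` acts on `red R` through an order-preserving endomorphism of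
`k((Q))` (`Q ↦ ζ Q`), then `#poles of x on Fk ≤ #(⟨T⟩ \ G / H)`.
-/
import Mathlib
import Fermat.Agent.S48lib.X1.Red.PoleCount
import Fermat.Agent.S48lib.X1.Red.ResAction

set_option autoImplicit false
set_option linter.unusedSectionVars false
set_option linter.style.haveILetI false

noncomputable section

namespace Fermat.Agent.S48lib.X1.Red

open scoped Pointwise
open Polynomial IsLocalRing IntermediateField
open Fermat.Agent.S48lib.X1.Igusa Fermat.Agent.ProgramR Fermat.Agent.S18lib

variable {B₀ R : Type*} [CommRing B₀] [IsLocalRing B₀] [CommRing R] [Algebra B₀ R]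
  {G : Type*} [Group G] [Finite G] [MulSemiringAction G R] [SMulCommClass G B₀ R]
  [Algebra.IsInvariant B₀ R G]
  (k : Type*) [Field k] {Fk : Type*} [Field Fk] [Algebra k Fk]
  {red : R →+* LaurentSeries k} {T : G} {H₀ : Subgroup G}

section Gens

variable (S : Setup B₀ red T H₀) (ιk : Fk →+* LaurentSeries k)

include S in
/-- the image of `Fk` lies in the residue field as soon as this holds for constants and for a set
of field generators -/
theorem forall_mem_range_of_adjoin (gens : Set Fk) (hgens : IntermediateField.adjoin k gens = ⊤)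
    (hc : ∀ c : k, ∃ r : R, red r = ιk (algebraMap k Fk c))
    (hg : ∀ θ ∈ gens, ∃ r : R, red r = ιk θ) (θ : Fk) : ∃ r : R, red r = ιk θ := by
  let E : IntermediateField k Fk :=
    { (resField S).comap ιk with
      algebraMap_mem' := fun c => hc c }
  have hle : IntermediateField.adjoin k gens ≤ E :=
    IntermediateField.adjoin_le_iff.mpr fun θ hθ => hg θ hθ
  rw [hgens] at hle
  exact hle (IntermediateField.mem_top (x := θ))

/-- the map `Fk → red R` induced by `ιk` -/
def toResField (hιk : ∀ θ : Fk, ∃ r : R, red r = ιk θ) : Fk →+* resField S :=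
  ιk.codRestrict (resField S) hιk

@[simp] theorem coe_toResField (hιk : ∀ θ : Fk, ∃ r : R, red r = ιk θ) (θ : Fk) :
    ((toResField k S ιk hιk θ : resField S) : LaurentSeries k) = ιk θ := rfl

/-- an element of `G` acts trivially on the image of `Fk` as soon as this holds for constants and
for a set of field generators -/
theorem forall_smul_eq_of_adjoin (hιk : ∀ θ : Fk, ∃ r : R, red r = ιk θ)
    (gens : Set Fk) (hgens : IntermediateField.adjoin k gens = ⊤) (h : G)
    (hc : ∀ c : k, ∃ r : R, red r = ιk (algebraMap k Fk c) ∧ red (h • r) = red r)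
    (hg : ∀ θ ∈ gens, ∃ r : R, red r = ιk θ ∧ red (h • r) = red r) (θ : Fk) :
    letI := resAction S
    h • toResField k S ιk hιk θ = toResField k S ιk hιk θ := by
  letI := resAction S
  have key : ∀ θ : Fk, (∃ r : R, red r = ιk θ ∧ red (h • r) = red r) →
      h • toResField k S ιk hιk θ = toResField k S ιk hιk θ := by
    rintro θ ⟨r, hr, hhr⟩
    have e : toResField k S ιk hιk θ = redRes S r := Subtype.ext hr.symm
    rw [e, resAction_smul_redRes]
    exact Subtype.ext hhr
  let E : IntermediateField k Fk :=
    { carrier := {θ | h • toResField k S ιk hιk θ = toResField k S ιk hιk θ}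
      mul_mem' := fun {a b} ha hb => by
        simp only [Set.mem_ofPred_eq] at ha hb ⊢
        rw [map_mul, smul_mul', ha, hb]
      one_mem' := by simp only [Set.mem_ofPred_eq]; rw [map_one, smul_one]
      add_mem' := fun {a b} ha hb => by
        simp only [Set.mem_ofPred_eq] at ha hb ⊢
        rw [map_add, smul_add, ha, hb]
      zero_mem' := by simp only [Set.mem_ofPred_eq]; rw [map_zero, smul_zero]
      algebraMap_mem' := fun c => key _ (hc c)
      inv_mem' := fun a ha => by
        simp only [Set.mem_ofPred_eq] at ha ⊢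
        rw [map_inv₀, smul_inv'', ha] }
  have hle : IntermediateField.adjoin k gens ≤ E :=
    IntermediateField.adjoin_le_iff.mpr fun θ hθ => key θ (hg θ hθ)
  rw [hgens] at hle
  exact hle (IntermediateField.mem_top (x := θ))

end Gens

section Main

variable [IsAlgClosed k] {x : Fk} (hx : Transcendental k x) [FiniteDimensional k⟮x⟯ Fk]
  [Algebra.IsSeparable k⟮x⟯ Fk]

include hx in
/-- **Residue-side pole count from the Igusa setup.** -/
theorem card_polesOf_le_doubleCoset_of_setup (S : Setup B₀ red T H₀)
    (hsep : ∀ r : R, ∃ q : (ResidueField B₀)[X], q.Separable ∧ q.eval₂ S.resHom (red r) = 0)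
    (ιk : Fk →+* LaurentSeries k) (hιk : ∀ θ : Fk, ∃ r : R, red r = ιk θ)
    (he : ∀ c : k, ιk (algebraMap k Fk c) = HahnSeries.C c)
    (hxe : (ιk x).order < 0)
    (hck : ∀ c : k, ∃ a : ResidueField B₀, S.resHom a = ιk (algebraMap k Fk c))
    (hxk : ∃ a : ResidueField B₀, S.resHom a = ιk x)
    (hκ : ∀ a : ResidueField B₀, ∃ r : k⟮x⟯, ιk (r : Fk) = S.resHom a)
    (H : Subgroup G)
    (hH : letI := resAction S
      ∀ h ∈ H, ∀ θ : Fk, h • toResField k S ιk hιk θ = toResField k S ιk hιk θ)
    (tw : LaurentSeries k →+* LaurentSeries k) (htw : ∀ r : R, red (T • r) = tw (red r))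
    (htw_ord : ∀ y : LaurentSeries k, 0 < (tw y).order ↔ 0 < y.order) :
    Nat.card (Tame.polesOf (K := k) x) ≤
      Nat.card (DoubleCoset.Quotient (Subgroup.zpowers T : Set G) (H : Set G)) := by
  letI := resAction S
  refine card_polesOf_le_doubleCoset' k hx (toResField k S ιk hιk) (resField S).subtype
    he hxe ?_ ?_ ?_ H hH T ?_
  · intro g c
    obtain ⟨a, ha⟩ := hck c
    have e : toResField k S ιk hιk (algebraMap k Fk c) = resHomRes S a := Subtype.ext ha.symm
    rw [e]
    exact resAction_smul_resHomRes S g a
  · intro g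
    obtain ⟨a, ha⟩ := hxk
    have e : toResField k S ιk hιk x = resHomRes S a := Subtype.ext ha.symm
    rw [e]
    exact resAction_smul_resHomRes S g a
  · intro y hy
    obtain ⟨a, ha⟩ := exists_resHomRes_eq_of_fixed S hsep y hy
    obtain ⟨r, hr⟩ := hκ a
    refine ⟨r, Subtype.ext ?_⟩
    rw [coe_toResField, hr, ← ha]
    rfl
  · intro y
    have e : ((resField S).subtype (T • y)) = tw ((resField S).subtype y) :=
      coe_resAction_smul_of_twist S T tw htw y
    rw [e]
    exact htw_ord _

end Main

end Fermat.Agent.S48lib.X1.Red
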