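/-
S48lib / X1 / Red / SetupField  (helper1, block P6-(hM)).

The `Igusa.Setup` of lead's `igusa_field`, exported: under the hypotheses of `igusa_field` (up to
`hgen`) the ring `R = B₀[V]` with its stable `G`-action and the reduction `redS|R` is an
`Igusa.Setup`.  (This is the first half of the proof of `igusa_field`; the residue-side pole count
needs the setup itself, `Red/ResAction.lean`.)
-/
import Mathlib
import Fermat.Agent.S48lib.X1.Igusa.Field

set_option autoImplicit false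
set_option linter.unusedSectionVars false
set_option linter.style.haveILetI false

noncomputable section

namespace Fermat.Agent.S48lib.X1.Red

open scoped Pointwise
open Polynomial IsLocalRing
open Fermat.Agent.S48lib.X1.Igusa

variable {B₀ K₀ Ω 𝕜 : Type*} [CommRing B₀] [Field K₀] [Algebra B₀ K₀] [Field Ω] [Algebra K₀ Ω]
  [Algebra B₀ Ω] [IsScalarTower B₀ K₀ Ω]
  {G : Type*} [Group G] [MulSemiringAction G Ω] [SMulCommClass G K₀ Ω] [Field 𝕜]

/-- the inclusion of `B₀[V]` into a subring containing it -/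
def adjoinIncl (V : Set Ω) (S : Subring Ω) (hRS : ∀ x ∈ Algebra.adjoin B₀ V, x ∈ S) :
    Algebra.adjoin B₀ V →+* S where
  toFun r := ⟨r, hRS r r.2⟩
  map_one' := rfl
  map_mul' _ _ := rfl
  map_zero' := rfl
  map_add' _ _ := rfl

/-- the reduction restricted to `R = B₀[V]` -/
def adjoinRed (V : Set Ω) (S : Subring Ω) (redS : S →+* 𝕜)
    (hRS : ∀ x ∈ Algebra.adjoin B₀ V, x ∈ S) : Algebra.adjoin B₀ V →+* 𝕜 :=
  redS.comp (adjoinIncl V S hRS)

theorem adjoinRed_apply (V : Set Ω) (S : Subring Ω) (redS : S →+* 𝕜)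
    (hRS : ∀ x ∈ Algebra.adjoin B₀ V, x ∈ S) (r : Algebra.adjoin B₀ V) :
    adjoinRed V S redS hRS r = redS ⟨r, hRS r r.2⟩ := rfl

variable [IsDomain B₀] [IsLocalRing B₀] [IsIntegrallyClosed B₀] [IsFractionRing B₀ K₀]
  [Finite G] [Algebra.IsInvariant K₀ Ω G]

/-- **the setup of `igusa_field`.** -/
theorem setup_of_field (V : Set Ω) (hVst : ∀ g : G, ∀ v ∈ V, g • v ∈ V)
    (hVint : ∀ v ∈ V, IsIntegral B₀ v)
    (S : Subring Ω) (redS : S →+* 𝕜) (hBS : ∀ b : B₀, algebraMap B₀ Ω b ∈ S)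
    (hred : ∀ b : B₀, redS ⟨algebraMap B₀ Ω b, hBS b⟩ = 0 ↔ b ∈ maximalIdeal B₀)
    (hRS : ∀ x ∈ Algebra.adjoin B₀ V, x ∈ S)
    (T : G) (hT : ∀ (x : Ω) (hx : x ∈ Algebra.adjoin B₀ V) (hTx : T • x ∈ Algebra.adjoin B₀ V),
      redS ⟨x, hRS x hx⟩ = 0 → redS ⟨T • x, hRS _ hTx⟩ = 0)
    (H₀ : Subgroup G) {O : Type*} [CommRing O] [IsLocalRing O] [Algebra B₀ O]
    [Algebra.IsIntegral B₀ O] (ιO : O →+* Ω) (hιO : Function.Injective ιO)
    (hιB : ∀ b : B₀, ιO (algebraMap B₀ O b) = algebraMap B₀ Ω b)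
    (hW : ∀ r ∈ Algebra.adjoin B₀ V, (∀ a ∈ H₀, a • r = r) → r ∈ Set.range ιO)
    (hnorm : ∀ h ∈ H₀, h * T * h⁻¹ ∈ Subgroup.zpowers T)
    (hgen : Subgroup.normalClosure {T} = ⊤) :
    letI := stableAction (Algebra.adjoin B₀ V) (adjoin_stable K₀ V hVst)
    Setup B₀ (adjoinRed V S redS hRS) T H₀ := by
  classical
  set R : Subalgebra B₀ Ω := Algebra.adjoin B₀ V with hR
  have hRst : ∀ (g : G) (y : Ω), y ∈ R → g • y ∈ R := adjoin_stable K₀ V hVst
  have hRint : ∀ y ∈ R, IsIntegral B₀ y := adjoin_isIntegral V hVint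
  letI : MulSemiringAction G R := stableAction R hRst
  haveI : SMulCommClass G B₀ R := stableAction_smulCommClass K₀ R hRst
  haveI : Algebra.IsInvariant B₀ R G := stableAction_isInvariant (K₀ := K₀) R hRst hRint
  set redR : R →+* 𝕜 := adjoinRed V S redS hRS with hredR
  -- the map from the invariants to `O`
  let e : O ≃+* ιO.range := RingEquiv.ofBijective ιO.rangeRestrict
    ⟨fun a b h => hιO (congrArg Subtype.val h), ιO.rangeRestrict_surjective⟩
  have he : ∀ o : O, ((e o : ιO.range) : Ω) = ιO o := fun _ => rfl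
  let toΩ : FixedPoints.subring R H₀ →+* Ω :=
    R.val.toRingHom.comp (FixedPoints.subring R H₀).subtype
  have htoΩ : ∀ c, toΩ c ∈ ιO.range := by
    intro c
    obtain ⟨o, ho⟩ := hW (c : R) (c : R).2 (fun a ha => congrArg Subtype.val (c.2 ⟨a, ha⟩))
    exact ⟨o, ho⟩
  let f : FixedPoints.subring R H₀ →+* O :=
    e.symm.toRingHom.comp (toΩ.codRestrict ιO.range htoΩ)
  have hf_spec : ∀ c, ιO (f c) = ((c : R) : Ω) := by
    intro c
    have : e (f c) = toΩ.codRestrict ιO.range htoΩ c := e.apply_symm_apply _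
    rw [← he, this]
    rfl
  have hf : Function.Injective f := by
    intro c c' h
    have := congrArg ιO h
    rw [hf_spec, hf_spec] at this
    exact Subtype.ext (Subtype.ext this)
  have hfB : ∀ (b : B₀) (hb : algebraMap B₀ R b ∈ FixedPoints.subring R H₀),
      f ⟨algebraMap B₀ R b, hb⟩ = algebraMap B₀ O b := by
    intro b hb
    apply hιO
    rw [hf_spec, hιB]
    rfl
  refine Setup.of_forall redR T H₀ ?_ ?_ ?_ hnorm hgen
  · intro b
    exact hred b
  · intro r hr
    exact hT r r.2 (hRst T r r.2) hr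
  · intro Q hQ hQ𝔪 r hr
    haveI := hQ
    haveI : (RingHom.ker redR).IsPrime := RingHom.ker_isPrime redR
    have hker : (RingHom.ker redR).under B₀ = maximalIdeal B₀ := by
      ext b
      rw [Ideal.under_def, Ideal.mem_comap, RingHom.mem_ker]
      exact hred b
    rw [← RingHom.mem_ker]
    exact mem_iff_mem_of_fixed_le_local H₀ f hf hfB Q (RingHom.ker redR) hQ𝔪 hker r hr

end Fermat.Agent.S48lib.X1.Red
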