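/-
S48lib / X1 / Red / PoleSetup  (helper1, block P6-(hM), instance part 1).

**The residue-side pole count for `X₁(M)`**: for `D : Igusa.GalData M ζ` (the characteristic-0
Galois data of `Ω₀(M)`), `A ⊆ ℚ̄` over `p ∤ M`, `ζ̄` the reduction of `ζ` and `c` prime to `M`, on the
residue field `Fk = k(j̄, τ̄_(0,b)) = genL k M (ζ̄ ^ c) ⊆ k((q))`:

  `#poles of j̄ ≤ #(⟨T⟩ \ SL(2, ZMod M) / H₁)`,   `H₁` = image of `±Γ₁(M)`,

provided `±Γ₁(M)` fixes the `τ_(0, c b)` in `Ω₀(M)`.  Proof: `Red.card_polesOf_le_doubleCoset_of_setup`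
for the Igusa setup `R = B₀[τ_v] ⊆ Ω₀(M)`, `red` = coefficientwise reduction of `Q`-expansions.
-/
import Mathlib
import Fermat.Agent.S48lib.X1.Igusa.Inst
import Fermat.Agent.S48lib.X1.Red.SetupField
import Fermat.Agent.S48lib.X1.Red.ResPole
import Fermat.Agent.S48lib.X1.Red.CuspCount
import Fermat.Agent.S48lib.X1.Field.Descent
import Fermat.Agent.S28lib.Series

set_option autoImplicit false
set_option linter.unusedSectionVars false
set_option linter.style.haveILetI false

noncomputable section

namespace Fermat.Agent.S48lib.X1.Red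

open ModularCurve HahnSeries Polynomial IsLocalRing IntermediateField
open Matrix Matrix.SpecialLinearGroup CongruenceSubgroup
open scoped MatrixGroups ModularGroup
open Fermat.Agent.S18lib Fermat.Agent.S48lib.X1.Igusa
open Fermat.Agent.S28lib (twist)
open Fermat.Agent.S48lib.X1 (tauK)

local notation "Qb" => AlgebraicClosure ℚ

attribute [local instance] GalData.action GalData.algebraBase

variable {M : ℕ} [NeZero M] {ζ : Qbˣ} (D : GalData M ζ) (A : ValuationSubring Qb) {p : ℕ}
  [Fact p.Prime]

local notation "kA" => IsLocalRing.ResidueField A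

/-! ### the Igusa setup of `Ω₀(M)` -/

section Setup

variable (hA : A.LiesOverPrime p) (hpM : ¬ p ∣ M) (hζ : IsPrimitiveRoot ζ M)

/-- the reduction on `R = B₀[τ_v]` -/
def redΩ : Algebra.adjoin (baseRing A hA) D.V →+* LaurentSeries kA :=
  adjoinRed D.V (D.S A) (D.redS A) (D.adjoin_le_S A hA hpM hζ)

theorem redΩ_apply (r : Algebra.adjoin (baseRing A hA) D.V) :
    redΩ D A hA hpM hζ r =
      fracRed A ⟨((r : D.Ω) : LaurentSeries Qb), D.adjoin_le_S A hA hpM hζ r r.2⟩ := rfl

/-- the reduction of an element with an `A`-integral expansion -/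
theorem redΩ_eq_toK (r : Algebra.adjoin (baseRing A hA) D.V) (s : LaurentSeries A)
    (h : ((r : D.Ω) : LaurentSeries Qb) = V.toL A s) : redΩ D A hA hpM hζ r = V.toK A s := by
  rw [redΩ_apply]
  have e : (⟨((r : D.Ω) : LaurentSeries Qb), D.adjoin_le_S A hA hpM hζ r r.2⟩ : fracSubring A) =
      ⟨V.toL A s, toL_mem_fracSubring s⟩ := Subtype.ext h
  rw [e, fracRed_toL]

/-- the stable action on `R` -/
@[instance_reducible]
def actionR : MulSemiringAction (SL(2, ZMod M)) (Algebra.adjoin (baseRing A hA) D.V) :=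
  haveI := D.smulCommClass_base'
  stableAction (Algebra.adjoin (baseRing A hA) D.V)
    (adjoin_stable (FBar 1) D.V (fun g _ hv => D.smul_mem_V g hv))

theorem coe_actionR_smul (g : SL(2, ZMod M)) (r : Algebra.adjoin (baseRing A hA) D.V) :
    letI := actionR D A hA
    ((g • r : Algebra.adjoin (baseRing A hA) D.V) : D.Ω) = g • (r : D.Ω) := rfl

/-- **the Igusa setup of `Ω₀(M)`** -/
theorem setupΩ :
    letI := actionR D A hA
    Setup (baseRing A hA) (redΩ D A hA hpM hζ) (Tm M) (H0 M) := by
  haveI := finite_SL2ZMod M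
  haveI := D.smulCommClass_base'
  haveI := D.isInvariant_base
  letI := algebraLevelRing M A hpM hA
  haveI := isIntegral_levelRing M A hpM hA
  have hRS := D.adjoin_le_S A hA hpM hζ
  exact setup_of_field (K₀ := FBar 1) (G := SL(2, ZMod M)) D.V
    (fun g v hv => D.smul_mem_V g hv)
    (fun v hv => D.isIntegral_of_mem_V A hA hpM hζ hv)
    (D.S A) (D.redS A) (D.algebraMap_baseRing_mem_S A hA)
    (D.redS_algebraMap_eq_zero_iff A hA) hRS (Tm M)
    (fun x hx hTx h0 => D.redS_Tm_smul_eq_zero A (hRS x hx) (hRS _ hTx) h0)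
    (H0 M) (D.levelRingHom A hA hpM) (D.levelRingHom_injective A hA hpM)
    (D.levelRingHom_algebraMap A hA hpM)
    (fun r hr hfix => D.mem_range_levelRingHom A hA hpM r (hRS r hr) hfix)
    (fun h hh => conj_Tm_mem_zpowers M h hh) (normalClosure_Tm M)

theorem smulCommClassR :
    letI := actionR D A hA
    SMulCommClass (SL(2, ZMod M)) (baseRing A hA) (Algebra.adjoin (baseRing A hA) D.V) := by
  haveI := D.smulCommClass_base'
  exact stableAction_smulCommClass (FBar 1) (Algebra.adjoin (baseRing A hA) D.V)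
    (adjoin_stable (FBar 1) D.V (fun g _ hv => D.smul_mem_V g hv))

include hpM hζ in
theorem isInvariantR :
    letI := actionR D A hA
    Algebra.IsInvariant (baseRing A hA) (Algebra.adjoin (baseRing A hA) D.V) (SL(2, ZMod M)) := by
  haveI := finite_SL2ZMod M
  haveI := D.smulCommClass_base'
  haveI := D.isInvariant_base
  exact stableAction_isInvariant (K₀ := FBar 1) (Algebra.adjoin (baseRing A hA) D.V)
    (adjoin_stable (FBar 1) D.V (fun g _ hv => D.smul_mem_V g hv))
    (adjoin_isIntegral D.V (fun v hv => D.isIntegral_of_mem_V A hA hpM hζ hv))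

end Setup

/-! ### generalities -/

section Gen

/-- the generators of an adjoined field generate it (inside the subtype) -/
theorem adjoin_coe_preimage_eq_top {F E : Type*} [Field F] [Field E] [Algebra F E] (S : Set E)
    (K : IntermediateField F E) (hK : K = IntermediateField.adjoin F S) :
    IntermediateField.adjoin F ((fun x : K => (x : E)) ⁻¹' S) = ⊤ := by
  subst hK
  rw [eq_top_iff]
  rintro ⟨y, hy⟩ -
  induction hy using IntermediateField.adjoin_induction with
  | mem x hx => exact IntermediateField.subset_adjoin F _ hx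
  | algebraMap x => exact IntermediateField.algebraMap_mem _ x
  | add x y hx hy hx' hy' => exact add_mem hx' hy'
  | inv x hx hx' => exact inv_mem hx'
  | mul x y hx hy hx' hy' => exact mul_mem hx' hy'

theorem transcendental_of_coe_eq_jqModC {k : Type*} [Field k]
    {Fk : IntermediateField k (LaurentSeries k)} {x : Fk}
    (hx : (x : LaurentSeries k) = jqModC k) : Transcendental k x := by
  intro halg
  obtain ⟨P, hP0, hP⟩ := halg
  apply Fermat.Agent.ProgramR.BarField.aeval_jqModC_ne_zero k hP0
  have h := Polynomial.aeval_algHom_apply Fk.val x P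
  rw [hP, map_zero] at h
  rw [← hx]
  exact h

end Gen

end Fermat.Agent.S48lib.X1.Red
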