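/-
S48lib / X1 / Red / PoleInst  (helper1, block P6-(hM), instance part 2).

**The residue-side pole count for `X₁(M)`**: for `D : Igusa.GalData M ζ` (the characteristic-0
Galois data of `Ω₀(M)`), `A ⊆ ℚ̄` over `p ∤ M`, `ζ̄` the reduction of `ζ` and `c` prime to `M`, on a
residue field `Fk = genL k M (ζ̄ ^ c) = k(j̄, τ̄_(0,b)) ⊆ k((q))`:

  `#poles of j̄ ≤ #(⟨T⟩ \ SL(2, ZMod M) / H₁)`,   `H₁ = H1mod M` = image of `±Γ₁(M)`,

provided `±Γ₁(M)` fixes the `τ_(0, c b)` in `Ω₀(M)`  (`card_polesOf_le_doubleCoset_genL`).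
-/
import Mathlib
import Fermat.Agent.S48lib.X1.Red.PoleSetup

set_option autoImplicit false
set_option linter.unusedSectionVars false
set_option linter.style.haveILetI false

noncomputable section

namespace Fermat.Agent.S48lib.X1.Red

open ModularCurve HahnSeries Polynomial IsLocalRing IntermediateField
open Matrix Matrix.SpecialLinearGroup CongruenceSubgroup
open scoped MatrixGroups ModularGroup
open Fermat.Agent.S18lib Fermat.Agent.S48lib.X1.Igusa
open Fermat.Agent.S28lib (twist)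
open Fermat.Agent.S48lib.X1 (tauK)
open Fermat.Agent.S48lib.X1.Wp (pmGamma1)

local notation "Qb" => AlgebraicClosure ℚ

attribute [local instance] GalData.action GalData.algebraBase

variable {M : ℕ} [NeZero M] {ζ : Qbˣ} (D : GalData M ζ) (A : ValuationSubring Qb) {p : ℕ}
  [Fact p.Prime] (hA : A.LiesOverPrime p) (hpM : ¬ p ∣ M) (hζ : IsPrimitiveRoot ζ M)

local notation "kA" => IsLocalRing.ResidueField A

/-! ### reductions of elements of `B₀` -/

theorem coe_algebraMap_adjoin (b : baseRing A hA) :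
    (((algebraMap (baseRing A hA) (Algebra.adjoin (baseRing A hA) D.V) b :
      Algebra.adjoin (baseRing A hA) D.V) : D.Ω) : LaurentSeries Qb) =
      qExpand Qb M ((b : FBar 1) : LaurentSeries Qb) :=
  D.coe_baseHom b

/-- the reduction on `B₀` is the level-one Gauss reduction, in the variable `Q` -/
theorem redΩ_algebraMap (b : baseRing A hA) :
    redΩ D A hA hpM hζ (algebraMap (baseRing A hA) (Algebra.adjoin (baseRing A hA) D.V) b) =
      qExpand kA M ((((baseDatum A hA).red ⟨b.1, b.2⟩ : FRes A 1)) : LaurentSeries kA) := by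
  have h := (GalData.compat_base (M := M) A hA).fracRed_eq b.2
  rw [redΩ_apply]
  refine Eq.trans ?_ h
  congr 1

/-- every element of `FRes A 1 = k(j̄)` is the reduction of an element of `B₀` -/
theorem exists_redΩ_algebraMap_eq (η : FRes A 1) :
    ∃ b : baseRing A hA,
      redΩ D A hA hpM hζ (algebraMap (baseRing A hA) (Algebra.adjoin (baseRing A hA) D.V) b) =
        qExpand kA M (η : LaurentSeries kA) := by
  obtain ⟨b, rfl⟩ := (baseDatum A hA).red_surjective η
  exact ⟨⟨b.1, b.2⟩, redΩ_algebraMap D A hA hpM hζ _⟩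

/-- constants are reductions of elements of `B₀` -/
theorem exists_redΩ_algebraMap_eq_C (c : kA) :
    ∃ b : baseRing A hA,
      redΩ D A hA hpM hζ (algebraMap (baseRing A hA) (Algebra.adjoin (baseRing A hA) D.V) b) =
        HahnSeries.C c := by
  obtain ⟨b, hb⟩ := exists_redΩ_algebraMap_eq D A hA hpM hζ (algebraMap kA (FRes A 1) c)
  refine ⟨b, hb.trans ?_⟩
  have : ((algebraMap kA (FRes A 1) c : FRes A 1) : LaurentSeries kA) =
      algebraMap kA (LaurentSeries kA) c := rfl
  rw [this, Fermat.Agent.S28lib.algebraMap_laurent_eq_C, qExpand_C]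

/-- `j̄(Q^M)` is the reduction of an element of `B₀` -/
theorem exists_redΩ_algebraMap_eq_j :
    ∃ b : baseRing A hA,
      redΩ D A hA hpM hζ (algebraMap (baseRing A hA) (Algebra.adjoin (baseRing A hA) D.V) b) =
        qExpand kA M (jqModC kA) :=
  exists_redΩ_algebraMap_eq D A hA hpM hζ ⟨jqModC kA, jqModC_mem_full kA 1⟩

/-- the level-one residue field is `k(j̄)` -/
theorem exists_mem_adjoin_coe_eq {k : Type*} [Field k]
    {Fk : IntermediateField k (LaurentSeries k)} {x : Fk}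
    (hx : (x : LaurentSeries k) = jqModC k) (η : LaurentSeries k)
    (hη : η ∈ modularFunctionFieldFullC k 1) :
    ∃ r : k⟮x⟯, ((r : Fk) : LaurentSeries k) = η := by
  have h1 : (k⟮x⟯ : IntermediateField k Fk).map Fk.val =
      IntermediateField.adjoin k {jqModC k} := by
    rw [IntermediateField.adjoin_map, Set.image_singleton]
    congr 2
  have h2 : modularFunctionFieldFullC k 1 ≤ IntermediateField.adjoin k {jqModC k} := by
    rw [modularFunctionFieldFullC, IntermediateField.adjoin_le_iff]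
    rintro y ⟨d, hd, hd1, rfl⟩
    have : d = 1 := Nat.dvd_one.mp hd1
    subst this
    rw [qExpand_one_apply]
    exact IntermediateField.subset_adjoin k _ rfl
  have h3 : η ∈ (k⟮x⟯ : IntermediateField k Fk).map Fk.val := by
    rw [h1]; exact h2 hη
  obtain ⟨r, hr, hrη⟩ := h3
  exact ⟨⟨r, hr⟩, hrη⟩

/-! ### shortcut instances for subfields of `k((q))`, `k` the residue field of `A` -/

section Instances

variable (A : ValuationSubring Qb)
  (Fk : IntermediateField (IsLocalRing.ResidueField A) (LaurentSeries (IsLocalRing.ResidueField A)))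

set_option synthInstance.maxHeartbeats 400000 in
instance instFieldSubKRed : Field ↥Fk := inferInstance

set_option synthInstance.maxHeartbeats 400000 in
instance instAlgebraSubKRed : Algebra (IsLocalRing.ResidueField A) ↥Fk := inferInstance

end Instances

/-! ### the generators -/

/-- `τ̄_(0,b)(Q^M)` is the reduction of `τ_(0,b)` -/
theorem redΩ_tauΩ (a b : ℤ) (hv : ¬ ((M : ℤ) ∣ a ∧ (M : ℤ) ∣ b)) :
    redΩ D A hA hpM hζ ⟨D.tauΩ a b hv, Algebra.subset_adjoin (D.tauΩ_mem_V a b hv)⟩ =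
      tauK M (unitK (zA A hζ)) a b := by
  rw [redΩ_eq_toK D A hA hpM hζ _ (tauA hA hpM hζ a b) (by
    show ((D.tauΩ a b hv : D.Ω) : LaurentSeries Qb) = _
    rw [GalData.coe_tauΩ, toL_tauA]), toK_tauA]

theorem qExpand_tauqL_eq {k : Type*} [Field k] (ξ : kˣ) (b : ℤ) :
    qExpand k M (tauqL k M ξ b) = tauK M ξ 0 b := by
  rw [tauqL, qExpand_tauq, tauK]

/-- `T` acts on the reductions by the twist `Q ↦ ξ̄ Q` -/
theorem redΩ_Tm_smul (r : Algebra.adjoin (baseRing A hA) D.V) :
    letI := actionR D A hA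
    redΩ D A hA hpM hζ (Tm M • r) = twist (unitK (D.xiA A)) (redΩ D A hA hpM hζ r) := by
  letI := actionR D A hA
  have hx' : ((r : D.Ω) : LaurentSeries Qb) ∈ fracSubring A := D.adjoin_le_S A hA hpM hζ r r.2
  rw [redΩ_apply, redΩ_apply, ← fracRed_twist _ hx']
  congr 1
  apply Subtype.ext
  show ((Tm M • (r : D.Ω) : D.Ω) : LaurentSeries Qb) = twist (unitL (D.xiA A)) _
  rw [D.coe_Tm_smul, D.unitL_xiA A]

/-! ### the pole count -/

include hA hpM in
set_option maxHeartbeats 1600000 in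
/-- **The residue-side pole count for `X₁(M)`** (double coset form). -/
theorem card_polesOf_le_doubleCoset_genL (hM : 1 < M) (c : ℤ) (hc : IsCoprime c (M : ℤ))
    (hfix : ∀ γ ∈ pmGamma1 M, ∀ (b : ℤ) (hv : ¬ ((M : ℤ) ∣ 0 ∧ (M : ℤ) ∣ c * b)),
      D.rho γ (D.tauΩ 0 (c * b) hv) = D.tauΩ 0 (c * b) hv)
    (Fk : IntermediateField kA (LaurentSeries kA))
    (hFk : Fk = genL kA M (unitK (zA A hζ) ^ c))
    {x : Fk} (hxj : (x : LaurentSeries kA) = jqModC kA)
    [FiniteDimensional kA⟮x⟯ Fk] [Algebra.IsSeparable kA⟮x⟯ Fk] :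
    Nat.card (Tame.polesOf (K := kA) x) ≤
      Nat.card (DoubleCoset.Quotient (Subgroup.zpowers (Tm M) : Set (SL(2, ZMod M)))
        (H1mod M : Set (SL(2, ZMod M)))) := by
  classical
  haveI := finite_SL2ZMod M
  letI := actionR D A hA
  haveI := smulCommClassR D A hA
  haveI := isInvariantR D A hA hpM hζ
  haveI : IsAlgClosed kA := Gink.isAlgClosed_residueField A
  have S := setupΩ D A hA hpM hζ
  set red := redΩ D A hA hpM hζ with hred
  -- separability
  have hsep : ∀ r, ∃ q : (ResidueField (baseRing A hA))[X],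
      q.Separable ∧ q.eval₂ S.resHom (red r) = 0 := by
    refine exists_separable_of_adjoin S
      ((fun r : Algebra.adjoin (baseRing A hA) D.V => (r : D.Ω)) ⁻¹' D.V)
      Algebra.adjoin_adjoin_coe_preimage ?_
    rintro ⟨v, hvR⟩ hv y hy z hz hyz
    obtain ⟨a, b, hab, rfl⟩ := hv
    obtain ⟨g, rfl⟩ := mem_conjSet.mp hy
    obtain ⟨g', rfl⟩ := mem_conjSet.mp hz
    apply Subtype.ext
    show g • D.tauΩ a b hab = g' • D.tauΩ a b hab
    exact D.redS_smul_tau_injective A hA hpM hζ hM a b hab g g' _ _ hyz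
  -- the embedding `q ↦ Q^M`
  set ιk : ↥Fk →+* LaurentSeries kA := (qExpand kA M).comp Fk.val.toRingHom with hιk_def
  have hιk_apply : ∀ θ : Fk, ιk θ = qExpand kA M (θ : LaurentSeries kA) := fun _ => rfl
  -- the generators
  set gens : Set ↥Fk :=
    (fun θ : Fk => (θ : LaurentSeries kA)) ⁻¹' (genSet kA M (unitK (zA A hζ) ^ c)) with hgens_def
  have hgens : IntermediateField.adjoin kA gens = ⊤ :=
    adjoin_coe_preimage_eq_top _ Fk hFk
  -- the three kinds of lifts
  have hconst : ∀ a : kA, ∃ b : baseRing A hA,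
      red (algebraMap _ _ b) = ιk (algebraMap kA Fk a) := by
    intro a
    obtain ⟨b, hb⟩ := exists_redΩ_algebraMap_eq_C D A hA hpM hζ a
    refine ⟨b, hb.trans ?_⟩
    rw [hιk_apply]
    have : ((algebraMap kA Fk a : Fk) : LaurentSeries kA) = algebraMap kA (LaurentSeries kA) a :=
      rfl
    rw [this, Fermat.Agent.S28lib.algebraMap_laurent_eq_C, qExpand_C]
  have hjlift : ∃ b : baseRing A hA, red (algebraMap _ _ b) = ιk x := by
    obtain ⟨b, hb⟩ := exists_redΩ_algebraMap_eq_j D A hA hpM hζ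
    exact ⟨b, hb.trans (by rw [hιk_apply, hxj])⟩
  have hnd : ∀ b : ℤ, ¬ (M : ℤ) ∣ b → ¬ ((M : ℤ) ∣ 0 ∧ (M : ℤ) ∣ c * b) := fun b hb h =>
    hb (hc.symm.dvd_of_dvd_mul_left h.2)
  have hτlift : ∀ (b : ℤ) (hb : ¬ (M : ℤ) ∣ b) (θ : Fk),
      (θ : LaurentSeries kA) = tauqL kA M (unitK (zA A hζ) ^ c) b →
      red ⟨D.tauΩ 0 (c * b) (hnd b hb), Algebra.subset_adjoin (D.tauΩ_mem_V _ _ _)⟩ = ιk θ := by
    intro b hb θ hθ
    rw [hιk_apply, hθ, tauqL_zpow, qExpand_tauqL_eq]
    exact redΩ_tauΩ D A hA hpM hζ 0 (c * b) (hnd b hb)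
  -- the image of `Fk` lies in the residue field of `R`
  have hιk : ∀ θ : Fk, ∃ r, red r = ιk θ := by
    refine forall_mem_range_of_adjoin kA S ιk gens hgens (fun a => ?_) (fun θ hθ => ?_)
    · obtain ⟨b, hb⟩ := hconst a
      exact ⟨_, hb⟩
    · rcases hθ with hθ | ⟨b, hb, hθ⟩
      · obtain ⟨b, hb⟩ := exists_redΩ_algebraMap_eq_j D A hA hpM hζ
        exact ⟨_, hb.trans (by rw [hιk_apply]; exact congrArg _ hθ.symm)⟩
      · exact ⟨_, hτlift b hb θ hθ⟩
  -- `H₁` acts trivially on the image of `Fk`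
  letI := resAction S
  have hH : ∀ h ∈ H1mod M, ∀ θ : Fk,
      h • toResField kA S ιk hιk θ = toResField kA S ιk hιk θ := by
    intro h hh θ
    obtain ⟨γ, hγ, rfl⟩ := Subgroup.mem_map.mp hh
    refine forall_smul_eq_of_adjoin kA S ιk hιk gens hgens (slmod M γ) (fun a => ?_)
      (fun θ hθ => ?_) θ
    · obtain ⟨b, hb⟩ := hconst a
      exact ⟨_, hb, by rw [smul_algebraMap]⟩
    · rcases hθ with hθ | ⟨b, hb, hθ⟩
      · obtain ⟨b, hb⟩ := exists_redΩ_algebraMap_eq_j D A hA hpM hζ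
        exact ⟨_, hb.trans (by rw [hιk_apply]; exact congrArg _ hθ.symm),
          by rw [smul_algebraMap]⟩
      · refine ⟨_, hτlift b hb θ hθ, ?_⟩
        congr 1
        apply Subtype.ext
        show slmod M γ • D.tauΩ 0 (c * b) (hnd b hb) = D.tauΩ 0 (c * b) (hnd b hb)
        rw [D.smul_def, D.rhoBar_slmod]
        exact hfix γ hγ b (hnd b hb)
  -- the remaining inputs
  have hx : Transcendental kA x := transcendental_of_coe_eq_jqModC hxj
  have he : ∀ a : kA, ιk (algebraMap kA Fk a) = HahnSeries.C a := by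
    intro a
    rw [hιk_apply]
    have : ((algebraMap kA Fk a : Fk) : LaurentSeries kA) = algebraMap kA (LaurentSeries kA) a :=
      rfl
    rw [this, Fermat.Agent.S28lib.algebraMap_laurent_eq_C, qExpand_C]
  have hxe : (ιk x).order < 0 := by
    rw [hιk_apply, hxj, Fermat.Agent.S28lib.order_qExpand, Fermat.Agent.S28lib.order_jqModC]
    have : (0 : ℤ) < M := by exact_mod_cast Nat.pos_of_ne_zero (NeZero.ne M)
    linarith
  have hck : ∀ a : kA, ∃ a' : ResidueField (baseRing A hA),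
      S.resHom a' = ιk (algebraMap kA Fk a) := by
    intro a
    obtain ⟨b, hb⟩ := hconst a
    exact ⟨residue _ b, hb⟩
  have hxk : ∃ a' : ResidueField (baseRing A hA), S.resHom a' = ιk x := by
    obtain ⟨b, hb⟩ := hjlift
    exact ⟨residue _ b, hb⟩
  have hκ : ∀ a' : ResidueField (baseRing A hA), ∃ r : kA⟮x⟯, ιk (r : Fk) = S.resHom a' := by
    intro a'
    obtain ⟨b, rfl⟩ := residue_surjective a'
    obtain ⟨r, hr⟩ := exists_mem_adjoin_coe_eq hxj
      ((((baseDatum A hA).red ⟨b.1, b.2⟩ : FRes A 1)) : LaurentSeries kA)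
      ((baseDatum A hA).red ⟨b.1, b.2⟩).2
    refine ⟨r, ?_⟩
    rw [hιk_apply, hr]
    exact (redΩ_algebraMap D A hA hpM hζ b).symm
  exact card_polesOf_le_doubleCoset_of_setup kA hx S hsep ιk hιk he hxe hck hxk hκ (H1mod M) hH
    (twist (unitK (D.xiA A))) (fun r => redΩ_Tm_smul D A hA hpM hζ r)
    (fun y => by rw [Fermat.Agent.S28lib.order_twist])

end Fermat.Agent.S48lib.X1.Red
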