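/-
S48lib / X1 / Red / PoleInstF1  (helper1, block P6-(hM), instance part 3 = final form).

**The pole count of `j̄` on the residue model `FRes1 A M` of `X₁(M)`**: for `A ⊆ ℚ̄` over `p ∤ M`,
`1 < M`, and any `x : FRes1 A M` whose `q`-expansion is `j̄` (for instance `jRes1 A M`, or the
Gauss reduction `G.redF j` of `j`),

  `#poles of x ≤ cuspCount1 M`            (`card_polesOf_le_cuspCount1`).

This is `card_polesOf_le_doubleCoset_genL` (`Red/PoleInst`) for helper3's Galois data
`omegaGalData hM` of `Ω₀(M)`, with `zbar M = zq M ^ cExp M` and helper7's converse of `(H₁)`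
(`expandField_F1_le_fixedBy`), combined with helper4's count of the double cosets.
-/
import Mathlib
import Fermat.Agent.S48lib.X1.Red.PoleInst
import Fermat.Agent.S48lib.X1.Red.CH0Inst
import Fermat.Agent.S48lib.X1.IgusaInst.EmbedF1
import Fermat.Agent.S48lib.X1.Field.Res
import Fermat.Agent.S48lib.X1.Field.FixedConv

set_option autoImplicit false
set_option linter.unusedSectionVars false
set_option linter.style.haveILetI false

noncomputable section

namespace Fermat.Agent.S48lib.X1.Red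

open ModularCurve HahnSeries Polynomial IsLocalRing IntermediateField
open Matrix Matrix.SpecialLinearGroup CongruenceSubgroup
open scoped MatrixGroups ModularGroup
open Fermat.Agent.S18lib Fermat.Agent.S48lib.X1.Igusa
open Fermat.Agent.S48lib.X1 (tauK)
open Fermat.Agent.S48lib.X1.Wp (pmGamma1)

local notation "Qb" => AlgebraicClosure ℚ

variable {M : ℕ} [NeZero M] (A : ValuationSubring Qb) {p : ℕ}
  [Fact p.Prime] (hA : A.LiesOverPrime p) (hpM : ¬ p ∣ M)

local notation "kA" => IsLocalRing.ResidueField A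

/-- the reduction of `zbar M` is the `cExp M`-th power of the reduction of `zq M` -/
theorem zRes_eq_unitK_zpow :
    zRes A M = unitK (zA A (zq_isPrimitiveRoot M)) ^ cExp M := by
  have h : zA A (zbar_spec M) = zA A (zq_isPrimitiveRoot M) ^ cExp M := by
    apply Units.ext
    apply Subtype.ext
    rw [coe_zA_zpow, ← zbar_eq_zq_zpow]
    rfl
  rw [zRes, h, unitK, map_zpow]
  rfl

theorem FRes1_eq_genL_zpow :
    FRes1 A M = genL kA M (unitK (zA A (zq_isPrimitiveRoot M)) ^ cExp M) := by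
  rw [FRes1, zRes_eq_unitK_zpow]

/-- `±Γ₁(M)` fixes `τ_(0, c b) ∈ Ω₀(M)` (`c = cExp M`): it is the expansion of the generator
`τ_(0,b)` of `FBar₁(M)`. -/
theorem rho_tauΩ_cExp_of_mem_pmGamma1 (hM : 1 < M) {γ : SL(2, ℤ)} (hγ : γ ∈ pmGamma1 M) (b : ℤ)
    (hv : ¬ ((M : ℤ) ∣ 0 ∧ (M : ℤ) ∣ cExp M * b)) :
    (omegaGalData hM).rho γ ((omegaGalData hM).tauΩ 0 (cExp M * b) hv) =
      (omegaGalData hM).tauΩ 0 (cExp M * b) hv := by
  have hb : ¬ (M : ℤ) ∣ b := fun h => hv ⟨dvd_zero _, Dvd.dvd.mul_left h _⟩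
  have hmem : tauK M (zq M) 0 (cExp M * b) ∈ expandField M (F1 M) := by
    rw [mem_expandField]
    refine ⟨tauqL Qb M (zbar M) b, tauqL_mem_FBar1 M hb, ?_⟩
    rw [zbar_eq_zq_zpow, tauqL_zpow, qExpand_tauqL]
  obtain ⟨hx, h⟩ := mem_fixedBy.mp (expandField_F1_le_fixedBy hγ hmem)
  exact h

include hA hpM in
/-- **(hM) for `X₁(M)`**: the number of poles of `j̄` on the residue model `FRes1 A M` is at most
the number of cusps of `X₁(M)`. -/
theorem card_polesOf_le_cuspCount1 (hM : 1 < M) {x : ↥(FRes1 A M)}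
    (hxj : (x : LaurentSeries kA) = jqModC kA)
    [FiniteDimensional kA⟮x⟯ ↥(FRes1 A M)] [Algebra.IsSeparable kA⟮x⟯ ↥(FRes1 A M)] :
    Nat.card (Tame.polesOf (K := kA) x) ≤ cuspCount1 M := by
  rw [cuspCount1_eq_card_doubleCoset]
  exact card_polesOf_le_doubleCoset_genL (omegaGalData hM) A hA hpM (zq_isPrimitiveRoot M) hM
    (cExp M) (isCoprime_cExp M)
    (fun γ hγ b hv => rho_tauΩ_cExp_of_mem_pmGamma1 hM hγ b hv)
    (FRes1 A M) (FRes1_eq_genL_zpow A) hxj

include hA hpM in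
/-- the special case `x = jRes1 A M` -/
theorem card_polesOf_jRes1_le_cuspCount1 (hM : 1 < M)
    [FiniteDimensional kA⟮jRes1 A M⟯ ↥(FRes1 A M)]
    [Algebra.IsSeparable kA⟮jRes1 A M⟯ ↥(FRes1 A M)] :
    Nat.card (Tame.polesOf (K := kA) (jRes1 A M)) ≤ cuspCount1 M :=
  card_polesOf_le_cuspCount1 A hA hpM hM (coe_jRes1 A M)

end Fermat.Agent.S48lib.X1.Red
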