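/-
S48lib / X1 / Red / SepBridge  (helper4, block P6).

**Separability of the residue field of an inert extension over `k(ȳ)`.**
For `I : InertInput G F' Fk'` (tower `k → Fk → Fk'`), `y ∈ F` with `Fk = k(ȳ)` and `t̄ = I.tk`
separable over `Fk`:

    Algebra.IsSeparable k⟮I.datum.redF (algebraMap F F' y)⟯ Fk'

— the instance hypothesis of `Red.exists_qRed_FRes1_of_inert`.  Instance: the level-one datum
`Igusa.baseDatum A hA` on `(FBar 1, FRes A 1)`, `y = Gin0.jF 1`, where `FRes A 1 = k(j̄)`.
-/
import Mathlib
import Fermat.Agent.S18lib.Weak.Inert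
import Fermat.Agent.S18lib.Weak.Level
import Fermat.Agent.S18lib.Haupt.BarEq
import Fermat.Agent.S48lib.X1.Igusa.X0Local

set_option autoImplicit false
set_option linter.unusedSectionVars false
set_option linter.style.haveILetI false

noncomputable section

namespace Fermat.Agent.S48lib.X1.Red

open Polynomial IntermediateField Module ModularCurve
open Fermat.Agent.S18lib

section Generic

variable {L : Type*} [Field L] {A : ValuationSubring L}
variable {F : Type*} [Field F] [Algebra L F]
variable {Fk : Type*} [Field Fk] [Algebra (IsLocalRing.ResidueField A) Fk]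
variable {G : GaussDatum A F Fk} {F' : Type*} [Field F'] [Algebra F F']
variable {Fk' : Type*} [Field Fk'] [Algebra Fk Fk']
variable [Algebra L F'] [IsScalarTower L F F']
variable [Algebra (IsLocalRing.ResidueField A) Fk']
  [IsScalarTower (IsLocalRing.ResidueField A) Fk Fk']
variable (I : InertInput G F' Fk')

local notation "k" => IsLocalRing.ResidueField A

/-- `k(ȳ)` upstairs is the image of `k(ȳ)` downstairs -/
theorem adjoin_redF_algebraMap_eq_map (y : F) :
    (k⟮I.datum.redF (algebraMap F F' y)⟯ : IntermediateField k Fk') =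
      (k⟮G.redF y⟯ : IntermediateField k Fk).map (IsScalarTower.toAlgHom k Fk Fk') := by
  rw [I.datum_redF_algebraMap, IntermediateField.adjoin_map, Set.image_singleton]
  rfl

/-- the residue extension of an inert input with separable `t̄` is separable -/
theorem isSeparable_of_inert (hsep : (minpoly Fk I.tk).Separable) : Algebra.IsSeparable Fk Fk' := by
  rw [← separableClosure.eq_top_iff, eq_top_iff]
  have hgen : IntermediateField.adjoin Fk ({I.tk} : Set Fk') = ⊤ :=
    IntermediateField.adjoin_eq_top_of_algebra Fk _ I.pbk.adjoin_gen_eq_top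
  rw [← hgen, IntermediateField.adjoin_le_iff]
  rintro x hx
  rw [Set.mem_singleton_iff] at hx
  subst hx
  exact hsep

/-- **separability over `k(ȳ)`** -/
theorem isSeparable_adjoin_redF_of_inert (y : F)
    (htop : (k⟮G.redF y⟯ : IntermediateField k Fk) = ⊤)
    (hsep : (minpoly Fk I.tk).Separable) :
    Algebra.IsSeparable (k⟮I.datum.redF (algebraMap F F' y)⟯ : IntermediateField k Fk') Fk' := by
  haveI h1 : Algebra.IsSeparable Fk Fk' := isSeparable_of_inert I hsep
  have hK' : (k⟮I.datum.redF (algebraMap F F' y)⟯ : IntermediateField k Fk') =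
      (⊤ : IntermediateField k Fk).map (IsScalarTower.toAlgHom k Fk Fk') := by
    rw [← htop]
    exact adjoin_redF_algebraMap_eq_map I y
  have hmem : ∀ x : Fk, algebraMap Fk Fk' x ∈
      (k⟮I.datum.redF (algebraMap F F' y)⟯ : IntermediateField k Fk') := fun x => by
    rw [hK']
    exact ⟨x, IntermediateField.mem_top, rfl⟩
  have hsurj : ∀ z ∈ (k⟮I.datum.redF (algebraMap F F' y)⟯ : IntermediateField k Fk'),
      ∃ x : Fk, algebraMap Fk Fk' x = z := fun z hz => by
    rw [hK'] at hz
    obtain ⟨x, -, rfl⟩ := hz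
    exact ⟨x, rfl⟩
  let f : Fk →+* ↥(k⟮I.datum.redF (algebraMap F F' y)⟯ : IntermediateField k Fk') :=
    (algebraMap Fk Fk').codRestrict
      (k⟮I.datum.redF (algebraMap F F' y)⟯ : IntermediateField k Fk').toSubfield.toSubring hmem
  have hf : Function.Bijective f := by
    refine ⟨f.injective, fun z => ?_⟩
    obtain ⟨x, hx⟩ := hsurj z.1 z.2
    exact ⟨x, Subtype.ext hx⟩
  exact Algebra.IsSeparable.of_equiv_equiv (RingEquiv.ofBijective f hf) (RingEquiv.refl Fk')
    (by ext x; rfl)

/-- the same, with the separability of the reduction of `pO` -/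
theorem isSeparable_adjoin_redF_of_inert' (y : F)
    (htop : (k⟮G.redF y⟯ : IntermediateField k Fk) = ⊤)
    (hsep : (I.pO.map G.red).Separable) :
    Algebra.IsSeparable (k⟮I.datum.redF (algebraMap F F' y)⟯ : IntermediateField k Fk') Fk' :=
  isSeparable_adjoin_redF_of_inert I y htop (by rw [← I.map_red]; exact hsep)

end Generic

/-! ### level one: `FRes A 1 = k(j̄)` -/

section LevelOne

local notation "Qb" => AlgebraicClosure ℚ

variable (A : ValuationSubring Qb) {ℓ : ℕ} [Fact ℓ.Prime]

local notation "k" => IsLocalRing.ResidueField A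

/-- `FRes A 1 = k(j̄)` -/
theorem adjoin_jK_one_eq_top :
    (k⟮Gink.jK A 1⟯ : IntermediateField k (FRes A 1)) = ⊤ := by
  apply Haupt.adjoin_eq_top_of_coe
  rw [Gink.coe_jK, modularFunctionFieldFullC]
  congr 1
  ext x
  simp only [divisorExpansionsC, Set.mem_ofPred_eq, Set.mem_singleton_iff]
  constructor
  · rintro ⟨d, hd, hd1, rfl⟩
    have : d = 1 := Nat.dvd_one.mp hd1
    subst this
    exact qExpand_one_apply _
  · rintro rfl
    exact ⟨1, inferInstance, dvd_rfl, (qExpand_one_apply _).symm⟩

/-- the reduction of `j` generates the level-one residue field -/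
theorem adjoin_redF_jF_one_eq_top (hA : A.LiesOverPrime ℓ) :
    (k⟮(Igusa.baseDatum A hA).redF (Gin0.jF 1)⟯ : IntermediateField k (FRes A 1)) = ⊤ := by
  rw [Igusa.baseDatum, V.gaussDatum_redF_jF]
  exact adjoin_jK_one_eq_top A

variable {A}
variable {F' : Type*} [Field F'] [Algebra (FBar 1) F'] [Algebra Qb F'] [IsScalarTower Qb (FBar 1) F']
  {Fk' : Type*} [Field Fk'] [Algebra (FRes A 1) Fk'] [Algebra (IsLocalRing.ResidueField A) Fk']
  [IsScalarTower (IsLocalRing.ResidueField A) (FRes A 1) Fk']

/-- **separability over `k(j̄)` for an inert extension of the level-one datum** -/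
theorem isSeparable_adjoin_redF_jF_of_inert (hA : A.LiesOverPrime ℓ)
    (I : InertInput (Igusa.baseDatum A hA) F' Fk')
    (hsep : (minpoly (FRes A 1) I.tk).Separable) :
    Algebra.IsSeparable
      (k⟮I.datum.redF (algebraMap (FBar 1) F' (Gin0.jF 1))⟯ : IntermediateField k Fk') Fk' :=
  isSeparable_adjoin_redF_of_inert I (Gin0.jF 1) (adjoin_redF_jF_one_eq_top A hA) hsep

end LevelOne

end Fermat.Agent.S48lib.X1.Red
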