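/-
S48lib / X1 / Red / QRedInert  (helper4, block P6, FINAL ASSEMBLY from an inert input over the
level-one datum).

For ANY `I : InertInput (Igusa.baseDatum A hA) (FB1 M) ↥(FRes1 A M)` (w.r.t. helper8's
`Igusa.algebraF1`) with generator `I.t = τ_(0,1) = tauBar hM`, coefficientwise reduction
(`SeriesCompat I.datum`), separable `t̄` and the pole count `hc`:

    ∃ C : ES.QRed A (F1 M) (FRes1 A M), C.D.toGaussDatum = I.datum ∧ C.genus = genus1 M.

The level-one frame `(j; θ₁)` (`V.gaussDatum_isFrameFamily_jF 1`), its integrality, the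
integrality of `τ_(0,1)` (`toL_tauqA`) and the separability over `k(j̄)` (`Red/SepBridge`) are
plugged in.
-/
import Mathlib
import Fermat.Agent.S48lib.X1.Red.QRedF1Inst
import Fermat.Agent.S48lib.X1.Red.SepBridge
import Fermat.Agent.S48lib.X1.Igusa.Inert

set_option autoImplicit false
set_option linter.unusedSectionVars false
set_option linter.style.haveILetI false

noncomputable section

namespace Fermat.Agent.S48lib.X1.Red

open AlgebraicCurve ModularCurve IntermediateField Module
open Fermat.Agent.S18lib Fermat.Agent.ProgramR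
open Fermat.Agent.S48lib.X1.HeckeJ Fermat.Agent.S48lib.X1.Wp
open Fermat.Agent.S48lib.X1.ES Fermat.Agent.S48lib.X1.Igusa
open scoped MatrixGroups

/-- `ℚ̄` -/
local notation "Qb" => AlgebraicClosure ℚ

variable {M : ℕ} [NeZero M] {A : ValuationSubring Qb} {p : ℕ} [Fact p.Prime]

local notation "k" => IsLocalRing.ResidueField A

attribute [local instance] Igusa.algebraF1 Igusa.isScalarTower_F1

/-- the expansion of the image of `j` in `FBar₁(M)` -/
theorem coe_algebraMap_jF_one :
    ((algebraMap (FBar 1) (FB1 M) (Gin0.jF 1) : FB1 M) : LaurentSeries Qb) = jqModC Qb := by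
  rw [algebraMap_F1_apply, coe_inclF1, Gin0.coe_jF]

/-- the image in `FBar₁(M)` of an integral element of level one is integral -/
theorem algebraMap_elemL_mem_intSubring (a : V.IntRing 1 A) :
    algebraMap (FBar 1) (FB1 M) (V.elemL a) ∈ Equiv.intSubring A (F1 M) := by
  refine ⟨a.1, ?_⟩
  rw [algebraMap_F1_apply, coe_inclF1, V.coe_elemL]

/-- `τ_(0,1)` is an `A`-integral expansion -/
theorem tauBar_mem_intSubring (hA : A.LiesOverPrime p) (hpM : ¬ p ∣ M) (hM : 1 < M) :
    tauBar hM ∈ Equiv.intSubring A (F1 M) :=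
  ⟨tauqA hA hpM 1, by rw [toL_tauqA, coe_tauBar]⟩

section Assembly

variable (hA : A.LiesOverPrime p) (hpM : ¬ p ∣ M) (h49 : 4 ∣ M ∨ 9 ∣ M)
  [Algebra (FRes A 1) ↥(FRes1 A M)]
  [IsScalarTower (IsLocalRing.ResidueField A) (FRes A 1) ↥(FRes1 A M)]
  (I : InertInput (baseDatum A hA) (FB1 M) ↥(FRes1 A M))
  (hIt : I.t ∈ Equiv.intSubring A (F1 M))
  (hcompat : SeriesCompat I.datum (Equiv.inclQ (F1 M)) (Equiv.inclK (FRes1 A M)))
  (hsep : (minpoly (FRes A 1) I.tk).Separable)
  (hc : Nat.card (Tame.polesOf (K := IsLocalRing.ResidueField A)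
    (I.datum.redF (algebraMap (FBar 1) (FB1 M) (Gin0.jF 1)))) ≤ cuspCount1 M)

include hpM h49 hIt hcompat hsep hc in
/-- **P6 from an inert input over the level-one datum.** -/
theorem exists_qRed_F1_of_inertInput :
    ∃ C : QRed A (F1 M) (FRes1 A M), C.D.toGaussDatum = I.datum ∧ C.genus = genus1 M := by
  haveI := isSeparable_adjoin_redF_jF_of_inert hA I hsep
  exact exists_qRed_FRes1_of_inert hA hpM h49 I
    (V.gaussDatum_isFrameFamily_jF 1 A not_dvd_one_of_prime hA)
    coe_algebraMap_jF_one (fun i => algebraMap_elemL_mem_intSubring _) hIt hcompat hc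

include hpM h49 hIt hcompat hsep hc in
/-- the frame of the resulting reduction datum: `(j; θ_i τ^j)` -/
theorem exists_qRed_F1_of_inertInput_frame :
    ∃ C : QRed A (F1 M) (FRes1 A M), C.D.toGaussDatum = I.datum ∧ C.genus = genus1 M ∧
      WFrame.IsFrameFamily C.D.toGaussDatum (algebraMap (FBar 1) (FB1 M) (Gin0.jF 1))
        (I.frameFam fun i => V.elemL (V.frameTheta 1 p A not_dvd_one_of_prime i)) := by
  obtain ⟨C, hC, hg⟩ := exists_qRed_F1_of_inertInput hA hpM h49 I hIt hcompat hsep hc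
  refine ⟨C, hC, hg, ?_⟩
  rw [hC]
  exact I.isFrameFamily (V.gaussDatum_isFrameFamily_jF 1 A not_dvd_one_of_prime hA)

end Assembly

/-! ### with the pole count as a statement about `FRes1 A M` alone (helper1's (hM)) -/

section Pole

variable (hA : A.LiesOverPrime p) (hpM : ¬ p ∣ M) (h49 : 4 ∣ M ∨ 9 ∣ M)
  [Algebra (FRes A 1) ↥(FRes1 A M)]
  [IsScalarTower (IsLocalRing.ResidueField A) (FRes A 1) ↥(FRes1 A M)]
  (I : InertInput (baseDatum A hA) (FB1 M) ↥(FRes1 A M))
  (hIt : I.t ∈ Equiv.intSubring A (F1 M))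
  (hcompat : SeriesCompat I.datum (Equiv.inclQ (F1 M)) (Equiv.inclK (FRes1 A M)))
  (hsep : (minpoly (FRes A 1) I.tk).Separable)
  (hpole : ∀ x : ↥(FRes1 A M), ((x : ↥(FRes1 A M)) :
      LaurentSeries (IsLocalRing.ResidueField A)) = jqModC (IsLocalRing.ResidueField A) →
    ∀ [FiniteDimensional (IsLocalRing.ResidueField A)⟮x⟯ ↥(FRes1 A M)]
      [Algebra.IsSeparable (IsLocalRing.ResidueField A)⟮x⟯ ↥(FRes1 A M)],
      Nat.card (Tame.polesOf (K := IsLocalRing.ResidueField A) x) ≤ cuspCount1 M)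

include hcompat in
/-- the reduction of `j` is `j̄ = j(q)` -/
theorem coe_redF_algebraMap_jF_one :
    ((I.datum.redF (algebraMap (FBar 1) (FB1 M) (Gin0.jF 1)) : ↥(FRes1 A M)) :
      LaurentSeries k) = jqModC k := by
  have h1 : algebraMap (FBar 1) (FB1 M) (Gin0.jF 1) = jBq (F1 M) (jq_mem_F1 M) :=
    Subtype.ext coe_algebraMap_jF_one
  rw [h1]
  exact coe_redF_jBq I.datum hcompat

include hpM h49 hIt hcompat hsep hpole in
/-- **P6 from an inert input over the level-one datum and the pole count of `FRes1 A M`.** -/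
theorem exists_qRed_F1_of_inertInput_of_pole :
    ∃ C : QRed A (F1 M) (FRes1 A M), C.D.toGaussDatum = I.datum ∧ C.genus = genus1 M ∧
      WFrame.IsFrameFamily C.D.toGaussDatum (algebraMap (FBar 1) (FB1 M) (Gin0.jF 1))
        (I.frameFam fun i => V.elemL (V.frameTheta 1 p A not_dvd_one_of_prime i)) := by
  haveI := isSeparable_adjoin_redF_jF_of_inert hA I hsep
  haveI := finiteDimensional_adjoin_redF_of_frame
    (I.isFrameFamily (V.gaussDatum_isFrameFamily_jF 1 A not_dvd_one_of_prime hA))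
  exact exists_qRed_F1_of_inertInput_frame hA hpM h49 I hIt hcompat hsep
    (hpole _ (coe_redF_algebraMap_jF_one hA I hcompat))

end Pole

end Fermat.Agent.S48lib.X1.Red
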