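/-
S48lib / X1 / Red / FrameDeg  (helper4, block P6).

**A frame computes both field degrees.**  If a weak datum `G : GaussDatum A F Fk` has a frame
`(y; θ₁, …, θₙ)` (`WFrame.IsFrameFamily G y θ`) then

* `ȳ = G.redF y` is transcendental over `k`,
* `θ₁, …, θₙ` is a basis of `F` over `L(y)` and `θ̄₁, …, θ̄ₙ` is a basis of `Fk` over `k(ȳ)`:

      [F : L(y)] = n = [Fk : k(ȳ)]     (`finrank_adjoin_redF_eq`).

So the degree hypothesis `hd` of the squeeze is a consequence of the frame alone.
-/
import Mathlib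
import Fermat.Agent.S18lib.Norm.Base

set_option autoImplicit false
set_option linter.unusedSectionVars false
set_option linter.style.haveILetI false

noncomputable section

namespace Fermat.Agent.S48lib.X1.Red

open Polynomial IntermediateField Module
open Fermat.Agent.S18lib
open Fermat.Agent.S18lib.Frame (monomialsFam)

/-! ### generic part: a field `E/K`, `z ∈ E`, `θ : Fin n → E` -/

section Generic

variable {K E : Type*} [Field K] [Field E] [Algebra K E] {z : E} {n : ℕ} {θ : Fin n → E}

/-- if the monomials `z^a θ_i` are `K`-linearly independent, a `K[z]`-combination of the `θ_i`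
vanishes only trivially -/
theorem eq_zero_of_sum_aeval_eq_zero (H1 : ∀ t, LinearIndependent K (monomialsFam z θ t))
    (p : Fin n → K[X]) (hp : ∑ j, aeval z (p j) * θ j = 0) (j : Fin n) : p j = 0 := by
  classical
  set t := Finset.univ.sup (fun j => (p j).natDegree) with ht
  have hdeg : ∀ j, (p j).natDegree < t + 1 := fun j =>
    Nat.lt_succ_of_le (Finset.le_sup (f := fun j => (p j).natDegree) (Finset.mem_univ j))
  rw [WFrame.sum_aeval_eq_sum_monomials p hdeg] at hp
  have hp' : ∑ m : Fin (t + 1) × Fin n, (p m.2).coeff m.1 • monomialsFam z θ t m = 0 := by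
    simpa [Algebra.smul_def] using hp
  have hc := Fintype.linearIndependent_iff.1 (H1 t) _ hp'
  ext a
  rw [coeff_zero]
  by_cases ha : a < t + 1
  · exact hc (⟨a, ha⟩, j)
  · exact coeff_eq_zero_of_natDegree_lt (lt_of_lt_of_le (hdeg j) (not_lt.1 ha))

/-- `z` is transcendental -/
theorem transcendental_of_monomials (hn : 0 < n)
    (H1 : ∀ t, LinearIndependent K (monomialsFam z θ t)) : Transcendental K z := by
  classical
  rw [transcendental_iff]
  intro q hq
  let i₀ : Fin n := ⟨0, hn⟩
  have hsum : ∑ j, aeval z ((fun j => if j = i₀ then q else 0) j) * θ j = 0 := by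
    rw [Finset.sum_eq_single i₀]
    · simp [hq]
    · intro j _ hj; simp [hj]
    · intro hj; exact absurd (Finset.mem_univ _) hj
  have := eq_zero_of_sum_aeval_eq_zero H1 _ hsum i₀
  simpa using this

/-- the `θ_i` are linearly independent over `K[z]` -/
theorem linearIndependent_algebraAdjoin (H1 : ∀ t, LinearIndependent K (monomialsFam z θ t)) :
    LinearIndependent (Algebra.adjoin K ({z} : Set E)) θ := by
  rw [Fintype.linearIndependent_iff]
  intro c hc j
  have hcq : ∀ j, ∃ q : K[X], aeval z q = ((c j : Algebra.adjoin K ({z} : Set E)) : E) := by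
    intro j
    have h1 : ((c j : Algebra.adjoin K ({z} : Set E)) : E) ∈ (aeval z : K[X] →ₐ[K] E).range := by
      rw [← Algebra.adjoin_singleton_eq_range_aeval]
      exact (c j).2
    exact h1
  choose q hq using hcq
  have hsum : ∑ j, aeval z (q j) * θ j = 0 := by
    rw [← hc]
    refine Finset.sum_congr rfl fun j _ => ?_
    rw [hq j, Subalgebra.smul_def, smul_eq_mul]
  have h0 := eq_zero_of_sum_aeval_eq_zero H1 q hsum j
  apply Subtype.ext
  rw [← hq j, h0, map_zero]
  rfl

open scoped IntermediateField.algebraAdjoinAdjoin in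
/-- the `θ_i` are linearly independent over `K(z)` -/
theorem linearIndependent_adjoin_simple (H1 : ∀ t, LinearIndependent K (monomialsFam z θ t)) :
    LinearIndependent K⟮z⟯ θ :=
  (LinearIndependent.iff_fractionRing (Algebra.adjoin K ({z} : Set E)) K⟮z⟯).1
    (linearIndependent_algebraAdjoin H1)

theorem aeval_mem_adjoin_simple (r : K[X]) : aeval z r ∈ K⟮z⟯ := by
  refine algebra_adjoin_le_adjoin K ({z} : Set E) ?_
  rw [Algebra.adjoin_singleton_eq_range_aeval]
  exact ⟨r, rfl⟩

/-- the `θ_i` span `E` over `K(z)` -/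
theorem span_adjoin_simple_eq_top (hz : Transcendental K z)
    (H2 : ∀ f : E, ∃ (q : K[X]) (p : Fin n → K[X]), q ≠ 0 ∧
      f * aeval z q = ∑ i, aeval z (p i) * θ i) :
    Submodule.span K⟮z⟯ (Set.range θ) = ⊤ := by
  rw [eq_top_iff]
  intro f _
  obtain ⟨q, p, hq, hf⟩ := H2 f
  have hq0 : aeval z q ≠ 0 := fun h0 => hq (transcendental_iff.1 hz q h0)
  have hfeq : f = ∑ i, ((⟨aeval z (p i), aeval_mem_adjoin_simple _⟩ : K⟮z⟯) *
      (⟨aeval z q, aeval_mem_adjoin_simple _⟩ : K⟮z⟯)⁻¹) • θ i := by
    have h1 : ∀ i, ((⟨aeval z (p i), aeval_mem_adjoin_simple _⟩ : K⟮z⟯) *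
        (⟨aeval z q, aeval_mem_adjoin_simple _⟩ : K⟮z⟯)⁻¹) • θ i =
        aeval z (p i) * θ i * (aeval z q)⁻¹ := by
      intro i
      rw [Algebra.smul_def, IntermediateField.algebraMap_apply]
      push_cast
      ring
    simp only [h1]
    rw [← Finset.sum_mul, ← hf, mul_assoc, mul_inv_cancel₀ hq0, mul_one]
  rw [hfeq]
  exact Submodule.sum_mem _ fun i _ =>
    Submodule.smul_mem _ _ (Submodule.subset_span ⟨i, rfl⟩)

/-- **`[E : K(z)] = n`** -/
theorem finrank_adjoin_simple_eq (hn : 0 < n)
    (H1 : ∀ t, LinearIndependent K (monomialsFam z θ t))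
    (H2 : ∀ f : E, ∃ (q : K[X]) (p : Fin n → K[X]), q ≠ 0 ∧
      f * aeval z q = ∑ i, aeval z (p i) * θ i) :
    FiniteDimensional K⟮z⟯ E ∧ finrank K⟮z⟯ E = n := by
  have hz := transcendental_of_monomials hn H1
  let b : Basis (Fin n) K⟮z⟯ E :=
    Basis.mk (linearIndependent_adjoin_simple H1) (span_adjoin_simple_eq_top hz H2).ge
  exact ⟨Module.Finite.of_basis b, by rw [Module.finrank_eq_card_basis b, Fintype.card_fin]⟩

end Generic

/-! ### the two sides of a frame -/

section Frame

variable {L : Type*} [Field L] {A : ValuationSubring L}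
variable {F : Type*} [Field F] [Algebra L F]
variable {Fk : Type*} [Field Fk] [Algebra (IsLocalRing.ResidueField A) Fk]
variable {G : GaussDatum A F Fk} {y : F} {n : ℕ} {θ : Fin n → F}

local notation "k" => IsLocalRing.ResidueField A

/-- the reduced monomials are linearly independent -/
theorem linearIndependent_monomials_redF (h : WFrame.IsFrameFamily G y θ) (t : ℕ) :
    LinearIndependent k (monomialsFam (G.redF y) (fun i => G.redF (θ i)) t) := by
  have hinj : Function.Injective
      (fun m : Fin (t + 1) × Fin n => (((m.1 : ℕ), m.2) : ℕ × Fin n)) := by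
    rintro ⟨a, i⟩ ⟨a', i'⟩ hh
    simp only [Prod.mk.injEq] at hh
    exact Prod.ext (Fin.ext hh.1) hh.2
  exact h.red_indep.comp _ hinj

/-- `ȳ` is transcendental over `k` -/
theorem transcendental_redF_of_frame (h : WFrame.IsFrameFamily G y θ) :
    Transcendental k (G.redF y) :=
  transcendental_of_monomials h.n_pos (linearIndependent_monomials_redF h)

/-- `y` is transcendental over `L` -/
theorem transcendental_of_frame (h : WFrame.IsFrameFamily G y θ) : Transcendental L y :=
  transcendental_of_monomials h.n_pos fun t => (h.isOrthonormal_monomials t).linearIndependent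

/-- the reduction of the representation property of a frame -/
theorem exists_repr_redF (h : WFrame.IsFrameFamily G y θ) (x : Fk) :
    ∃ (q : k[X]) (p : Fin n → k[X]), q ≠ 0 ∧
      x * aeval (G.redF y) q = ∑ i, aeval (G.redF y) (p i) * G.redF (θ i) := by
  classical
  obtain ⟨⟨f, hfO⟩, rfl⟩ := G.red_surjective x
  obtain ⟨q, p, hq, hfq⟩ := h.exists_repr f
  obtain ⟨c', hc', hcd⟩ := G.exists_const_mul_redF_ne_zero (h.aeval_ne_zero hq)
  set q' : L[X] := C c' * q with hq'
  set p' : Fin n → L[X] := fun i => C c' * p i with hp'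
  have hd : aeval y q' = algebraMap L F c' * aeval y q := by
    rw [hq', map_mul, aeval_C]
  have hdne : G.redF (aeval y q') ≠ 0 := by rw [hd]; exact hcd
  have hdO : aeval y q' ∈ G.O := G.mem_of_redF_ne_zero hdne
  have hfq' : f * aeval y q' = ∑ i, aeval y (p' i) * θ i := by
    rw [hd, mul_left_comm, hfq, Finset.mul_sum]
    refine Finset.sum_congr rfl fun i _ => ?_
    rw [hp', map_mul, aeval_C, mul_assoc]
  have hsumO : ∑ i, aeval y (p' i) * θ i ∈ G.O := by
    rw [← hfq']; exact G.O.mul_mem _ _ hfO hdO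
  have hcoeffp : ∀ i a, (p' i).coeff a ∈ A := fun i a =>
    h.coeff_mem_of_sum_aeval_mem p' hsumO i a
  have hcoeffq : ∀ a, q'.coeff a ∈ A := Norm.coeff_mem_of_aeval_mem h q' hdO
  have hpO : ∀ i, aeval y (p' i) ∈ G.O := fun i =>
    Norm.aeval_mem_of_coeff_mem G h.y_mem _ (hcoeffp i)
  refine ⟨Norm.redPoly q' hcoeffq, fun i => Norm.redPoly (p' i) (hcoeffp i), ?_, ?_⟩
  · intro h0
    apply hdne
    rw [Norm.redF_aeval G h.y_mem q' hcoeffq, h0, map_zero]
  · rw [← Norm.redF_aeval G h.y_mem q' hcoeffq, ← G.redF_of_mem hfO, ← G.redF_mul hfO hdO, hfq',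
      G.redF_sum _ _ fun i _ => G.O.mul_mem _ _ (hpO i) (h.θ_mem i)]
    refine Finset.sum_congr rfl fun i _ => ?_
    rw [G.redF_mul (hpO i) (h.θ_mem i), Norm.redF_aeval G h.y_mem (p' i) (hcoeffp i)]

/-- **`[F : L(y)] = n`** for a frame `(y; θ₁, …, θₙ)` -/
theorem finrank_adjoin_of_frame (h : WFrame.IsFrameFamily G y θ) :
    FiniteDimensional L⟮y⟯ F ∧ finrank L⟮y⟯ F = n :=
  finrank_adjoin_simple_eq h.n_pos
    (fun t => (h.isOrthonormal_monomials t).linearIndependent) h.exists_repr

/-- **`[Fk : k(ȳ)] = n`** for a frame `(y; θ₁, …, θₙ)` -/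
theorem finrank_adjoin_redF_of_frame (h : WFrame.IsFrameFamily G y θ) :
    FiniteDimensional k⟮G.redF y⟯ Fk ∧ finrank k⟮G.redF y⟯ Fk = n :=
  finrank_adjoin_simple_eq h.n_pos (linearIndependent_monomials_redF h) (exists_repr_redF h)

theorem finiteDimensional_adjoin_redF_of_frame (h : WFrame.IsFrameFamily G y θ) :
    FiniteDimensional k⟮G.redF y⟯ Fk := (finrank_adjoin_redF_of_frame h).1

/-- **a frame preserves the degree over the frame variable**: `[Fk : k(ȳ)] = [F : L(y)]` -/
theorem finrank_adjoin_redF_eq (h : WFrame.IsFrameFamily G y θ) :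
    finrank k⟮G.redF y⟯ Fk = finrank L⟮y⟯ F := by
  rw [(finrank_adjoin_redF_of_frame h).2, (finrank_adjoin_of_frame h).2]

end Frame

end Fermat.Agent.S48lib.X1.Red
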