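/-
S48lib / X1 / Red / QRedF1Pole  (helper1).

helper4's final P6 assembly `Red.exists_qRed_FRes1` / `Red.exists_qRed_FRes1_of_inert`
(`Red/QRedF1Inst`) with the pole-count hypothesis `hc` discharged by
`Red.card_polesOf_le_cuspCount1` (`Red/PoleInstF1`): the reduction `G'.redF j` has expansion `j̄`
(helper6's `coe_redF_jBq`) and `FRes1 A M / k(j̄)` is finite by the frame (helper4's `FrameDeg`).
-/
import Mathlib
import Fermat.Agent.S48lib.X1.Red.QRedF1Inst
import Fermat.Agent.S48lib.X1.Red.PoleInstF1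

set_option autoImplicit false
set_option linter.unusedSectionVars false
set_option linter.style.haveILetI false

noncomputable section

namespace Fermat.Agent.S48lib.X1.Red

open AlgebraicCurve ModularCurve IntermediateField Module
open Fermat.Agent.S18lib Fermat.Agent.ProgramR
open Fermat.Agent.S48lib.X1.HeckeJ Fermat.Agent.S48lib.X1.Wp
open Fermat.Agent.S48lib.X1.ES Fermat.Agent.S48lib.X1.Igusa
open scoped MatrixGroups

/-- `ℚ̄` -/
local notation "Qb" => AlgebraicClosure ℚ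

variable {M : ℕ} [NeZero M] {A : ValuationSubring Qb} {p : ℕ} [Fact p.Prime]

local notation "k" => IsLocalRing.ResidueField A

section Assembly

variable (hA : A.LiesOverPrime p) (hpM : ¬ p ∣ M) (h49 : 4 ∣ M ∨ 9 ∣ M)
  (G' : GaussDatum A (FBq (F1 M)) ↥(FRes1 A M))
  (hcompat : SeriesCompat G' (Equiv.inclQ (F1 M)) (Equiv.inclK (FRes1 A M)))
  {y : FBq (F1 M)} (hy : (y : LaurentSeries Qb) = jqModC Qb)
  {n : ℕ} {θ : Fin n → FBq (F1 M)}
  (hθ : ∀ i, θ i ∈ Equiv.intSubring A (F1 M))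
  (hfr : WFrame.IsFrameFamily G' y θ)
  [Algebra.IsSeparable (IsLocalRing.ResidueField A)⟮G'.redF y⟯ ↥(FRes1 A M)]

include hA hpM h49 hcompat hy hfr in
/-- the pole count `hc` of `exists_qRed_FRes1`, from the frame. -/
theorem card_polesOf_redF_le_cuspCount1 :
    Nat.card (Tame.polesOf (K := IsLocalRing.ResidueField A) (G'.redF y)) ≤ cuspCount1 M := by
  have hM : 1 < M := lt_of_lt_of_le (by norm_num) (four_le_of_dvd h49)
  haveI := finiteDimensional_adjoin_redF_of_frame hfr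
  have hxj : ((G'.redF y : ↥(FRes1 A M)) : LaurentSeries k) = jqModC k := by
    have hyj : y = jBq (F1 M) (jq_mem_F1 M) := Subtype.ext (by rw [hy]; rfl)
    rw [hyj]
    exact coe_redF_jBq G' hcompat
  exact card_polesOf_le_cuspCount1 A hA hpM hM hxj

include hA hpM h49 hcompat hy hθ hfr in
/-- **P6 at `FRes1 A M`, without the pole-count hypothesis.** -/
theorem exists_qRed_FRes1_of_frame :
    ∃ C : QRed A (F1 M) (FRes1 A M), C.D.toGaussDatum = G' ∧ C.genus = genus1 M :=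
  exists_qRed_FRes1 hA hpM h49 G' hcompat hy hθ hfr
    (card_polesOf_redF_le_cuspCount1 hA hpM h49 G' hcompat hy hfr)

end Assembly

section Inert

variable {F₁ : Type*} [Field F₁] [Algebra Qb F₁]
  {Fk₁ : Type*} [Field Fk₁] [Algebra (IsLocalRing.ResidueField A) Fk₁]
  [Algebra F₁ (FBq (F1 M))] [IsScalarTower Qb F₁ (FBq (F1 M))]
  [Algebra Fk₁ ↥(FRes1 A M)] [IsScalarTower (IsLocalRing.ResidueField A) Fk₁ ↥(FRes1 A M)]
  (hA : A.LiesOverPrime p) (hpM : ¬ p ∣ M) (h49 : 4 ∣ M ∨ 9 ∣ M)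
  {G₁ : GaussDatum A F₁ Fk₁} (I : InertInput G₁ (FBq (F1 M)) ↥(FRes1 A M))
  {y₁ : F₁} {n : ℕ} {θ₁ : Fin n → F₁} (h₁ : WFrame.IsFrameFamily G₁ y₁ θ₁)
  (hy₁ : ((algebraMap F₁ (FBq (F1 M)) y₁ : FBq (F1 M)) : LaurentSeries Qb) = jqModC Qb)
  (hθ₁ : ∀ i, algebraMap F₁ (FBq (F1 M)) (θ₁ i) ∈ Equiv.intSubring A (F1 M))
  (ht : I.t ∈ Equiv.intSubring A (F1 M))
  (hcompat : SeriesCompat I.datum (Equiv.inclQ (F1 M)) (Equiv.inclK (FRes1 A M)))
  [Algebra.IsSeparable
    (IsLocalRing.ResidueField A)⟮I.datum.redF (algebraMap F₁ (FBq (F1 M)) y₁)⟯ ↥(FRes1 A M)]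

include hA hpM h49 h₁ hy₁ hθ₁ ht hcompat in
/-- **P6 at `FRes1 A M` from the Igusa step, without the pole-count hypothesis.** -/
theorem exists_qRed_FRes1_of_inert_frame :
    ∃ C : QRed A (F1 M) (FRes1 A M), C.D.toGaussDatum = I.datum ∧ C.genus = genus1 M :=
  exists_qRed_FRes1_of_frame hA hpM h49 I.datum hcompat hy₁
    (Equiv.frameFam_mem_intSubring I θ₁ hθ₁ ht) (I.isFrameFamily h₁)

end Inert

end Fermat.Agent.S48lib.X1.Red
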